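import Mathlib
import Fermat.Prelude.Def_ExtCitation_AdmissibleExtension_v2
import Fermat.Prelude.Def_ClassGroup_GaloisAction
import Fermat.Agent.S14.Plan

/-!
# S14, Thaine route: contracts

`K = ℚ(ζ_p)`, `p ≥ 5` (the case `p = 3` is `ThreeStmt`).  A field datum `L / K` (unramified,
Galois of degree `p`, `Gal(K/ℚ)` acting on `Gal(L/K)` through `ω⁻¹`) gives by Kummer theory an
algebraic integer `α` with the four properties of `IsKummerDatum` (`KummerStmt`).  Write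
`(α) = 𝔞 ^ p`.

* Case A (`𝔞` principal): `α = ε β ^ p` with a unit `ε` of `ω²`-type; the `ω²`-part of the
  units modulo `p`-th powers is generated by the cyclotomic unit `ξ` (`UnitRankStmt`), and
  `ξ ^ k` is a `p`-th power modulo `π ^ 3` only for `p ∣ k` (`XiCongStmt`).
* Case B (`𝔞` not principal): there is a character `ψ = ψ₀ ∘ Nm` of the class group of order
  `p` (`PsiCharStmt`); Thaine's relation (`ThaineStmt`) shows `ψ 𝔮 = 1` for every degree one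
  prime `𝔮` at which `ξ` is not a `p`-th power; this contradicts the density statement
  `MiniChebStmt` (whose analytic input is `ClassZetaStmt`).

Every contract is a `Prop`; providers prove `theorem name : Stmt` in their own file.
-/

set_option autoImplicit false

open scoped NumberField nonZeroDivisors

namespace Fermat.Agent.S14.Thaine

open ExtCitation JacobiSumStickelberger

section Defs

variable (p : ℕ) [Fact p.Prime] (K : Type) [Field K] [NumberField K]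
  [IsCyclotomicExtension {p} ℚ K]

/-- The chosen primitive `p`-th root of unity of `K`, as an algebraic integer. -/
noncomputable def zetaO : 𝓞 K := (IsCyclotomicExtension.zeta_spec p ℚ K).toInteger

/-- `π = 1 - ζ`. -/
noncomputable def piO : 𝓞 K := 1 - zetaO p K

/-- The ideal `(π)`, the unique prime of `𝓞 K` above `p`. -/
noncomputable def primeP : Ideal (𝓞 K) := Ideal.span {piO p K}

/-- The cyclotomic unit `1 + ζ + ⋯ + ζ ^ (a - 1) = (1 - ζ ^ a) / (1 - ζ)`. -/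
noncomputable def cycUnit (a : ℕ) : 𝓞 K := ∑ j ∈ Finset.range a, zetaO p K ^ j

/-- Thaine's unit `ξ = ∏_{0 < a < p} ((1 - ζ ^ a) / (1 - ζ)) ^ (a ^ (p - 3))`; the exponents
are `≡ a⁻²` modulo `p`. -/
noncomputable def xi : 𝓞 K := ∏ a ∈ Finset.Ico 1 p, cycUnit p K a ^ (a ^ (p - 3))

/-- `η` is of `ω²`-type: `σ_d η = η ^ (d²) · u ^ p` for every `d`, where
`σ_d = clRingAction p K d` is the automorphism `ζ ↦ ζ ^ d` of `𝓞 K`. -/
def IsOmegaSq (η : 𝓞 K) : Prop :=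
  ∀ d : (ZMod p)ˣ, ∃ u : 𝓞 K, clRingAction p K d η = η ^ ((d : ZMod p) ^ 2).val * u ^ p

/-- The endomorphism `Nm = ∏_d σ_d ^ (d⁻²)` of the class group. -/
noncomputable def clNorm : ClassGroup (𝓞 K) →* ClassGroup (𝓞 K) :=
  ∏ d : (ZMod p)ˣ,
    (ClassGroup.mulEquiv (clRingAction p K d)).toMonoidHom ^ (((d : ZMod p)⁻¹) ^ 2).val

theorem clNorm_apply (c : ClassGroup (𝓞 K)) :
    clNorm p K c = ∏ d : (ZMod p)ˣ,
      ClassGroup.mulEquiv (clRingAction p K d) c ^ (((d : ZMod p)⁻¹) ^ 2).val := by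
  unfold clNorm
  rw [MonoidHom.finsetProd_apply]
  rfl

/-- The Kummer datum of an unramified `ω⁻¹`-extension `L = K(α ^ (1/p))` of `K`. -/
structure IsKummerDatum (α : 𝓞 K) : Prop where
  /-- `α ≠ 0`. -/
  ne_zero : α ≠ 0
  /-- (i) `α` is not a `p`-th power. -/
  not_pow : ¬ ∃ y : 𝓞 K, α = y ^ p
  /-- (ii) `σ_d α = α ^ (d²) · (u / v) ^ p`. -/
  eigen : ∀ d : (ZMod p)ˣ, ∃ u v : 𝓞 K, v ≠ 0 ∧
    clRingAction p K d α * v ^ p = α ^ ((d : ZMod p) ^ 2).val * u ^ p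
  /-- (iii) the ideal `(α)` is a `p`-th power (`L / K` is unramified). -/
  ideal_pow : ∃ 𝔞 : Ideal (𝓞 K), Ideal.span {α} = 𝔞 ^ p
  /-- (iv) if `α` is a unit times a `p`-th power, the unit is a `p`-th power modulo `π ^ 3`
  (`L / K` is unramified at `π`). -/
  cong : ∀ ε β : 𝓞 K, IsUnit ε → α = ε * β ^ p → ∃ c : 𝓞 K, ε - c ^ p ∈ primeP p K ^ 3

end Defs

/-- The partial zeta function of an ideal class, for real `s`. -/
noncomputable def classZeta (K : Type) [Field K] [NumberField K] (c : ClassGroup (𝓞 K))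
    (s : ℝ) : ℝ :=
  ∑' I : {I : (Ideal (𝓞 K))⁰ // ClassGroup.mk0 I = c},
    (Ideal.absNorm (I.1 : Ideal (𝓞 K)) : ℝ) ^ (-s)

/-! ### Contracts -/

/-- [XiUnit] (X1): `ξ` is a unit. -/
def XiIsUnitStmt (p : ℕ) [Fact p.Prime] : Prop :=
  5 ≤ p → ∀ (K : Type) [Field K] [NumberField K] [IsCyclotomicExtension {p} ℚ K],
    IsUnit (xi p K)

/-- [XiUnit] (X2): `ξ` is of `ω²`-type. -/
def XiEigenStmt (p : ℕ) [Fact p.Prime] : Prop :=
  5 ≤ p → ∀ (K : Type) [Field K] [NumberField K] [IsCyclotomicExtension {p} ℚ K],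
    IsOmegaSq p K (xi p K)

/-- [XiUnit] (X3): `ξ ^ k` is a quotient of `p`-th powers of `π`-units modulo `π ^ 3` only if
`p ∣ k` (Kummer's computation `ξ ≡ R (1 - π ^ 2 / 24)` modulo `π ^ 3`). -/
def XiCongStmt (p : ℕ) [Fact p.Prime] : Prop :=
  5 ≤ p → ∀ (K : Type) [Field K] [NumberField K] [IsCyclotomicExtension {p} ℚ K]
    (k : ℕ) (a b : 𝓞 K), b ∉ primeP p K →
    xi p K ^ k * a ^ p - b ^ p ∈ primeP p K ^ 3 → p ∣ k

/-- [XiUnit] (X4): `ξ` is not a `p`-th power. -/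
def XiNotPowStmt (p : ℕ) [Fact p.Prime] : Prop :=
  5 ≤ p → ∀ (K : Type) [Field K] [NumberField K] [IsCyclotomicExtension {p} ℚ K],
    ¬ ∃ y : 𝓞 K, xi p K = y ^ p

/-- [UnitRank]: the `ω²`-part of the units modulo `p`-th powers is at most one dimensional. -/
def UnitRankStmt (p : ℕ) [Fact p.Prime] : Prop :=
  5 ≤ p → ∀ (K : Type) [Field K] [NumberField K] [IsCyclotomicExtension {p} ℚ K]
    (η₁ η₂ : 𝓞 K), IsUnit η₁ → IsUnit η₂ → IsOmegaSq p K η₁ → IsOmegaSq p K η₂ →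
    (¬ ∃ u : 𝓞 K, η₁ = u ^ p) → ∃ (k : ℕ) (u : 𝓞 K), η₂ = η₁ ^ k * u ^ p

/-- [Thaine]: for a degree one prime `𝔮 ∤ p` at which `ξ` is not a `p`-th power, the class
`Nm [𝔮]` is a `p`-th power. -/
def ThaineStmt (p : ℕ) [Fact p.Prime] : Prop :=
  5 ≤ p → ∀ (K : Type) [Field K] [NumberField K] [IsCyclotomicExtension {p} ℚ K]
    (𝔮 : (Ideal (𝓞 K))⁰), (𝔮 : Ideal (𝓞 K)).IsPrime →
    (Ideal.absNorm (𝔮 : Ideal (𝓞 K))).Prime → (p : 𝓞 K) ∉ (𝔮 : Ideal (𝓞 K)) →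
    (¬ ∃ y : 𝓞 K, xi p K - y ^ p ∈ (𝔮 : Ideal (𝓞 K))) →
    ∃ c : ClassGroup (𝓞 K), clNorm p K (ClassGroup.mk0 𝔮) = c ^ p

/-- [PsiChar]: an endomorphism `e` of a finite abelian group inverting an element of order `p`
is detected by a character of exponent `p`. -/
def PsiCharStmt : Prop :=
  ∀ p : ℕ, p.Prime → ∀ (G : Type) [CommGroup G] [Finite G] (e : G →* G) (x : G),
    x ≠ 1 → x ^ p = 1 → e x = x⁻¹ →
    ∃ ψ₀ : G →* ℂˣ, (∀ g, ψ₀ g ^ p = 1) ∧ ψ₀.comp e ≠ 1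

/-- [ClassZeta]: the partial zeta functions of two ideal classes differ by a bounded function
on `(1, 2]` (and converge for `s > 1`).  Any number field. -/
def ClassZetaStmt : Prop :=
  ∀ (K : Type) [Field K] [NumberField K] (c c' : ClassGroup (𝓞 K)),
    (∀ s : ℝ, 1 < s → Summable fun I : {I : (Ideal (𝓞 K))⁰ // ClassGroup.mk0 I = c} =>
      (Ideal.absNorm (I.1 : Ideal (𝓞 K)) : ℝ) ^ (-s)) ∧
    ∃ B : ℝ, ∀ s : ℝ, 1 < s → s ≤ 2 → |classZeta K c s - classZeta K c' s| ≤ B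

/-- [MiniCheb] (density): for a number field `K ∋ ζ_p`, a unit `ξ` that is not a `p`-th power
and a nontrivial class group character `ψ` of exponent `p`, some degree one prime `𝔮 ∤ p` has
`ψ 𝔮 ≠ 1` and `ξ` not a `p`-th power modulo `𝔮`. -/
def MiniChebStmt : Prop :=
  ∀ p : ℕ, p.Prime → p ≠ 2 → ∀ (K : Type) [Field K] [NumberField K],
    (∃ ζ : K, IsPrimitiveRoot ζ p) → ∀ ξ : 𝓞 K, IsUnit ξ → (¬ ∃ y : 𝓞 K, ξ = y ^ p) →
    ∀ ψ : ClassGroup (𝓞 K) →* ℂˣ, ψ ≠ 1 → (∀ c, ψ c ^ p = 1) →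
    ∃ 𝔮 : (Ideal (𝓞 K))⁰, (𝔮 : Ideal (𝓞 K)).IsPrime ∧
      (Ideal.absNorm (𝔮 : Ideal (𝓞 K))).Prime ∧ (p : 𝓞 K) ∉ (𝔮 : Ideal (𝓞 K)) ∧
      ψ (ClassGroup.mk0 𝔮) ≠ 1 ∧ ¬ ∃ y : 𝓞 K, ξ - y ^ p ∈ (𝔮 : Ideal (𝓞 K))

/-- [CaseA]: no Kummer datum with `(α) = (β) ^ p`. -/
def CaseAStmt (p : ℕ) [Fact p.Prime] : Prop :=
  5 ≤ p → ∀ (K : Type) [Field K] [NumberField K] [IsCyclotomicExtension {p} ℚ K]
    (α : 𝓞 K), IsKummerDatum p K α → ∀ β : 𝓞 K, Ideal.span {α} = Ideal.span {β} ^ p → False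

/-- [CaseB]: no Kummer datum with `(α) = 𝔞 ^ p`, `𝔞` not principal. -/
def CaseBStmt (p : ℕ) [Fact p.Prime] : Prop :=
  5 ≤ p → ∀ (K : Type) [Field K] [NumberField K] [IsCyclotomicExtension {p} ℚ K]
    (α : 𝓞 K), IsKummerDatum p K α → ∀ 𝔞 : Ideal (𝓞 K), Ideal.span {α} = 𝔞 ^ p →
    ¬ Submodule.IsPrincipal 𝔞 → False

/-- [Three]: no Kummer datum for `p = 3`. -/
def ThreeStmt : Prop :=
  ∀ (K : Type) [Field K] [NumberField K] [IsCyclotomicExtension {3} ℚ K] (α : 𝓞 K),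
    ¬ IsKummerDatum 3 K α

/-- [Kummer]: a field datum produces a Kummer datum. -/
def KummerStmt (p : ℕ) [Fact p.Prime] : Prop :=
  3 ≤ p → ∀ D : Plan.FieldDatum p,
    letI := D.fieldK
    letI := D.nfK
    letI := D.cyc
    ∃ α : 𝓞 D.K, IsKummerDatum p D.K α

/-! ### Assembly -/

theorem no_kummer_datum {p : ℕ} [Fact p.Prime] (h5 : 5 ≤ p) (hA : CaseAStmt p)
    (hB : CaseBStmt p) (K : Type) [Field K] [NumberField K] [IsCyclotomicExtension {p} ℚ K]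
    (α : 𝓞 K) (h : IsKummerDatum p K α) : False := by
  obtain ⟨𝔞, h𝔞⟩ := h.ideal_pow
  by_cases hpr : Submodule.IsPrincipal 𝔞
  · obtain ⟨β, hβ⟩ := hpr.principal
    refine hA h5 K α h β ?_
    rw [h𝔞, hβ]
  · exact hB h5 K α h 𝔞 h𝔞 hpr

theorem extVanishingCts_of_thaine {p : ℕ} [Fact p.Prime] (h3 : 3 ≤ p)
    (hBr : Plan.BridgeStmt p) (hKum : KummerStmt p) (hA : CaseAStmt p) (hB : CaseBStmt p)
    (hThree : ThreeStmt) : ExtVanishingCts p := by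
  intro V _ _ _ _ C hadm
  by_contra hns
  obtain ⟨D⟩ := hBr h3 V C hadm hns
  let _ := D.fieldK
  let _ := D.nfK
  let _ := D.cyc
  obtain ⟨α, hα⟩ := hKum h3 D
  by_cases h5 : 5 ≤ p
  · exact no_kummer_datum h5 hA hB D.K α hα
  · have hp : p.Prime := Fact.out
    have hp3 : p = 3 := by
      have h4 : p ≠ 4 := by
        rintro rfl
        exact absurd hp (by decide)
      omega
    subst hp3
    exact hThree D.K α hα

end Fermat.Agent.S14.Thaine
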