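/-
[Density] (B3) of the S14 Thaine route (helper7): the density contradiction.

Part 1 (`false_of_prime_sums`): a purely real-analytic / combinatorial core, no number theory.
-/
import Mathlib

set_option autoImplicit false

noncomputable section

namespace Fermat.Agent.S14.Thaine.Density

open Filter Topology

/-- `log (1 / (s - 1))` tends to `+∞` as `s → 1⁺`. -/
theorem tendsto_log_one_div_sub_one :
    Tendsto (fun s : ℝ => Real.log (1 / (s - 1))) (𝓝[>] (1 : ℝ)) atTop := by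
  have h1 : Tendsto (fun s : ℝ => s - 1) (𝓝[>] (1 : ℝ)) (𝓝[>] (0 : ℝ)) := by
    refine tendsto_nhdsWithin_of_tendsto_nhds_of_eventually_within _ ?_ ?_
    · have : Tendsto (fun s : ℝ => s - 1) (𝓝 (1 : ℝ)) (𝓝 ((1 : ℝ) - 1)) :=
        (continuous_id.sub continuous_const).tendsto 1
      rw [sub_self] at this
      exact this.mono_left nhdsWithin_le_nhds
    · filter_upwards [self_mem_nhdsWithin] with s hs
      exact sub_pos.mpr (Set.mem_Ioi.mp hs)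
  have h2 : Tendsto (fun s : ℝ => 1 / (s - 1)) (𝓝[>] (1 : ℝ)) atTop := by
    simp_rw [one_div]
    exact tendsto_inv_nhdsGT_zero.comp h1
  exact Real.tendsto_log_atTop.comp h2

/-- **Abstract density contradiction.**  `PK`, `PM` are index sets of "primes" with weights
`wK Q s`, `wM P s` (think `N(Q)^(-s)`).  If
* the weights of the primes in `A` sum to at most `(1/p) * log (1/(s-1)) + O(1)`,
* all the primes of `PK` together reach `log (1/(s-1)) - O(1)`,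
* the primes in `E` contribute `O(1)`,
* every prime outside `A ∪ E` has `p` primes of `PM` of the same weight "above" it
  (disjoint fibres), and the weights of `PM` sum to at most `log (1/(s-1)) + O(1)`,
then `p ≤ 2`. -/
theorem false_of_prime_sums {PK PM : Type*} (p : ℕ) (hp : 3 ≤ p)
    (wK : PK → ℝ → ℝ) (wM : PM → ℝ → ℝ) (A E : Set PK)
    (hA : ∃ C : ℝ, ∀ᶠ s in 𝓝[>] (1 : ℝ), ∀ T : Finset PK, (∀ Q ∈ T, Q ∈ A) →
      (p : ℝ) * ∑ Q ∈ T, wK Q s ≤ Real.log (1 / (s - 1)) + C)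
    (hK : ∃ C : ℝ, ∀ᶠ s in 𝓝[>] (1 : ℝ), ∃ T : Finset PK,
      Real.log (1 / (s - 1)) - C ≤ ∑ Q ∈ T, wK Q s)
    (hE : ∃ C : ℝ, ∀ᶠ s in 𝓝[>] (1 : ℝ), ∀ T : Finset PK, (∀ Q ∈ T, Q ∈ E) →
      ∑ Q ∈ T, wK Q s ≤ C)
    (hM : ∃ C : ℝ, ∀ᶠ s in 𝓝[>] (1 : ℝ), ∀ T : Finset PM,
      ∑ P ∈ T, wM P s ≤ Real.log (1 / (s - 1)) + C)
    (fib : PK → Finset PM)
    (hcard : ∀ Q, Q ∉ A → Q ∉ E → (fib Q).card = p)
    (hw : ∀ Q, Q ∉ A → Q ∉ E → ∀ P ∈ fib Q, ∀ s : ℝ, wM P s = wK Q s)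
    (hdisj : ∀ Q Q', Q ∉ A → Q ∉ E → Q' ∉ A → Q' ∉ E → Q ≠ Q' → Disjoint (fib Q) (fib Q')) :
    False := by
  classical
  obtain ⟨C1, h1⟩ := hA
  obtain ⟨C2, h2⟩ := hK
  obtain ⟨C3, h3⟩ := hE
  obtain ⟨C4, h4⟩ := hM
  have hbig := tendsto_log_one_div_sub_one.eventually_gt_atTop
    (max 0 ((p : ℝ) * C2 + C1 + (p : ℝ) * C3 + C4))
  obtain ⟨s, ⟨⟨⟨⟨hs1, hs2⟩, hs3⟩, hs4⟩, hsL⟩⟩ :=
    ((((h1.and h2).and h3).and h4).and hbig).exists
  set L := Real.log (1 / (s - 1)) with hL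
  obtain ⟨T, hT⟩ := hs2
  have hp3 : (3 : ℝ) ≤ (p : ℝ) := by exact_mod_cast hp
  have hL0 : 0 < L := lt_of_le_of_lt (le_max_left _ _) hsL
  have hLc : (p : ℝ) * C2 + C1 + (p : ℝ) * C3 + C4 < L := lt_of_le_of_lt (le_max_right _ _) hsL
  -- split `T`
  set TA := T.filter (fun Q => Q ∈ A) with hTA
  set TE := (T.filter (fun Q => Q ∉ A)).filter (fun Q => Q ∈ E) with hTE
  set T' := (T.filter (fun Q => Q ∉ A)).filter (fun Q => Q ∉ E) with hT'
  have hsplit : ∑ Q ∈ T, wK Q s = ∑ Q ∈ TA, wK Q s + (∑ Q ∈ TE, wK Q s + ∑ Q ∈ T', wK Q s) := by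
    rw [← Finset.sum_filter_add_sum_filter_not T (fun Q => Q ∈ A),
      ← Finset.sum_filter_add_sum_filter_not (T.filter (fun Q => Q ∉ A)) (fun Q => Q ∈ E)]
  have hA' : (p : ℝ) * ∑ Q ∈ TA, wK Q s ≤ L + C1 :=
    hs1 TA (fun Q hQ => (Finset.mem_filter.mp hQ).2)
  have hE' : ∑ Q ∈ TE, wK Q s ≤ C3 :=
    hs3 TE (fun Q hQ => (Finset.mem_filter.mp hQ).2)
  have hT'mem : ∀ Q ∈ T', Q ∉ A ∧ Q ∉ E := fun Q hQ =>
    ⟨(Finset.mem_filter.mp (Finset.mem_filter.mp hQ).1).2, (Finset.mem_filter.mp hQ).2⟩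
  have hM' : (p : ℝ) * ∑ Q ∈ T', wK Q s ≤ L + C4 := by
    have hpd : Set.PairwiseDisjoint (↑T' : Set PK) fib := by
      intro Q hQ Q' hQ' hne
      exact hdisj Q Q' (hT'mem Q hQ).1 (hT'mem Q hQ).2 (hT'mem Q' hQ').1 (hT'mem Q' hQ').2 hne
    have hsum : ∑ P ∈ T'.biUnion fib, wM P s = (p : ℝ) * ∑ Q ∈ T', wK Q s := by
      rw [Finset.sum_biUnion hpd, Finset.mul_sum]
      refine Finset.sum_congr rfl (fun Q hQ => ?_)
      rw [Finset.sum_congr rfl (fun P hP => hw Q (hT'mem Q hQ).1 (hT'mem Q hQ).2 P hP s),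
        Finset.sum_const, hcard Q (hT'mem Q hQ).1 (hT'mem Q hQ).2, nsmul_eq_mul]
    rw [← hsum]
    exact hs4 _
  have key : (p : ℝ) * (L - C2) ≤ (L + C1) + (p : ℝ) * C3 + (L + C4) := by
    have hp0 : (0 : ℝ) ≤ (p : ℝ) := by positivity
    calc (p : ℝ) * (L - C2) ≤ (p : ℝ) * ∑ Q ∈ T, wK Q s := mul_le_mul_of_nonneg_left hT hp0
      _ = (p : ℝ) * ∑ Q ∈ TA, wK Q s + ((p : ℝ) * ∑ Q ∈ TE, wK Q s
            + (p : ℝ) * ∑ Q ∈ T', wK Q s) := by rw [hsplit]; ring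
      _ ≤ (L + C1) + ((p : ℝ) * C3 + (L + C4)) :=
          add_le_add hA' (add_le_add (mul_le_mul_of_nonneg_left hE' hp0) hM')
      _ = (L + C1) + (p : ℝ) * C3 + (L + C4) := by ring
  nlinarith [mul_nonneg (sub_nonneg.mpr hp3) hL0.le]

/-! ### Part 2: number fields, hypothesis form -/

section NumberFields

open IsDedekindDomain NumberField

variable (K : Type*) [Field K] [NumberField K]

/-- Upper bound for the prime sums of a number field: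
`∑_{Q ∈ T} N(Q)^(-s) ≤ log (1/(s-1)) + C` for all finite sets `T` of primes, `s ∈ (1,2]`. -/
def PrimeSumUpper : Prop :=
  ∃ C : ℝ, ∀ s ∈ Set.Ioc (1 : ℝ) 2, ∀ T : Finset (HeightOneSpectrum (𝓞 K)),
    ∑ Q ∈ T, (Ideal.absNorm Q.asIdeal : ℝ) ^ (-s) ≤ Real.log (1 / (s - 1)) + C

/-- Lower bound for the prime sums of a number field: for every `s ∈ (1,2]` some finite set `T`
of primes has `log (1/(s-1)) - C ≤ ∑_{Q ∈ T} N(Q)^(-s)`. -/
def PrimeSumLower : Prop :=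
  ∃ C : ℝ, ∀ s ∈ Set.Ioc (1 : ℝ) 2, ∃ T : Finset (HeightOneSpectrum (𝓞 K)),
    Real.log (1 / (s - 1)) - C ≤ ∑ Q ∈ T, (Ideal.absNorm Q.asIdeal : ℝ) ^ (-s)

/-- The primes in `A` have "density at most `1/p`":
`p * ∑_{Q ∈ T} N(Q)^(-s) ≤ log (1/(s-1)) + C` for all finite `T ⊆ A`, `s ∈ (1,2]`. -/
def KernelSumUpper (p : ℕ) (A : Set (HeightOneSpectrum (𝓞 K))) : Prop :=
  ∃ C : ℝ, ∀ s ∈ Set.Ioc (1 : ℝ) 2, ∀ T : Finset (HeightOneSpectrum (𝓞 K)), (∀ Q ∈ T, Q ∈ A) →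
    (p : ℝ) * ∑ Q ∈ T, (Ideal.absNorm Q.asIdeal : ℝ) ^ (-s) ≤ Real.log (1 / (s - 1)) + C

/-- A set of primes is negligible if `∑ 1/N(Q)` over its finite subsets is bounded. -/
def Negligible (E : Set (HeightOneSpectrum (𝓞 K))) : Prop :=
  ∃ B : ℝ, ∀ T : Finset (HeightOneSpectrum (𝓞 K)), (∀ Q ∈ T, Q ∈ E) →
    ∑ Q ∈ T, ((Ideal.absNorm Q.asIdeal : ℝ))⁻¹ ≤ B

variable {K}

theorem one_le_absNorm (Q : HeightOneSpectrum (𝓞 K)) : (1 : ℝ) ≤ (Ideal.absNorm Q.asIdeal : ℝ) := by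
  have h0 : Ideal.absNorm Q.asIdeal ≠ 0 := by
    rw [Ne, Ideal.absNorm_eq_zero_iff]
    exact Q.ne_bot
  exact_mod_cast Nat.one_le_iff_ne_zero.mpr h0

theorem rpow_neg_le_inv (Q : HeightOneSpectrum (𝓞 K)) {s : ℝ} (hs : 1 ≤ s) :
    (Ideal.absNorm Q.asIdeal : ℝ) ^ (-s) ≤ ((Ideal.absNorm Q.asIdeal : ℝ))⁻¹ := by
  have h1 := one_le_absNorm Q
  rw [← Real.rpow_neg_one]
  exact Real.rpow_le_rpow_of_exponent_le h1 (by linarith)

theorem rpow_neg_nonneg (Q : HeightOneSpectrum (𝓞 K)) (s : ℝ) :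
    0 ≤ (Ideal.absNorm Q.asIdeal : ℝ) ^ (-s) :=
  Real.rpow_nonneg (Nat.cast_nonneg _) _

theorem Negligible.mono {E E' : Set (HeightOneSpectrum (𝓞 K))} (h : Negligible K E')
    (hEE' : E ⊆ E') : Negligible K E := by
  obtain ⟨B, hB⟩ := h
  exact ⟨B, fun T hT => hB T (fun Q hQ => hEE' (hT Q hQ))⟩

theorem Negligible.union {E E' : Set (HeightOneSpectrum (𝓞 K))} (h : Negligible K E)
    (h' : Negligible K E') : Negligible K (E ∪ E') := by
  classical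
  obtain ⟨B, hB⟩ := h
  obtain ⟨B', hB'⟩ := h'
  refine ⟨B + B', fun T hT => ?_⟩
  rw [← Finset.sum_filter_add_sum_filter_not T (fun Q => Q ∈ E)]
  refine add_le_add (hB _ (fun Q hQ => (Finset.mem_filter.mp hQ).2)) (hB' _ (fun Q hQ => ?_))
  obtain ⟨hQT, hQE⟩ := Finset.mem_filter.mp hQ
  exact (hT Q hQT).resolve_left hQE

theorem Negligible.of_finite {E : Set (HeightOneSpectrum (𝓞 K))} (h : E.Finite) :
    Negligible K E := by
  classical
  refine ⟨∑ Q ∈ h.toFinset, ((Ideal.absNorm Q.asIdeal : ℝ))⁻¹, fun T hT => ?_⟩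
  refine Finset.sum_le_sum_of_subset_of_nonneg (fun Q hQ => h.mem_toFinset.mpr (hT Q hQ))
    (fun Q _ _ => ?_)
  positivity

/-- **Density contradiction, fibre form.**  `K`, `M` arbitrary number fields, `p ≥ 3`.
If the primes in `A` have density at most `1/p` (`KernelSumUpper`), `E` is negligible, the prime
sums of `K` reach `log (1/(s-1)) - O(1)`, those of `M` are at most `log (1/(s-1)) + O(1)`, and
every prime of `K` outside `A ∪ E` has `p` primes of `M` of the same norm attached to it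
(pairwise disjoint fibres), we have a contradiction. -/
theorem false_of_fibres (M : Type*) [Field M] [NumberField M] (p : ℕ) (hp : 3 ≤ p)
    (A E : Set (HeightOneSpectrum (𝓞 K)))
    (hA : KernelSumUpper K p A) (hE : Negligible K E)
    (hK : PrimeSumLower K) (hM : PrimeSumUpper M)
    (fib : HeightOneSpectrum (𝓞 K) → Finset (HeightOneSpectrum (𝓞 M)))
    (hcard : ∀ Q, Q ∉ A → Q ∉ E → (fib Q).card = p)
    (hnorm : ∀ Q, Q ∉ A → Q ∉ E → ∀ P ∈ fib Q,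
      Ideal.absNorm P.asIdeal = Ideal.absNorm Q.asIdeal)
    (hdisj : ∀ Q Q', Q ∉ A → Q ∉ E → Q' ∉ A → Q' ∉ E → Q ≠ Q' → Disjoint (fib Q) (fib Q')) :
    False := by
  have hmem : Set.Ioc (1 : ℝ) 2 ∈ 𝓝[>] (1 : ℝ) := Ioc_mem_nhdsGT (by norm_num)
  refine false_of_prime_sums (PK := HeightOneSpectrum (𝓞 K)) (PM := HeightOneSpectrum (𝓞 M))
    p hp (fun Q s => (Ideal.absNorm Q.asIdeal : ℝ) ^ (-s))
    (fun P s => (Ideal.absNorm P.asIdeal : ℝ) ^ (-s)) A E ?_ ?_ ?_ ?_ fib hcard ?_ hdisj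
  · obtain ⟨C, hC⟩ := hA
    exact ⟨C, Filter.eventually_of_mem hmem (fun s hs => hC s hs)⟩
  · obtain ⟨C, hC⟩ := hK
    exact ⟨C, Filter.eventually_of_mem hmem (fun s hs => hC s hs)⟩
  · obtain ⟨B, hB⟩ := hE
    refine ⟨B, Filter.eventually_of_mem hmem (fun s hs T hT => ?_)⟩
    exact (Finset.sum_le_sum (fun Q _ => rpow_neg_le_inv Q hs.1.le)).trans (hB T hT)
  · obtain ⟨C, hC⟩ := hM
    exact ⟨C, Filter.eventually_of_mem hmem (fun s hs => hC s hs)⟩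
  · intro Q hQA hQE P hP s
    show (Ideal.absNorm P.asIdeal : ℝ) ^ (-s) = (Ideal.absNorm Q.asIdeal : ℝ) ^ (-s)
    rw [hnorm Q hQA hQE P hP]

/-- **Density contradiction, `under` form** (the shape of [KummerSplit] (K1)): as
`false_of_fibres`, with the fibres given as `p` distinct primes of `𝓞 M` lying over `Q` with the
same absolute norm. -/
theorem false_of_primes_over (M : Type*) [Field M] [NumberField M] [Algebra K M]
    (p : ℕ) (hp : 3 ≤ p) (A E : Set (HeightOneSpectrum (𝓞 K)))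
    (hA : KernelSumUpper K p A) (hE : Negligible K E)
    (hK : PrimeSumLower K) (hM : PrimeSumUpper M)
    (hsplit : ∀ Q : HeightOneSpectrum (𝓞 K), Q ∉ A → Q ∉ E →
      ∃ S : Finset (Ideal (𝓞 M)), S.card = p ∧ ∀ P ∈ S, P.IsPrime ∧ P ≠ ⊥ ∧
        P.under (𝓞 K) = Q.asIdeal ∧ Ideal.absNorm P = Ideal.absNorm Q.asIdeal) :
    False := by
  classical
  -- choose the fibres
  have hex : ∀ Q : HeightOneSpectrum (𝓞 K), ∃ S : Finset (HeightOneSpectrum (𝓞 M)),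
      Q ∉ A → Q ∉ E → (S.card = p ∧ ∀ P ∈ S, P.asIdeal.under (𝓞 K) = Q.asIdeal ∧
        Ideal.absNorm P.asIdeal = Ideal.absNorm Q.asIdeal) := by
    intro Q
    by_cases hQ : Q ∉ A ∧ Q ∉ E
    · obtain ⟨S, hS, hS'⟩ := hsplit Q hQ.1 hQ.2
      have hinj : Set.InjOn (fun P : S => (⟨P.1, (hS' P.1 P.2).1, (hS' P.1 P.2).2.1⟩ :
          HeightOneSpectrum (𝓞 M))) (↑(Finset.univ : Finset S)) := by
        intro P _ P' _ h
        exact Subtype.ext (congrArg HeightOneSpectrum.asIdeal h)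
      refine ⟨Finset.univ.image (fun P : S => (⟨P.1, (hS' P.1 P.2).1, (hS' P.1 P.2).2.1⟩ :
          HeightOneSpectrum (𝓞 M))), fun _ _ => ⟨?_, ?_⟩⟩
      · rw [Finset.card_image_of_injOn hinj, Finset.card_univ, Fintype.card_coe, hS]
      · intro P hP
        obtain ⟨P', -, rfl⟩ := Finset.mem_image.mp hP
        exact ⟨(hS' P'.1 P'.2).2.2.1, (hS' P'.1 P'.2).2.2.2⟩
    · exact ⟨∅, fun h1 h2 => absurd ⟨h1, h2⟩ hQ⟩
  choose fib hfib using hex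
  refine false_of_fibres M p hp A E hA hE hK hM fib (fun Q h1 h2 => (hfib Q h1 h2).1)
    (fun Q h1 h2 P hP => ((hfib Q h1 h2).2 P hP).2) ?_
  intro Q Q' h1 h2 h1' h2' hne
  rw [Finset.disjoint_left]
  intro P hP hP'
  have e1 := ((hfib Q h1 h2).2 P hP).1
  have e2 := ((hfib Q' h1' h2').2 P hP').1
  exact hne (HeightOneSpectrum.ext (e1.symm.trans e2))

/-! ### Part 3: class characters, hypothesis form -/

open scoped nonZeroDivisors

variable (K) in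
/-- The class of a prime in the class group. -/
def primeClass (Q : HeightOneSpectrum (𝓞 K)) : ClassGroup (𝓞 K) :=
  ClassGroup.mk0 ⟨Q.asIdeal, mem_nonZeroDivisors_iff_ne_zero.mpr Q.ne_bot⟩

variable (K) in
/-- The class `L`-series `∑_I χ([I]) N(I)^(-s)` over the nonzero ideals (real `s`). -/
def classL (χ : ClassGroup (𝓞 K) → ℂ) (s : ℝ) : ℂ :=
  ∑' I : (Ideal (𝓞 K))⁰, χ (ClassGroup.mk0 I) *
    (((Ideal.absNorm (I : Ideal (𝓞 K)) : ℝ) ^ (-s) : ℝ) : ℂ)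

/-- From the Euler product inequality `exp (p * ∑_{Q ∈ T} N(Q)^(-s)) ≤ ‖∏_{k<p} L_k(s)‖` (`T ⊆ A`),
the pole bound `‖L_0(s)‖ ≤ C/(s-1)` and the boundedness of `L_k`, `0 < k < p`:
the primes in `A` have density at most `1/p`. -/
theorem kernelSumUpper_of_norm_bounds (p : ℕ) (hp : 0 < p)
    (A : Set (HeightOneSpectrum (𝓞 K))) (Lf : ℕ → ℝ → ℂ)
    (hprod : ∀ s ∈ Set.Ioc (1 : ℝ) 2, ∀ T : Finset (HeightOneSpectrum (𝓞 K)),
      (∀ Q ∈ T, Q ∈ A) →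
      Real.exp ((p : ℝ) * ∑ Q ∈ T, (Ideal.absNorm Q.asIdeal : ℝ) ^ (-s))
        ≤ ‖∏ k ∈ Finset.range p, Lf k s‖)
    (h0 : ∃ C : ℝ, ∀ s ∈ Set.Ioc (1 : ℝ) 2, ‖Lf 0 s‖ ≤ C / (s - 1))
    (hk : ∀ k : ℕ, 0 < k → k < p → ∃ C : ℝ, ∀ s ∈ Set.Ioc (1 : ℝ) 2, ‖Lf k s‖ ≤ C) :
    KernelSumUpper K p A := by
  obtain ⟨n, rfl⟩ : ∃ n, p = n + 1 := ⟨p - 1, by omega⟩
  obtain ⟨C0, hC0⟩ := h0
  have hk' : ∀ k : ℕ, ∃ C : ℝ, k < n → ∀ s ∈ Set.Ioc (1 : ℝ) 2, ‖Lf (k + 1) s‖ ≤ C := by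
    intro k
    by_cases hkn : k < n
    · obtain ⟨C, hC⟩ := hk (k + 1) (Nat.succ_pos k) (by omega)
      exact ⟨C, fun _ => hC⟩
    · exact ⟨0, fun h => absurd h hkn⟩
  choose Ck hCk using hk'
  set B : ℝ := (∏ k ∈ Finset.range n, max (Ck k) 1) * max C0 1 with hB
  have hBpos : 0 < B := by
    refine mul_pos (Finset.prod_pos (fun k _ => ?_)) ?_
    · exact lt_of_lt_of_le one_pos (le_max_right _ _)
    · exact lt_of_lt_of_le one_pos (le_max_right _ _)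
  refine ⟨Real.log B, fun s hs T hT => ?_⟩
  have hs1 : 0 < s - 1 := sub_pos.mpr hs.1
  have hinv : 0 < 1 / (s - 1) := one_div_pos.mpr hs1
  have h1 := hprod s hs T hT
  have h2 : ‖∏ k ∈ Finset.range (n + 1), Lf k s‖ ≤ B * (1 / (s - 1)) := by
    rw [norm_prod, Finset.prod_range_succ', hB, mul_assoc]
    refine mul_le_mul ?_ ?_ (norm_nonneg _) (Finset.prod_nonneg (fun k _ => ?_))
    · refine Finset.prod_le_prod (fun k _ => norm_nonneg _) (fun k hk => ?_)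
      exact (hCk k (Finset.mem_range.mp hk) s hs).trans (le_max_left _ _)
    · refine (hC0 s hs).trans ?_
      rw [div_eq_mul_one_div]
      exact mul_le_mul_of_nonneg_right (le_max_left _ _) hinv.le
    · exact le_trans zero_le_one (le_max_right _ _)
  have h3 := h1.trans h2
  have h4 := Real.log_le_log (Real.exp_pos _) h3
  rw [Real.log_exp, Real.log_mul hBpos.ne' hinv.ne'] at h4
  linarith

/-- **Density contradiction, character form (hypothesis form).**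
`K`, `M` number fields with `K ⊆ M`, `p ≥ 3`, `ψ` a character of the class group of `K`.
Inputs:
* `hprod` : the Euler product inequality for `∏_{k<p} L(s, ψ^k)` ([IdealEuler] (N3));
* `h0` : `‖L(s, ψ^0)‖ ≤ C/(s-1)` (pole of `ζ_K`, [IdealEuler] (Z1));
* `hL` : `L(s, ψ^k)` is bounded on `(1,2]` for `0 < k < p` ([ClassZeta]);
* `hK`, `hM` : prime sums of `K` and `M` ([IdealEuler] (Z2));
* `hE` : `E` is negligible;
* `hsplit` : every prime `Q ∉ E` of `K` with `ψ(Q) ≠ 1` has `p` primes of `M` of the same norm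
  above it ([Thaine] + [KummerSplit]).
Then `False`. -/
theorem false_of_character (M : Type*) [Field M] [NumberField M] [Algebra K M]
    (p : ℕ) (hp : 3 ≤ p) (ψ : ClassGroup (𝓞 K) →* ℂˣ)
    (hprod : ∀ s ∈ Set.Ioc (1 : ℝ) 2, ∀ T : Finset (HeightOneSpectrum (𝓞 K)),
      (∀ Q ∈ T, ψ (primeClass K Q) = 1) →
      Real.exp ((p : ℝ) * ∑ Q ∈ T, (Ideal.absNorm Q.asIdeal : ℝ) ^ (-s))
        ≤ ‖∏ k ∈ Finset.range p, classL K (fun c => (((ψ ^ k) c : ℂˣ) : ℂ)) s‖)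
    (h0 : ∃ C : ℝ, ∀ s ∈ Set.Ioc (1 : ℝ) 2,
      ‖classL K (fun c => (((ψ ^ 0) c : ℂˣ) : ℂ)) s‖ ≤ C / (s - 1))
    (hL : ∀ k : ℕ, 0 < k → k < p → ∃ C : ℝ, ∀ s ∈ Set.Ioc (1 : ℝ) 2,
      ‖classL K (fun c => (((ψ ^ k) c : ℂˣ) : ℂ)) s‖ ≤ C)
    (hK : PrimeSumLower K) (hM : PrimeSumUpper M)
    (E : Set (HeightOneSpectrum (𝓞 K))) (hE : Negligible K E)
    (hsplit : ∀ Q : HeightOneSpectrum (𝓞 K), Q ∉ E → ψ (primeClass K Q) ≠ 1 →
      ∃ S : Finset (Ideal (𝓞 M)), S.card = p ∧ ∀ P ∈ S, P.IsPrime ∧ P ≠ ⊥ ∧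
        P.under (𝓞 K) = Q.asIdeal ∧ Ideal.absNorm P = Ideal.absNorm Q.asIdeal) :
    False := by
  have hA : KernelSumUpper K p {Q | ψ (primeClass K Q) = 1} :=
    kernelSumUpper_of_norm_bounds p (by omega) _
      (fun k s => classL K (fun c => (((ψ ^ k) c : ℂˣ) : ℂ)) s) hprod h0 hL
  exact false_of_primes_over M p hp {Q | ψ (primeClass K Q) = 1} E hA hE hK hM
    (fun Q hQA hQE => hsplit Q hQE hQA)

end NumberFields

end Fermat.Agent.S14.Thaine.Density
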