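import Mathlib
import Fermat.Agent.S14.Thaine.Plan

/-!
# S14, Thaine route: the principal case (Case A) and the case `p = 3`

`K` is a `p`-th cyclotomic field, `ζ : 𝓞 K` a primitive `p`-th root of unity, `π = 1 - ζ`.
A "singular primary" element `α : 𝓞 K` satisfies
* (ii) `σ α = α ^ (b ^ 2) * c ^ p` whenever `σ ζ = ζ ^ b`,
* (iii) `(α) = 𝔞 ^ p`,
* (iv) `α ≡ y ^ p` modulo `π ^ 3`.

This file proves that `α` is a `p`-th power
* for `p = 3` (`caseThree`), unconditionally, and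
* for general `p` when `𝔞` is principal (`caseA`), assuming the structure of the `ω²`-part of
  the units modulo `p`-th powers (`hrank`) and the expansion of the unit `ξ` modulo `π ^ 3`
  (`hexp`) as hypotheses.
-/

set_option autoImplicit false

open NumberField

namespace Fermat.Agent.S14.Thaine.CaseA

section Three

variable {K : Type*} [Field K] [NumberField K]

/-- In `ℚ(ζ₃)`, a power of a primitive cube root of unity which is a cube equals `1`. -/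
lemma zeta_pow_eq_one_of_cube [IsCyclotomicExtension {3} ℚ K] {ζ : K}
    (hζ : IsPrimitiveRoot ζ 3) (j : ℕ) (v : K) (hv : v ^ 3 = ζ ^ j) : ζ ^ j = 1 := by
  have hfin : IsOfFinOrder v := by
    rw [isOfFinOrder_iff_pow_eq_one]
    refine ⟨9, by norm_num, ?_⟩
    calc v ^ 9 = (v ^ 3) ^ 3 := by ring
      _ = (ζ ^ 3) ^ j := by rw [hv]; ring
      _ = 1 := by rw [hζ.pow_eq_one, one_pow]
  obtain ⟨r, -, hr⟩ := hζ.exists_pow_or_neg_mul_pow_of_isOfFinOrder (by decide) hfin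
  have h3 : (ζ ^ r) ^ 3 = 1 := by
    rw [← pow_mul, mul_comm, pow_mul, hζ.pow_eq_one, one_pow]
  rcases hr with hr | hr
  · rw [← hv, hr, h3]
  · have h1 : ζ ^ j = -1 := by
      rw [← hv, hr, neg_pow, h3]; norm_num
    have h2 : (ζ ^ j) ^ 3 = 1 := by
      rw [← pow_mul, mul_comm, pow_mul, hζ.pow_eq_one, one_pow]
    rw [h1] at h2
    norm_num at h2

/-- In `𝓞 ℚ(ζ₃)`, a unit times a cube is a power of `ζ` times a cube (the units are `± ζ ^ j`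
and `-1` is a cube). -/
lemma exists_eq_zeta_pow_mul_cube [IsCyclotomicExtension {3} ℚ K] {ζ : K}
    (hζ : IsPrimitiveRoot ζ 3) (u : (𝓞 K)ˣ) (β : 𝓞 K) :
    ∃ (j : ℕ) (γ : 𝓞 K), β ^ 3 * (u : 𝓞 K) = hζ.toInteger ^ j * γ ^ 3 := by
  have hmem := IsCyclotomicExtension.Rat.Three.Units.mem hζ u
  have hη : (((IsPrimitiveRoot.isUnit (hζ.toInteger_isPrimitiveRoot) (by decide)).unit :
      (𝓞 K)ˣ) : 𝓞 K) = hζ.toInteger := rfl
  simp only [List.mem_cons, List.not_mem_nil, or_false] at hmem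
  rcases hmem with h | h | h | h | h | h
  · exact ⟨0, β, by rw [h, Units.val_one]; ring⟩
  · exact ⟨0, -β, by rw [h, Units.val_neg, Units.val_one]; ring⟩
  · exact ⟨1, β, by rw [h, hη]; ring⟩
  · exact ⟨1, -β, by rw [h, Units.val_neg, hη]; ring⟩
  · exact ⟨2, β, by rw [h, Units.val_pow_eq_pow_val, hη]; ring⟩
  · exact ⟨2, -β, by rw [h, Units.val_neg, Units.val_pow_eq_pow_val, hη]; ring⟩

/-- The case `p = 3`: an element of `𝓞 ℚ(ζ₃)` which generates the cube of an ideal and is of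
`ω²`-type modulo cubes is a cube. -/
theorem caseThree (K : Type*) [Field K] [NumberField K] [IsCyclotomicExtension {3} ℚ K]
    (ζ : 𝓞 K) (hζ : IsPrimitiveRoot ζ 3) (α : 𝓞 K) (hα0 : α ≠ 0)
    (h2 : ∀ (σ : K ≃ₐ[ℚ] K) (b : ℕ), σ (ζ : K) = (ζ : K) ^ b →
      ∃ c : K, σ (α : K) = (α : K) ^ (b ^ 2) * c ^ 3)
    (h3 : ∃ a : Ideal (𝓞 K), Ideal.span {α} = a ^ 3) : ∃ x : 𝓞 K, x ^ 3 = α := by
  have := IsCyclotomicExtension.Rat.three_pid K
  have hζK : IsPrimitiveRoot (ζ : K) 3 := hζ.map_of_injective RingOfIntegers.coe_injective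
  have hζint : hζK.toInteger = ζ := RingOfIntegers.ext rfl
  obtain ⟨a, ha⟩ := h3
  obtain ⟨β, rfl⟩ := (IsPrincipalIdealRing.principal a).principal
  rw [← Ideal.span, Ideal.span_singleton_pow, Ideal.span_singleton_eq_span_singleton] at ha
  obtain ⟨u, hu⟩ := ha
  -- `α = ζ ^ j * γ ^ 3`
  have key : ∃ (j : ℕ) (γ : 𝓞 K), α = ζ ^ j * γ ^ 3 := by
    have hα : α = β ^ 3 * (u⁻¹ : (𝓞 K)ˣ) := by
      rw [← hu, mul_assoc, Units.mul_inv, mul_one]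
    obtain ⟨j, γ, h⟩ := exists_eq_zeta_pow_mul_cube hζK (u⁻¹) β
    exact ⟨j, γ, by rw [hα, h, hζint]⟩
  obtain ⟨j, γ, hαγ⟩ := key
  have hγ0 : γ ≠ 0 := by
    rintro rfl
    apply hα0
    rw [hαγ]; simp
  -- the automorphism `ζ ↦ ζ ^ 2`
  let t : (ZMod 3)ˣ := ZMod.unitOfCoprime 2 (by decide)
  let σ : K ≃ₐ[ℚ] K := (IsCyclotomicExtension.Rat.galEquivZMod 3 K).symm t
  have hσ : ∀ x : K, x ^ 3 = 1 → σ x = x ^ 2 := by
    intro x hx
    have := IsCyclotomicExtension.Rat.galEquivZMod_apply_of_pow_eq 3 K σ hx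
    rw [this]
    congr 1
    simp only [σ, MulEquiv.apply_symm_apply, t]
    decide
  have hσζ : σ (ζ : K) = (ζ : K) ^ 2 := hσ _ hζK.pow_eq_one
  obtain ⟨c, hc⟩ := h2 σ 2 hσζ
  have hαK : (α : K) = (ζ : K) ^ j * (γ : K) ^ 3 := by
    rw [hαγ]; push_cast; ring
  have hγK : (γ : K) ≠ 0 := by
    simpa using hγ0
  have hζ0 : (ζ : K) ≠ 0 := hζK.ne_zero (by norm_num)
  have hα0K : (α : K) ≠ 0 := by simpa using hα0
  have hc0 : c ≠ 0 := by
    rintro rfl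
    have : σ (α : K) = 0 := by rw [hc]; simp
    exact hα0K (by simpa using this)
  have hσγ : σ (γ : K) ≠ 0 := by simpa using hγK
  -- `(σ γ / (γ ^ 4 * c)) ^ 3 = ζ ^ (2 * j)`
  have hcube : (σ (γ : K) / ((γ : K) ^ 4 * c)) ^ 3 = (ζ : K) ^ (2 * j) := by
    rw [hαK, map_mul, map_pow, map_pow, hσζ] at hc
    have h4 : ((ζ : K) ^ j) ^ 4 = (ζ : K) ^ j := by
      calc ((ζ : K) ^ j) ^ 4 = ((ζ : K) ^ 3) ^ j * (ζ : K) ^ j := by ring
        _ = (ζ : K) ^ j := by rw [hζK.pow_eq_one, one_pow, one_mul]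
    have hζj : (ζ : K) ^ j ≠ 0 := pow_ne_zero _ hζ0
    rw [div_pow, div_eq_iff (pow_ne_zero _ (mul_ne_zero (pow_ne_zero _ hγK) hc0))]
    have e1 : ((ζ : K) ^ 2) ^ j * σ (γ : K) ^ 3 = (ζ : K) ^ j * ((γ : K) ^ 4 * c) ^ 3 := by
      rw [hc]
      calc ((ζ : K) ^ j * (γ : K) ^ 3) ^ 2 ^ 2 * c ^ 3
          = ((ζ : K) ^ j) ^ 4 * ((γ : K) ^ 4 * c) ^ 3 := by ring
        _ = (ζ : K) ^ j * ((γ : K) ^ 4 * c) ^ 3 := by rw [h4]
    apply mul_left_cancel₀ (pow_ne_zero j (pow_ne_zero 2 hζ0))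
    rw [e1]
    calc (ζ : K) ^ j * ((γ : K) ^ 4 * c) ^ 3
        = ((ζ : K) ^ j) ^ 4 * ((γ : K) ^ 4 * c) ^ 3 := by rw [h4]
      _ = ((ζ : K) ^ 2) ^ j * ((ζ : K) ^ (2 * j) * ((γ : K) ^ 4 * c) ^ 3) := by ring
  have h1 : (ζ : K) ^ (2 * j) = 1 := zeta_pow_eq_one_of_cube hζK _ _ hcube
  have hdvd : 3 ∣ j := by
    have := (hζK.pow_eq_one_iff_dvd (2 * j)).1 h1
    exact (Nat.Coprime.dvd_mul_left (by decide)).1 this
  have hζj1 : ζ ^ j = 1 := (hζ.pow_eq_one_iff_dvd j).2 hdvd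
  exact ⟨γ, by rw [hαγ, hζj1, one_mul]⟩

end Three

section General

/-- An element of a number field, a power of which is a unit of the ring of integers, is a unit
of the ring of integers. -/
lemma exists_unit_of_pow {K : Type*} [Field K] {n : ℕ} (hn : 0 < n) (w : K)
    (hw0 : w ≠ 0) (h1 : IsIntegral ℤ (w ^ n)) (h2 : IsIntegral ℤ (w ^ n)⁻¹) :
    ∃ u : (𝓞 K)ˣ, ((u : 𝓞 K) : K) = w := by
  have i1 : IsIntegral ℤ w := IsIntegral.of_pow hn h1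
  have i2 : IsIntegral ℤ w⁻¹ := by
    apply IsIntegral.of_pow hn
    rwa [inv_pow]
  refine ⟨⟨⟨w, i1⟩, ⟨w⁻¹, i2⟩, ?_, ?_⟩, rfl⟩
  · exact RingOfIntegers.ext (mul_inv_cancel₀ hw0)
  · exact RingOfIntegers.ext (inv_mul_cancel₀ hw0)

/-- The passage from `α` to the unit `ε = α / β ^ p`: if `α = ε * β ^ p` is of `ω²`-type
modulo `p`-th powers of elements of `K`, then the unit `ε` is of `ω²`-type modulo `p`-th powers
of units. -/
theorem isOmegaSq_unit_of_eq (p : ℕ) (hp : 0 < p) (K : Type*) [Field K] [NumberField K]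
    (ζ : 𝓞 K) (α β : 𝓞 K) (hα0 : α ≠ 0) (ε : (𝓞 K)ˣ) (hαε : α = ε * β ^ p)
    (h2 : ∀ (σ : K ≃ₐ[ℚ] K) (b : ℕ), σ (ζ : K) = (ζ : K) ^ b →
      ∃ c : K, σ (α : K) = (α : K) ^ (b ^ 2) * c ^ p)
    (σ : K ≃ₐ[ℚ] K) (b : ℕ) (hσ : σ (ζ : K) = (ζ : K) ^ b) :
    ∃ u : (𝓞 K)ˣ, σ ((ε : 𝓞 K) : K) = ((ε : 𝓞 K) : K) ^ (b ^ 2) * ((u : 𝓞 K) : K) ^ p := by
  obtain ⟨c, hc⟩ := h2 σ b hσ
  set E : K := ((ε : 𝓞 K) : K) with hE
  set E' : K := (((ε⁻¹ : (𝓞 K)ˣ) : 𝓞 K) : K) with hE'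
  set B : K := (β : K) with hB
  have hEE' : E * E' = 1 := by
    rw [hE, hE', ← map_mul, ← Units.val_mul, mul_inv_cancel, Units.val_one, map_one]
  have hE0 : E ≠ 0 := left_ne_zero_of_mul_eq_one hEE'
  have hα0K : (α : K) ≠ 0 := by simpa using hα0
  have hαK : (α : K) = E * B ^ p := by
    rw [hαε]; push_cast; ring
  have hB0 : B ≠ 0 := by
    rintro h
    apply hα0K
    rw [hαK, h, zero_pow hp.ne', mul_zero]
  have hσB : σ B ≠ 0 := by simpa using hB0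
  have hc0 : c ≠ 0 := by
    rintro rfl
    have : σ (α : K) = 0 := by rw [hc, zero_pow hp.ne', mul_zero]
    exact hα0K (by simpa using this)
  rw [hαK, map_mul, map_pow] at hc
  set w : K := B ^ (b ^ 2) * c / σ B with hw
  have hw0 : w ≠ 0 := div_ne_zero (mul_ne_zero (pow_ne_zero _ hB0) hc0) hσB
  have hwσ : w * σ B = B ^ (b ^ 2) * c := by
    rw [hw, div_mul_cancel₀ _ hσB]
  have hwp : w ^ p = σ E * E' ^ (b ^ 2) := by
    apply mul_right_cancel₀ (mul_ne_zero (pow_ne_zero p hσB) (pow_ne_zero (b ^ 2) hE0))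
    calc w ^ p * (σ B ^ p * E ^ (b ^ 2)) = (w * σ B) ^ p * E ^ (b ^ 2) := by ring
      _ = (E * B ^ p) ^ (b ^ 2) * c ^ p := by rw [hwσ]; ring
      _ = σ E * σ B ^ p := hc.symm
      _ = σ E * σ B ^ p * (E * E') ^ (b ^ 2) := by rw [hEE', one_pow, mul_one]
      _ = σ E * E' ^ (b ^ 2) * (σ B ^ p * E ^ (b ^ 2)) := by ring
  have hinv : (w ^ p)⁻¹ = σ E' * E ^ (b ^ 2) := by
    apply inv_eq_of_mul_eq_one_right
    rw [hwp]
    calc σ E * E' ^ (b ^ 2) * (σ E' * E ^ (b ^ 2)) = σ (E * E') * (E * E') ^ (b ^ 2) := by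
          rw [map_mul]; ring
      _ = 1 := by rw [hEE', map_one, one_pow, mul_one]
  have i1 : IsIntegral ℤ (w ^ p) := by
    rw [hwp]
    exact (map_isIntegral_int σ (RingOfIntegers.isIntegral_coe _)).mul
      ((RingOfIntegers.isIntegral_coe _).pow _)
  have i2 : IsIntegral ℤ (w ^ p)⁻¹ := by
    rw [hinv]
    exact (map_isIntegral_int σ (RingOfIntegers.isIntegral_coe _)).mul
      ((RingOfIntegers.isIntegral_coe _).pow _)
  obtain ⟨u, hu⟩ := exists_unit_of_pow hp w hw0 i1 i2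
  refine ⟨u, ?_⟩
  rw [hu, hwp]
  calc σ E = σ E * (E * E') ^ (b ^ 2) := by rw [hEE', one_pow, mul_one]
    _ = E ^ (b ^ 2) * (σ E * E' ^ (b ^ 2)) := by ring

/-- **Case A** (the ideal `𝔞` with `(α) = 𝔞 ^ p` is principal): `α` is a `p`-th power.
`hrank` is the structure of the `ω²`-part of the units modulo `p`-th powers (one-dimensional,
spanned by `ξ`), `hexp` is the expansion of `ξ` modulo `(1 - ζ) ^ 3`. -/
theorem caseA (p : ℕ) [Fact p.Prime] (K : Type*) [Field K] [NumberField K]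
    [IsCyclotomicExtension {p} ℚ K] (ζ : 𝓞 K) (hζ : IsPrimitiveRoot ζ p) (ξ : (𝓞 K)ˣ)
    (hrank : ∀ ε : (𝓞 K)ˣ,
      (∀ (σ : K ≃ₐ[ℚ] K) (b : ℕ), σ (ζ : K) = (ζ : K) ^ b →
        ∃ u : (𝓞 K)ˣ, σ ((ε : 𝓞 K) : K) = ((ε : 𝓞 K) : K) ^ (b ^ 2) * ((u : 𝓞 K) : K) ^ p) →
      ∃ (k : ℕ) (u : (𝓞 K)ˣ), ε = ξ ^ k * u ^ p)
    (hexp : ∀ (k : ℕ) (z : 𝓞 K),
      (ξ : 𝓞 K) ^ k - z ^ p ∈ Ideal.span {(1 - ζ) ^ 3} → p ∣ k)
    (α : 𝓞 K) (hα0 : α ≠ 0) (hπ : ¬ (1 - ζ) ∣ α)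
    (h2 : ∀ (σ : K ≃ₐ[ℚ] K) (b : ℕ), σ (ζ : K) = (ζ : K) ^ b →
      ∃ c : K, σ (α : K) = (α : K) ^ (b ^ 2) * c ^ p)
    (h3 : ∃ β : 𝓞 K, Ideal.span {α} = Ideal.span {β} ^ p)
    (h4 : ∃ y : 𝓞 K, α - y ^ p ∈ Ideal.span {(1 - ζ) ^ 3}) :
    ∃ x : 𝓞 K, x ^ p = α := by
  have hp := (Fact.out : p.Prime)
  have hζK : IsPrimitiveRoot (ζ : K) p := hζ.map_of_injective RingOfIntegers.coe_injective
  have hζint : hζK.toInteger = ζ := RingOfIntegers.ext rfl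
  obtain ⟨β, hβ⟩ := h3
  obtain ⟨y, hy⟩ := h4
  rw [Ideal.span_singleton_pow, Ideal.span_singleton_eq_span_singleton] at hβ
  obtain ⟨v, hv⟩ := hβ
  have hαε : α = (v⁻¹ : (𝓞 K)ˣ) * β ^ p := by
    rw [← hv, mul_comm α, ← mul_assoc, Units.inv_mul, one_mul]
  -- the unit `ε = α / β ^ p` is of `ω²`-type, hence `ε = ξ ^ k * u ^ p`
  obtain ⟨k, u, hku⟩ := hrank (v⁻¹) (isOmegaSq_unit_of_eq p hp.pos K ζ α β hα0 (v⁻¹) hαε h2)
  set δ : 𝓞 K := (u : 𝓞 K) * β with hδ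
  have hαδ : α = (ξ : 𝓞 K) ^ k * δ ^ p := by
    rw [hαε, hku, hδ, Units.val_mul, Units.val_pow_eq_pow_val, Units.val_pow_eq_pow_val]
    ring
  -- `δ` is prime to `π = 1 - ζ`
  have hπδ : ¬ (hζK.toInteger - 1) ∣ δ := by
    rw [hζint]
    intro h
    apply hπ
    rw [hαδ]
    have h' : (1 - ζ) ∣ δ := by
      have : (1 - ζ) = -(ζ - 1) := by ring
      rw [this, neg_dvd]; exact h
    exact Dvd.dvd.mul_left (dvd_pow h' hp.ne_zero) _
  have hcop : IsCoprime ((1 - ζ) ^ 3) δ := by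
    have h1 : IsCoprime (p : 𝓞 K) δ :=
      IsCyclotomicExtension.Rat.isCoprime_of_not_zeta_sub_one_dvd p hζK hπδ
    have h2 : (hζK.toInteger - 1) ∣ (p : 𝓞 K) := by
      have := (IsCyclotomicExtension.Rat.associated_zeta_sub_one_pow_prime p hζK).dvd
      exact (dvd_pow_self _ (Nat.sub_ne_zero_of_lt hp.one_lt)).trans this
    have h3 : IsCoprime (hζK.toInteger - 1) δ := h1.of_isCoprime_of_dvd_left h2
    rw [hζint] at h3
    have h4 : IsCoprime (1 - ζ) δ := by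
      have : (1 - ζ) = -(ζ - 1) := by ring
      rw [this]; exact h3.neg_left
    exact h4.pow_left
  obtain ⟨a, t, hat⟩ := hcop
  -- `ξ ^ k ≡ (y * t) ^ p` modulo `π ^ 3`
  have hmem : (ξ : 𝓞 K) ^ k - (y * t) ^ p ∈ Ideal.span {(1 - ζ) ^ 3} := by
    have e : (ξ : 𝓞 K) ^ k - (y * t) ^ p =
        (ξ : 𝓞 K) ^ k * (1 - (t * δ) ^ p) + t ^ p * (α - y ^ p) := by
      rw [hαδ]; ring
    rw [e]
    refine Ideal.add_mem _ (Ideal.mul_mem_left _ _ ?_) (Ideal.mul_mem_left _ _ hy)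
    rw [Ideal.mem_span_singleton]
    have h1 : (1 - t * δ) ∣ 1 ^ p - (t * δ) ^ p := sub_dvd_pow_sub_pow _ _ _
    rw [one_pow] at h1
    refine Dvd.dvd.trans ?_ h1
    exact ⟨a, by linear_combination (-1 : 𝓞 K) * hat⟩
  obtain ⟨m, rfl⟩ := hexp k (y * t) hmem
  exact ⟨(ξ : 𝓞 K) ^ m * δ, by rw [hαδ]; ring⟩

/-- **Case A**, ideal form: if `(α) = 𝔞 ^ p` with `𝔞` a principal ideal, then `α` is a `p`-th
power. -/
theorem caseA' (p : ℕ) [Fact p.Prime] (K : Type*) [Field K] [NumberField K]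
    [IsCyclotomicExtension {p} ℚ K] (ζ : 𝓞 K) (hζ : IsPrimitiveRoot ζ p) (ξ : (𝓞 K)ˣ)
    (hrank : ∀ ε : (𝓞 K)ˣ,
      (∀ (σ : K ≃ₐ[ℚ] K) (b : ℕ), σ (ζ : K) = (ζ : K) ^ b →
        ∃ u : (𝓞 K)ˣ, σ ((ε : 𝓞 K) : K) = ((ε : 𝓞 K) : K) ^ (b ^ 2) * ((u : 𝓞 K) : K) ^ p) →
      ∃ (k : ℕ) (u : (𝓞 K)ˣ), ε = ξ ^ k * u ^ p)
    (hexp : ∀ (k : ℕ) (z : 𝓞 K),
      (ξ : 𝓞 K) ^ k - z ^ p ∈ Ideal.span {(1 - ζ) ^ 3} → p ∣ k)
    (α : 𝓞 K) (hα0 : α ≠ 0) (hπ : ¬ (1 - ζ) ∣ α)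
    (h2 : ∀ (σ : K ≃ₐ[ℚ] K) (b : ℕ), σ (ζ : K) = (ζ : K) ^ b →
      ∃ c : K, σ (α : K) = (α : K) ^ (b ^ 2) * c ^ p)
    (a : Ideal (𝓞 K)) (ha : Ideal.span {α} = a ^ p) (hprin : a.IsPrincipal)
    (h4 : ∃ y : 𝓞 K, α - y ^ p ∈ Ideal.span {(1 - ζ) ^ 3}) :
    ∃ x : 𝓞 K, x ^ p = α := by
  obtain ⟨β, rfl⟩ := hprin.principal
  exact caseA p K ζ hζ ξ hrank hexp α hα0 hπ h2 ⟨β, ha⟩ h4

end General

/-! ### The contracts of `Fermat.Agent.S14.Thaine.Plan` -/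

section PlanForm

open JacobiSumStickelberger

/-- The Prelude's automorphism `σ_d` of `𝓞 K`, read in `K`. -/
lemma coe_clRingAction (p : ℕ) [Fact p.Prime] (K : Type) [Field K] [NumberField K]
    [IsCyclotomicExtension {p} ℚ K] (d : (ZMod p)ˣ) (x : 𝓞 K) :
    algebraMap (𝓞 K) K (clRingAction p K d x) =
      (cycloGalEquiv p K).symm d (algebraMap (𝓞 K) K x) := by
  show algebraMap (𝓞 K) K (galRestrict ℤ ℚ K (𝓞 K) ((cycloGalEquiv p K).symm d) x) = _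
  rw [algebraMap_galRestrict_apply]

/-- If `α = ε β ^ p` with a unit `ε` and `α` satisfies the eigen law (ii) of a Kummer datum,
then `ε` is of `ω²`-type. -/
theorem isOmegaSq_of_eq (p : ℕ) [Fact p.Prime] (K : Type) [Field K] [NumberField K]
    [IsCyclotomicExtension {p} ℚ K] (α β ε : 𝓞 K) (hα0 : α ≠ 0) (hε : IsUnit ε)
    (hαε : α = ε * β ^ p)
    (heig : ∀ d : (ZMod p)ˣ, ∃ u v : 𝓞 K, v ≠ 0 ∧
      clRingAction p K d α * v ^ p = α ^ ((d : ZMod p) ^ 2).val * u ^ p) :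
    IsOmegaSq p K ε := by
  have hp := (Fact.out : p.Prime)
  intro d
  obtain ⟨u0, v0, hv0, h⟩ := heig d
  obtain ⟨εu, rfl⟩ := hε
  set e : ℕ := ((d : ZMod p) ^ 2).val with he
  set σ : K ≃ₐ[ℚ] K := (cycloGalEquiv p K).symm d with hσ
  set E : K := ((εu : 𝓞 K) : K) with hE
  set E' : K := (((εu⁻¹ : (𝓞 K)ˣ) : 𝓞 K) : K) with hE'
  set B : K := (β : K) with hB
  set U : K := (u0 : K) with hU
  set V : K := (v0 : K) with hV
  have hEE' : E * E' = 1 := by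
    rw [hE, hE', ← map_mul, ← Units.val_mul, mul_inv_cancel, Units.val_one, map_one]
  have hE0 : E ≠ 0 := left_ne_zero_of_mul_eq_one hEE'
  have hα0K : (α : K) ≠ 0 := by simpa using hα0
  have hαK : (α : K) = E * B ^ p := by
    rw [hαε]; push_cast; ring
  have hB0 : B ≠ 0 := by
    rintro h0
    apply hα0K
    rw [hαK, h0, zero_pow hp.ne_zero, mul_zero]
  have hσB : σ B ≠ 0 := by simpa using hB0
  have hV0 : V ≠ 0 := RingOfIntegers.coe_ne_zero_iff.mpr hv0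
  -- the eigen law in `K`
  have hK : σ E * σ B ^ p * V ^ p = (E * B ^ p) ^ e * U ^ p := by
    have h' := congrArg (algebraMap (𝓞 K) K) h
    simp only [map_mul, map_pow] at h'
    have hαK' : algebraMap (𝓞 K) K α = E * B ^ p := hαK
    rw [coe_clRingAction, hαK', map_mul, map_pow] at h'
    exact h'
  have hU0 : U ≠ 0 := by
    rintro h0
    rw [h0, zero_pow hp.ne_zero, mul_zero] at hK
    have : σ E ≠ 0 := by simpa using hE0
    exact mul_ne_zero (mul_ne_zero this (pow_ne_zero _ hσB)) (pow_ne_zero _ hV0) hK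
  set w : K := B ^ e * U / (σ B * V) with hw
  have hσBV : σ B * V ≠ 0 := mul_ne_zero hσB hV0
  have hw0 : w ≠ 0 := div_ne_zero (mul_ne_zero (pow_ne_zero _ hB0) hU0) hσBV
  have hwσ : w * (σ B * V) = B ^ e * U := by
    rw [hw, div_mul_cancel₀ _ hσBV]
  have hwp : w ^ p = σ E * E' ^ e := by
    apply mul_right_cancel₀ (mul_ne_zero (pow_ne_zero p hσBV) (pow_ne_zero e hE0))
    calc w ^ p * ((σ B * V) ^ p * E ^ e) = (w * (σ B * V)) ^ p * E ^ e := by ring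
      _ = (E * B ^ p) ^ e * U ^ p := by rw [hwσ]; ring
      _ = σ E * σ B ^ p * V ^ p := hK.symm
      _ = σ E * σ B ^ p * V ^ p * (E * E') ^ e := by rw [hEE', one_pow, mul_one]
      _ = σ E * E' ^ e * ((σ B * V) ^ p * E ^ e) := by ring
  have hinv : (w ^ p)⁻¹ = σ E' * E ^ e := by
    apply inv_eq_of_mul_eq_one_right
    rw [hwp]
    calc σ E * E' ^ e * (σ E' * E ^ e) = σ (E * E') * (E * E') ^ e := by
          rw [map_mul]; ring
      _ = 1 := by rw [hEE', map_one, one_pow, mul_one]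
  have i1 : IsIntegral ℤ (w ^ p) := by
    rw [hwp]
    exact (map_isIntegral_int σ (RingOfIntegers.isIntegral_coe _)).mul
      ((RingOfIntegers.isIntegral_coe _).pow _)
  have i2 : IsIntegral ℤ (w ^ p)⁻¹ := by
    rw [hinv]
    exact (map_isIntegral_int σ (RingOfIntegers.isIntegral_coe _)).mul
      ((RingOfIntegers.isIntegral_coe _).pow _)
  obtain ⟨uu, huu⟩ := exists_unit_of_pow hp.pos w hw0 i1 i2
  refine ⟨(uu : 𝓞 K), ?_⟩
  apply RingOfIntegers.coe_injective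
  simp only [map_mul, map_pow]
  have huu' : algebraMap (𝓞 K) K (uu : 𝓞 K) = w := huu
  rw [coe_clRingAction, huu', hwp]
  calc σ E = σ E * (E * E') ^ e := by rw [hEE', one_pow, mul_one]
    _ = E ^ e * (σ E * E' ^ e) := by ring

/-- `π = 1 - ζ` is not a unit, so no unit lies in `(π)`. -/
lemma not_isUnit_of_mem_primeP (p : ℕ) [Fact p.Prime] (K : Type) [Field K] [NumberField K]
    [IsCyclotomicExtension {p} ℚ K] {x : 𝓞 K} (hx : x ∈ primeP p K) : ¬ IsUnit x := by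
  intro hu
  have hprime : Prime ((IsCyclotomicExtension.zeta_spec p ℚ K).toInteger - 1) :=
    (IsCyclotomicExtension.zeta_spec p ℚ K).zeta_sub_one_prime'
  rw [primeP, Ideal.mem_span_singleton] at hx
  have h1 : IsUnit (piO p K) := isUnit_of_dvd_unit hx hu
  apply hprime.not_isUnit
  have : (IsCyclotomicExtension.zeta_spec p ℚ K).toInteger - 1 = -(piO p K) := by
    rw [piO, zetaO]; ring
  rw [this]
  exact h1.neg

/-- **[CaseA]**: no Kummer datum with `(α) = (β) ^ p`. -/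
theorem caseAStmt (p : ℕ) [Fact p.Prime] (hX1 : XiIsUnitStmt p) (hX2 : XiEigenStmt p)
    (hX3 : XiCongStmt p) (hX4 : XiNotPowStmt p) (hU : UnitRankStmt p) : CaseAStmt p := by
  intro h5 K _ _ _ α hα β hβ
  have hp := (Fact.out : p.Prime)
  rw [Ideal.span_singleton_pow, Ideal.span_singleton_eq_span_singleton] at hβ
  obtain ⟨v, hv⟩ := hβ
  have hαε : α = ((v⁻¹ : (𝓞 K)ˣ) : 𝓞 K) * β ^ p := by
    rw [← hv, mul_comm α, ← mul_assoc, Units.inv_mul, one_mul]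
  have hεu : IsUnit ((v⁻¹ : (𝓞 K)ˣ) : 𝓞 K) := Units.isUnit _
  have hεtype : IsOmegaSq p K ((v⁻¹ : (𝓞 K)ˣ) : 𝓞 K) :=
    isOmegaSq_of_eq p K α β _ hα.ne_zero hεu hαε hα.eigen
  obtain ⟨k, u, hku⟩ :=
    hU h5 K (xi p K) _ (hX1 h5 K) hεu (hX2 h5 K) hεtype (hX4 h5 K)
  obtain ⟨c, hc⟩ := hα.cong _ β hεu hαε
  have hcP : c ∉ primeP p K := by
    intro hcP
    have h1 : c ^ p ∈ primeP p K := Ideal.pow_mem_of_mem _ hcP p hp.pos
    have h2 : ((v⁻¹ : (𝓞 K)ˣ) : 𝓞 K) - c ^ p ∈ primeP p K :=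
      Ideal.pow_le_self (by norm_num) hc
    have h3 : ((v⁻¹ : (𝓞 K)ˣ) : 𝓞 K) ∈ primeP p K := by
      have := Ideal.add_mem _ h2 h1
      rwa [sub_add_cancel] at this
    exact not_isUnit_of_mem_primeP p K h3 hεu
  rw [hku] at hc
  obtain ⟨m, rfl⟩ := hX3 h5 K k u c hcP hc
  apply hα.not_pow
  exact ⟨xi p K ^ m * u * β, by rw [hαε, hku]; ring⟩

/-- **[Three]**: no Kummer datum for `p = 3`. -/
theorem threeStmt : ThreeStmt := by
  intro K _ _ _ α hα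
  have := IsCyclotomicExtension.Rat.three_pid K
  have hζK : IsPrimitiveRoot (IsCyclotomicExtension.zeta 3 ℚ K) 3 :=
    IsCyclotomicExtension.zeta_spec 3 ℚ K
  set ζK : K := IsCyclotomicExtension.zeta 3 ℚ K with hζKdef
  have hζcoe : ((hζK.toInteger : 𝓞 K) : K) = ζK := rfl
  obtain ⟨a, ha⟩ := hα.ideal_pow
  obtain ⟨β, rfl⟩ := (IsPrincipalIdealRing.principal a).principal
  rw [← Ideal.span, Ideal.span_singleton_pow, Ideal.span_singleton_eq_span_singleton] at ha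
  obtain ⟨u, hu⟩ := ha
  have key : ∃ (j : ℕ) (γ : 𝓞 K), α = hζK.toInteger ^ j * γ ^ 3 := by
    have hα' : α = β ^ 3 * (u⁻¹ : (𝓞 K)ˣ) := by
      rw [← hu, mul_assoc, Units.mul_inv, mul_one]
    obtain ⟨j, γ, h⟩ := exists_eq_zeta_pow_mul_cube hζK (u⁻¹) β
    exact ⟨j, γ, by rw [hα', h]⟩
  obtain ⟨j, γ, hαγ⟩ := key
  have hγ0 : γ ≠ 0 := by
    rintro rfl
    apply hα.ne_zero
    rw [hαγ]; simp
  -- the eigen law at `d = 2`
  let d : (ZMod 3)ˣ := ZMod.unitOfCoprime 2 (by decide)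
  obtain ⟨u0, v0, hv0, h⟩ := hα.eigen d
  have hd2 : ((d : ZMod 3) ^ 2).val = 1 := by
    simp only [d, ZMod.coe_unitOfCoprime]
    decide
  rw [hd2, pow_one] at h
  set σ : K ≃ₐ[ℚ] K := (cycloGalEquiv 3 K).symm d with hσ
  have hσζ : σ ζK = ζK ^ 2 := by
    have h1 := IsCyclotomicExtension.Rat.galEquivZMod_apply_of_pow_eq 3 K σ hζK.pow_eq_one
    have h2 : (IsCyclotomicExtension.Rat.galEquivZMod 3 K) σ = d :=
      (cycloGalEquiv 3 K).apply_symm_apply d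
    rw [h1, h2]
    congr 1
  have hγK : (γ : K) ≠ 0 := by simpa using hγ0
  have hV0 : (v0 : K) ≠ 0 := RingOfIntegers.coe_ne_zero_iff.mpr hv0
  have hσγ : σ (γ : K) ≠ 0 := by simpa using hγK
  have hζ0 : ζK ≠ 0 := hζK.ne_zero (by norm_num)
  have hαK : algebraMap (𝓞 K) K α = ζK ^ j * (γ : K) ^ 3 := by
    rw [hαγ, map_mul, map_pow, map_pow]
    rfl
  have hK : (ζK ^ 2) ^ j * σ (γ : K) ^ 3 * (v0 : K) ^ 3 = ζK ^ j * (γ : K) ^ 3 * (u0 : K) ^ 3 := by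
    have h' := congrArg (algebraMap (𝓞 K) K) h
    simp only [map_mul, map_pow] at h'
    rw [coe_clRingAction, hαK, map_mul, map_pow, map_pow, hσζ] at h'
    exact h'
  have hcube : ((γ : K) * (u0 : K) / (σ (γ : K) * (v0 : K))) ^ 3 = ζK ^ j := by
    rw [div_pow, div_eq_iff (pow_ne_zero _ (mul_ne_zero hσγ hV0))]
    apply mul_left_cancel₀ (pow_ne_zero j hζ0)
    calc ζK ^ j * ((γ : K) * (u0 : K)) ^ 3 = ζK ^ j * (γ : K) ^ 3 * (u0 : K) ^ 3 := by ring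
      _ = (ζK ^ 2) ^ j * σ (γ : K) ^ 3 * (v0 : K) ^ 3 := hK.symm
      _ = ζK ^ j * (ζK ^ j * (σ (γ : K) * (v0 : K)) ^ 3) := by ring
  have h1 : ζK ^ j = 1 := zeta_pow_eq_one_of_cube hζK j _ hcube
  have h1' : hζK.toInteger ^ j = 1 := by
    apply RingOfIntegers.coe_injective
    rw [map_pow, map_one]
    exact h1
  apply hα.not_pow
  exact ⟨γ, by rw [hαγ, h1', one_mul]⟩

end PlanForm

end Fermat.Agent.S14.Thaine.CaseA
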