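/-
Copyright (c) 2026. Released under Apache 2.0 license.

S14, Thaine route, step (B1): the eigen-character `psi`.

Abstract statement: a finite commutative group `G` with an action (by group endomorphisms)
of a finite group `D` of order prime to `p`, an element `c` of order `p` on which `D` acts
through a character `chi : D → (ZMod p)ˣ`.  Then there is a non-trivial character
`psi : G → ZMod p` (resp. into the `p`-th roots of unity of `ℂ`) on which `D` acts through
the same character `chi`.
-/
import Mathlib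

namespace Fermat.Agent.S14.Thaine.PsiChar

/-- In `Multiplicative (ZMod p)` a power only depends on the exponent modulo `p`. -/
theorem pow_eq_pow_of_natCast_eq (p : ℕ) (w : Multiplicative (ZMod p)) (a b : ℕ)
    (h : (a : ZMod p) = (b : ZMod p)) : w ^ a = w ^ b := by
  apply Multiplicative.toAdd.injective
  rw [toAdd_pow, toAdd_pow, nsmul_eq_mul, nsmul_eq_mul, h]

/-- Every element of `Multiplicative (ZMod p)` is killed by `p`. -/
theorem pow_card_eq_one_zmod (p : ℕ) (w : Multiplicative (ZMod p)) : w ^ p = 1 := by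
  apply Multiplicative.toAdd.injective
  rw [toAdd_pow, nsmul_eq_mul, ZMod.natCast_self, zero_mul, toAdd_one]

/-- A non-zero vector of an `𝔽_p`-vector space is detected by an additive map to `ZMod p`. -/
theorem exists_addMonoidHom_ne_zero (p : ℕ) [Fact p.Prime] {V : Type*} [AddCommGroup V]
    [Module (ZMod p) V] (v : V) (hv : v ≠ 0) : ∃ f : V →+ ZMod p, f v ≠ 0 := by
  obtain ⟨f, hf⟩ : ∃ f : V →ₗ[ZMod p] ZMod p, f v ≠ 0 := by
    by_contra hcon
    push Not at hcon
    exact hv ((Module.forall_dual_apply_eq_zero_iff (ZMod p) v).mp hcon)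
  exact ⟨f.toAddMonoidHom, hf⟩

/-- A finite commutative group has a homomorphism to `ZMod p` which is non-trivial on a
given element that is not a `p`-th power. -/
theorem exists_hom_zmod_ne_one (p : ℕ) [Fact p.Prime] {G : Type*} [CommGroup G]
    (y : G) (hy : ∀ x : G, x ^ p ≠ y) :
    ∃ ψ : G →* Multiplicative (ZMod p), ψ y ≠ 1 := by
  classical
  set H : Subgroup G := (powMonoidHom p : G →* G).range with hH
  have hkill : ∀ v : Additive (G ⧸ H), p • v = 0 := by
    intro v
    induction v using Additive.rec with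
    | ofMul q =>
      induction q using QuotientGroup.induction_on with
      | H g =>
        rw [← ofMul_pow, ← QuotientGroup.mk_pow]
        have : ((g ^ p : G) : G ⧸ H) = 1 := by
          rw [QuotientGroup.eq_one_iff]
          exact ⟨g, rfl⟩
        rw [this]; rfl
  have hv : (Additive.ofMul (y : G ⧸ H)) ≠ 0 := by
    intro h0
    have h1 : ((y : G) : G ⧸ H) = 1 := by
      have := congrArg Additive.toMul h0
      simpa using this
    rw [QuotientGroup.eq_one_iff] at h1
    obtain ⟨x, hx⟩ := h1
    exact hy x hx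
  obtain ⟨f, hf⟩ := @exists_addMonoidHom_ne_zero p _ (Additive (G ⧸ H)) _
    (AddCommGroup.zmodModule hkill) _ hv
  refine ⟨(AddMonoidHom.toMultiplicativeRight f).comp (QuotientGroup.mk' H), ?_⟩
  intro h1
  apply hf
  have := congrArg Multiplicative.toAdd h1
  simpa using this

section main

variable (p : ℕ) [Fact p.Prime] {G : Type*} [CommGroup G] [Finite G]
  {D : Type*} [Group D] [Finite D]

/-- **The eigen-character** (step (B1) of the Thaine route to S14), additive target. -/
theorem exists_eigen_character (hD : (Nat.card D).Coprime p)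
    (act : D → G →* G) (hact : ∀ d d' x, act (d * d') x = act d (act d' x))
    (chi : D →* (ZMod p)ˣ) (c : G) (hc1 : c ≠ 1) (hcp : c ^ p = 1)
    (hc : ∀ d, act d c = c ^ (chi d : ZMod p).val) :
    ∃ psi : G →* Multiplicative (ZMod p), psi ≠ 1 ∧
      ∀ d x, psi (act d x) = psi x ^ (chi d : ZMod p).val := by
  classical
  have hp : p.Prime := Fact.out
  have : Fintype D := Fintype.ofFinite D
  have : NeZero p := ⟨hp.ne_zero⟩
  have hord : orderOf c = p := orderOf_eq_prime hcp hc1
  -- the exponents
  set n : D → ℕ := fun d => (((chi d)⁻¹ : (ZMod p)ˣ) : ZMod p).val with hn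
  have hn_cast : ∀ d, ((n d : ℕ) : ZMod p) = (((chi d)⁻¹ : (ZMod p)ˣ) : ZMod p) := by
    intro d
    exact ZMod.natCast_zmod_val _
  -- the "idempotent"
  set e : G →* G := ∏ d : D, (powMonoidHom (n d)).comp (act d) with he
  have he_apply : ∀ x, e x = ∏ d : D, (act d x) ^ (n d) := by
    intro x
    rw [he, MonoidHom.finsetProd_apply]
    rfl
  -- `e c = c ^ |D|`
  have hec : e c = c ^ (Fintype.card D) := by
    rw [he_apply]
    have : ∀ d ∈ (Finset.univ : Finset D), (act d c) ^ (n d) = c := by
      intro d _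
      rw [hc d, ← pow_mul]
      conv_rhs => rw [← pow_one c]
      rw [pow_eq_pow_iff_modEq, hord, ← ZMod.natCast_eq_natCast_iff]
      push_cast
      rw [hn_cast, ZMod.natCast_zmod_val, ← Units.val_mul, mul_inv_cancel, Units.val_one]
    rw [Finset.prod_congr rfl this, Finset.prod_const, Finset.card_univ]
  have hiter_c : ∀ j : ℕ, e^[j] c = c ^ ((Fintype.card D) ^ j) := by
    intro j
    induction j with
    | zero => simp
    | succ j ih =>
      rw [Function.iterate_succ_apply, hec, iterate_map_pow, ih, ← pow_mul, pow_succ]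
  -- some value of `e` is not a `p`-th power
  have hex : ∃ x0 : G, ∀ z : G, z ^ p ≠ e x0 := by
    by_contra hcon
    push Not at hcon
    have hiter : ∀ j : ℕ, ∀ x : G, ∃ z : G, z ^ (p ^ j) = e^[j] x := by
      intro j
      induction j with
      | zero => intro x; exact ⟨x, by simp⟩
      | succ j ih =>
        intro x
        obtain ⟨z, hz⟩ := hcon x
        obtain ⟨w, hw⟩ := ih z
        refine ⟨w, ?_⟩
        rw [Function.iterate_succ_apply, ← hz, iterate_map_pow, ← hw, ← pow_mul, pow_succ]
    have hN : Nat.card G ≠ 0 := Nat.card_pos.ne'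
    obtain ⟨t, m', hm', hNeq⟩ := Nat.exists_eq_pow_mul_and_not_dvd hN p hp.ne_one
    obtain ⟨z, hz⟩ := hiter t c
    rw [hiter_c] at hz
    set c' : G := c ^ ((Fintype.card D) ^ t) with hc'
    have h1 : c' ^ m' = 1 := by
      rw [← hz, ← pow_mul, ← hNeq]
      exact pow_card_eq_one'
    have h2 : c' ^ p = 1 := by
      rw [hc', ← pow_mul, mul_comm, pow_mul, hcp, one_pow]
    have h3 : c' = 1 := by
      have := (pow_gcd_eq_one (a := c') (m := m') (n := p)).mpr ⟨h1, h2⟩
      have hg : Nat.gcd m' p = 1 := by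
        rw [Nat.gcd_comm]
        exact (Nat.Prime.coprime_iff_not_dvd hp).mpr hm'
      rwa [hg, pow_one] at this
    have h4 : p ∣ (Fintype.card D) ^ t := by
      rw [← hord]
      exact orderOf_dvd_of_pow_eq_one h3
    have h5 : p ∣ Fintype.card D := hp.dvd_of_dvd_pow h4
    rw [Nat.card_eq_fintype_card] at hD
    exact (Nat.Prime.coprime_iff_not_dvd hp).mp hD.symm h5
  obtain ⟨x0, hx0⟩ := hex
  obtain ⟨ψ0, hψ0⟩ := exists_hom_zmod_ne_one p (e x0) hx0
  refine ⟨ψ0.comp e, ?_, ?_⟩
  · intro h1
    apply hψ0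
    have := DFunLike.congr_fun h1 x0
    simpa using this
  · intro d' x
    simp only [MonoidHom.comp_apply]
    rw [he_apply, he_apply, map_prod, map_prod, ← Finset.prod_pow]
    rw [← Equiv.prod_comp (Equiv.mulRight d') (fun d => (ψ0 (act d x ^ n d)) ^ (chi d' : ZMod p).val)]
    refine Finset.prod_congr rfl fun d _ => ?_
    simp only [Equiv.coe_mulRight]
    rw [hact, map_pow, map_pow, ← pow_mul]
    apply pow_eq_pow_of_natCast_eq
    push_cast
    rw [hn_cast, hn_cast, ZMod.natCast_zmod_val, map_mul, mul_inv_rev, ← Units.val_mul]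
    congr 1
    rw [mul_assoc, mul_comm, mul_assoc, mul_inv_cancel, mul_one]

/-- An injective homomorphism from `ZMod p` to the complex `p`-th roots of unity. -/
theorem exists_injective_hom_zmod_complex :
    ∃ ι : Multiplicative (ZMod p) →* ℂˣ, Function.Injective ι := by
  have hp : p.Prime := Fact.out
  have : NeZero p := ⟨hp.ne_zero⟩
  obtain ⟨ζ, hζ⟩ := (HasEnoughRootsOfUnity.exists_primitiveRoot ℂ p)
  have hζu : IsPrimitiveRoot (hζ.isUnit hp.ne_zero).unit p :=
    IsPrimitiveRoot.isUnit_unit hp.ne_zero hζ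
  refine ⟨(Subgroup.zpowers _).subtype.comp
    (AddMonoidHom.toMultiplicativeLeft hζu.zmodEquivZPowers.toAddMonoidHom), ?_⟩
  intro a b hab
  have h1 : (AddMonoidHom.toMultiplicativeLeft hζu.zmodEquivZPowers.toAddMonoidHom) a =
      (AddMonoidHom.toMultiplicativeLeft hζu.zmodEquivZPowers.toAddMonoidHom) b :=
    Subtype.val_injective hab
  have h2 : hζu.zmodEquivZPowers (Multiplicative.toAdd a) =
      hζu.zmodEquivZPowers (Multiplicative.toAdd b) := Additive.toMul.injective h1
  exact Multiplicative.toAdd.injective (hζu.zmodEquivZPowers.injective h2)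

/-- **The eigen-character**, with values in the complex `p`-th roots of unity. -/
theorem exists_eigen_character_complex (hD : (Nat.card D).Coprime p)
    (act : D → G →* G) (hact : ∀ d d' x, act (d * d') x = act d (act d' x))
    (chi : D →* (ZMod p)ˣ) (c : G) (hc1 : c ≠ 1) (hcp : c ^ p = 1)
    (hc : ∀ d, act d c = c ^ (chi d : ZMod p).val) :
    ∃ psi : G →* ℂˣ, psi ≠ 1 ∧ psi ^ p = 1 ∧
      ∀ d x, psi (act d x) = psi x ^ (chi d : ZMod p).val := by
  obtain ⟨ψ, hψ1, hψ⟩ := exists_eigen_character p hD act hact chi c hc1 hcp hc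
  obtain ⟨ι, hι⟩ := exists_injective_hom_zmod_complex p
  refine ⟨ι.comp ψ, ?_, ?_, ?_⟩
  · intro h1
    apply hψ1
    ext x
    have := DFunLike.congr_fun h1 x
    simp only [MonoidHom.comp_apply, MonoidHom.one_apply] at this
    have h2 : ι (ψ x) = ι 1 := by rw [this, map_one]
    simpa using congrArg Multiplicative.toAdd (hι h2)
  · ext x
    simp only [MonoidHom.pow_apply, MonoidHom.comp_apply, MonoidHom.one_apply]
    rw [← map_pow, pow_card_eq_one_zmod, map_one]
  · intro d x
    simp only [MonoidHom.comp_apply]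
    rw [hψ, map_pow]

/-- The eigen-character for a `MulDistribMulAction`. -/
theorem exists_eigen_character_smul [MulDistribMulAction D G] (hD : (Nat.card D).Coprime p)
    (chi : D →* (ZMod p)ˣ) (c : G) (hc1 : c ≠ 1) (hcp : c ^ p = 1)
    (hc : ∀ d : D, d • c = c ^ (chi d : ZMod p).val) :
    ∃ psi : G →* ℂˣ, psi ≠ 1 ∧ psi ^ p = 1 ∧
      ∀ (d : D) (x : G), psi (d • x) = psi x ^ (chi d : ZMod p).val :=
  exists_eigen_character_complex p hD (fun d => MulDistribMulAction.toMonoidHom G d)
    (fun d d' x => mul_smul d d' x) chi c hc1 hcp hc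

end main

end Fermat.Agent.S14.Thaine.PsiChar
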