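/-
Copyright (c) 2026. Released under Apache 2.0 license.

S14, Thaine route, step (B1), concrete form: the eigen-character `psi` of the class group of the
`p`-th cyclotomic field attached to a singular number `α` of type `ω²` whose ideal is the
`p`-th power of a non-principal ideal.
-/
import Mathlib
import Fermat.Prelude.Def_ClassGroup_GaloisAction
import Fermat.Agent.S14.Plan
import Fermat.Agent.S14.Thaine.PsiChar

set_option autoImplicit false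

open scoped NumberField nonZeroDivisors

namespace Fermat.Agent.S14.Thaine.PsiClass

/-- In a Dedekind domain, `n`-th powers of ideals determine the ideal. -/
theorem ideal_eq_of_pow_eq {A : Type*} [CommRing A] [IsDedekindDomain A] {I J : Ideal A}
    {n : ℕ} (hn : n ≠ 0) (h : I ^ n = J ^ n) : I = J := by
  have h1 : I ∣ J := (UniqueFactorizationMonoid.pow_dvd_pow_iff_dvd hn).mp (h ▸ dvd_rfl)
  have h2 : J ∣ I := (UniqueFactorizationMonoid.pow_dvd_pow_iff_dvd hn).mp (h ▸ dvd_rfl)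
  exact le_antisymm (Ideal.le_of_dvd h2) (Ideal.le_of_dvd h1)

/-- The class of a principal nonzero ideal is trivial. -/
theorem mk0_span_singleton {R : Type*} [CommRing R] [IsDedekindDomain R] (x : R)
    (hx : Ideal.span {x} ∈ (Ideal R)⁰) :
    ClassGroup.mk0 ⟨Ideal.span {x}, hx⟩ = 1 :=
  (ClassGroup.mk0_eq_one_iff hx).mpr ⟨⟨x, rfl⟩⟩

theorem span_singleton_mem_nonZeroDivisors {R : Type*} [CommRing R] [IsDomain R] {x : R}
    (hx : x ≠ 0) : Ideal.span {x} ∈ (Ideal R)⁰ := by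
  rw [mem_nonZeroDivisors_iff_ne_zero, Ideal.zero_eq_bot, Ne, Ideal.span_singleton_eq_bot]
  exact hx

/-- If `g α · yⁿ = α ^ m · xⁿ` and `(α) = 𝔞ⁿ`, then `[g 𝔞] = [𝔞] ^ m` in the class group. -/
theorem mk0_mapNonZero_eq_pow {R : Type*} [CommRing R] [IsDedekindDomain R] (g : R ≃+* R)
    (α x y : R) (hx : x ≠ 0) (hy : y ≠ 0) (m n : ℕ) (hn : n ≠ 0) (𝔞 : (Ideal R)⁰)
    (h𝔞 : Ideal.span {α} = (𝔞 : Ideal R) ^ n) (h : g α * y ^ n = α ^ m * x ^ n) :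
    ClassGroup.mk0 (Ideal.mapNonZero g 𝔞) = ClassGroup.mk0 𝔞 ^ m := by
  have hkey : ((𝔞 : Ideal R).map (g : R →+* R) * Ideal.span {y}) ^ n =
      ((𝔞 : Ideal R) ^ m * Ideal.span {x}) ^ n := by
    rw [mul_pow, mul_pow, ← Ideal.map_pow, ← h𝔞, Ideal.map_span, Set.image_singleton,
      Ideal.span_singleton_pow, Ideal.span_singleton_mul_span_singleton, ← pow_mul, mul_comm m n,
      pow_mul, ← h𝔞, Ideal.span_singleton_pow, Ideal.span_singleton_pow,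
      Ideal.span_singleton_mul_span_singleton]
    exact congrArg (fun t => Ideal.span {t}) h
  have hkey2 := ideal_eq_of_pow_eq hn hkey
  have hX := span_singleton_mem_nonZeroDivisors hx
  have hY := span_singleton_mem_nonZeroDivisors hy
  have h3 : Ideal.mapNonZero g 𝔞 * (⟨Ideal.span {y}, hY⟩ : (Ideal R)⁰) =
      𝔞 ^ m * (⟨Ideal.span {x}, hX⟩ : (Ideal R)⁰) := Subtype.ext hkey2
  have h4 := congrArg ClassGroup.mk0 h3
  rw [map_mul, map_mul, map_pow, mk0_span_singleton, mk0_span_singleton, mul_one, mul_one] at h4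
  exact h4

section cyclotomic

variable (p : ℕ) [hp : Fact p.Prime] (K : Type) [Field K] [NumberField K]
  [IsCyclotomicExtension {p} ℚ K]

/-- The order of the Galois group of the `p`-th cyclotomic field is prime to `p`. -/
theorem card_aut_coprime : (Nat.card (K ≃ₐ[ℚ] K)).Coprime p := by
  have hp' : p.Prime := hp.out
  have : NeZero p := ⟨hp'.ne_zero⟩
  have : IsGalois ℚ K := IsCyclotomicExtension.isGalois {p} ℚ K
  have : FiniteDimensional ℚ K := IsCyclotomicExtension.finiteDimensional {p} ℚ K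
  rw [IsGalois.card_aut_eq_finrank,
    IsCyclotomicExtension.finrank K (Polynomial.cyclotomic.irreducible_rat hp'.pos),
    Nat.totient_prime hp']
  rw [Nat.coprime_comm, Nat.Prime.coprime_iff_not_dvd hp']
  intro hdvd
  have := Nat.le_of_dvd (Nat.sub_pos_of_lt hp'.one_lt) hdvd
  have := hp'.one_lt
  omega

/-- The Galois action on the class group. -/
noncomputable def galAct (σ : K ≃ₐ[ℚ] K) : ClassGroup (𝓞 K) →* ClassGroup (𝓞 K) :=
  (ClassGroup.mulEquiv (galRestrictionDatum ℤ ℚ K (𝓞 K) σ)).toMonoidHom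

theorem galAct_apply (σ : K ≃ₐ[ℚ] K) (x : ClassGroup (𝓞 K)) :
    galAct K σ x = ClassGroup.mulEquiv (galRestrictionDatum ℤ ℚ K (𝓞 K) σ) x := rfl

theorem galAct_mk0 (σ : K ≃ₐ[ℚ] K) (P : (Ideal (𝓞 K))⁰) :
    galAct K σ (ClassGroup.mk0 P) =
      ClassGroup.mk0 (Ideal.mapNonZero (galRestrictionDatum ℤ ℚ K (𝓞 K) σ) P) :=
  ClassGroup.mulEquiv_mk0 _ P

theorem galAct_mul (σ τ : K ≃ₐ[ℚ] K) (x : ClassGroup (𝓞 K)) :
    galAct K (σ * τ) x = galAct K σ (galAct K τ x) := by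
  rw [galAct_apply, galAct_apply, galAct_apply, map_mul]
  exact ClassGroup.mulEquiv_trans_apply _ _ x

variable {p K}

/-- **The eigen-character of the class group** (step (B1) of the Thaine route): hypothesis form. -/
theorem exists_class_character (ζ α : 𝓞 K) (hζ : IsPrimitiveRoot ζ p) (hα0 : α ≠ 0)
    (heigen : ∀ (σ : K ≃ₐ[ℚ] K) (b : ℕ), σ (ζ : K) = (ζ : K) ^ b →
      ∃ γ : K, σ (α : K) = (α : K) ^ (b ^ 2) * γ ^ p)
    (𝔞 : Ideal (𝓞 K)) (h𝔞 : Ideal.span {α} = 𝔞 ^ p) (hnp : ¬ 𝔞.IsPrincipal) :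
    ∃ ψ : ClassGroup (𝓞 K) →* ℂˣ, ψ ≠ 1 ∧ ψ ^ p = 1 ∧
      ∀ (σ : K ≃ₐ[ℚ] K) (b : ℕ), σ (ζ : K) = (ζ : K) ^ b → ∀ x : ClassGroup (𝓞 K),
        ψ (ClassGroup.mulEquiv (galRestrictionDatum ℤ ℚ K (𝓞 K) σ) x) = ψ x ^ (b ^ 2) := by
  have hp' : p.Prime := hp.out
  have : NeZero p := ⟨hp'.ne_zero⟩
  have hζK : IsPrimitiveRoot (ζ : K) p :=
    hζ.map_of_injective (FaithfulSMul.algebraMap_injective (𝓞 K) K)
  -- the ideal `𝔞` is nonzero
  have h𝔞0 : 𝔞 ∈ (Ideal (𝓞 K))⁰ := by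
    rw [mem_nonZeroDivisors_iff_ne_zero, Ideal.zero_eq_bot]
    rintro rfl
    rw [← Ideal.zero_eq_bot, zero_pow hp'.ne_zero, Ideal.zero_eq_bot,
      Ideal.span_singleton_eq_bot] at h𝔞
    exact hα0 h𝔞
  set A : (Ideal (𝓞 K))⁰ := ⟨𝔞, h𝔞0⟩ with hA
  set c : ClassGroup (𝓞 K) := ClassGroup.mk0 A with hc
  have hc1 : c ≠ 1 := by
    intro h1
    exact hnp ((ClassGroup.mk0_eq_one_iff h𝔞0).mp h1)
  have hcp : c ^ p = 1 := by
    rw [hc, ← map_pow]
    have : A ^ p = ⟨Ideal.span {α}, span_singleton_mem_nonZeroDivisors hα0⟩ :=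
      Subtype.ext h𝔞.symm
    rw [this]
    exact mk0_span_singleton _ _
  have hord : orderOf c = p := orderOf_eq_prime hcp hc1
  -- the character
  set chi : (K ≃ₐ[ℚ] K) →* (ZMod p)ˣ := (hζK.autToPow ℚ) ^ 2 with hchi
  have hceig : ∀ σ : K ≃ₐ[ℚ] K, galAct K σ c = c ^ ((chi σ : (ZMod p)ˣ) : ZMod p).val := by
    intro σ
    set b : ℕ := ((hζK.autToPow ℚ σ : (ZMod p)ˣ) : ZMod p).val with hb
    have hσζ : σ (ζ : K) = (ζ : K) ^ b := (hζK.autToPow_spec ℚ σ).symm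
    obtain ⟨γ, hγ⟩ := heigen σ b hσζ
    obtain ⟨x, y, hy, rfl⟩ := IsFractionRing.div_surjective (A := 𝓞 K) γ
    have hy0 : y ≠ 0 := nonZeroDivisors.ne_zero hy
    have hyK : (algebraMap (𝓞 K) K y) ≠ 0 := by
      simpa using hy0
    have hαK : (α : K) ≠ 0 := by
      simpa using hα0
    have hx0 : x ≠ 0 := by
      rintro rfl
      rw [map_zero, zero_div, zero_pow hp'.ne_zero, mul_zero] at hγ
      exact hαK ((map_eq_zero_iff σ σ.injective).mp hγ)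
    have hrel : (galRestrictionDatum ℤ ℚ K (𝓞 K) σ) α * y ^ p = α ^ (b ^ 2) * x ^ p := by
      apply FaithfulSMul.algebraMap_injective (𝓞 K) K
      rw [map_mul, map_mul, map_pow, map_pow, map_pow, galRestrictionDatum_apply,
        algebraMap_galRestrict_apply]
      have : σ ((algebraMap (𝓞 K) K) α) = σ (α : K) := rfl
      rw [this, hγ, div_pow]
      field_simp
    have h1 := mk0_mapNonZero_eq_pow (galRestrictionDatum ℤ ℚ K (𝓞 K) σ) α x y hx0 hy0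
      (b ^ 2) p hp'.ne_zero A h𝔞 hrel
    rw [galAct_mk0, h1, pow_eq_pow_iff_modEq, hord, ← ZMod.natCast_eq_natCast_iff]
    push_cast
    rw [hb, ZMod.natCast_zmod_val, ZMod.natCast_zmod_val, hchi]
    simp
  obtain ⟨ψ, hψ1, hψp, hψ⟩ := PsiChar.exists_eigen_character_complex p (card_aut_coprime p K)
    (galAct K) (galAct_mul K) chi c hc1 hcp hceig
  refine ⟨ψ, hψ1, hψp, ?_⟩
  intro σ b hσb x
  have h1 := hψ σ x
  rw [galAct_apply] at h1
  rw [h1]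
  have hx : ψ x ^ p = 1 := by
    have := DFunLike.congr_fun hψp x
    simpa using this
  rw [pow_eq_pow_mod _ hx, pow_eq_pow_mod (b ^ 2) hx]
  congr 1
  change _ ≡ _ [MOD p]
  rw [← ZMod.natCast_eq_natCast_iff]
  push_cast
  rw [ZMod.natCast_zmod_val, hchi]
  have hb : ((hζK.autToPow ℚ σ : (ZMod p)ˣ) : ZMod p) = (b : ZMod p) := by
    have h2 := hζK.autToPow_spec ℚ σ
    rw [hσb] at h2
    have h4 : (ζ : K) ^ b = (ζ : K) ^ (b % p) := pow_eq_pow_mod b hζK.pow_eq_one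
    rw [h4] at h2
    have h5 := hζK.pow_inj (ZMod.val_lt ((hζK.autToPow ℚ σ : (ZMod p)ˣ) : ZMod p))
      (Nat.mod_lt b hp'.pos) h2
    rw [← ZMod.natCast_zmod_val ((hζK.autToPow ℚ σ : (ZMod p)ˣ) : ZMod p), h5]
    simp
  simp [hb]

/-- The same, on classes of ideals. -/
theorem exists_class_character_mk0 (ζ α : 𝓞 K) (hζ : IsPrimitiveRoot ζ p) (hα0 : α ≠ 0)
    (heigen : ∀ (σ : K ≃ₐ[ℚ] K) (b : ℕ), σ (ζ : K) = (ζ : K) ^ b →
      ∃ γ : K, σ (α : K) = (α : K) ^ (b ^ 2) * γ ^ p)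
    (𝔞 : Ideal (𝓞 K)) (h𝔞 : Ideal.span {α} = 𝔞 ^ p) (hnp : ¬ 𝔞.IsPrincipal) :
    ∃ ψ : ClassGroup (𝓞 K) →* ℂˣ, ψ ≠ 1 ∧ ψ ^ p = 1 ∧
      ∀ (σ : K ≃ₐ[ℚ] K) (b : ℕ), σ (ζ : K) = (ζ : K) ^ b → ∀ P : (Ideal (𝓞 K))⁰,
        ψ (ClassGroup.mk0 (Ideal.mapNonZero (galRestrictionDatum ℤ ℚ K (𝓞 K) σ) P)) =
          ψ (ClassGroup.mk0 P) ^ (b ^ 2) := by
  obtain ⟨ψ, h1, h2, h3⟩ := exists_class_character ζ α hζ hα0 heigen 𝔞 h𝔞 hnp
  refine ⟨ψ, h1, h2, fun σ b hσb P => ?_⟩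
  rw [← h3 σ b hσb, ClassGroup.mulEquiv_mk0]

/-- The eigen-character attached to a singular primary number (vocabulary of `S14/Plan`) whose
ideal is the `p`-th power of a non-principal ideal. -/
theorem exists_class_character_of_isSingularPrimary (ζ α : 𝓞 K) (hζ : IsPrimitiveRoot ζ p)
    (hα : Plan.IsSingularPrimary p K ζ α)
    (𝔞 : Ideal (𝓞 K)) (h𝔞 : Ideal.span {α} = 𝔞 ^ p) (hnp : ¬ 𝔞.IsPrincipal) :
    ∃ ψ : ClassGroup (𝓞 K) →* ℂˣ, ψ ≠ 1 ∧ ψ ^ p = 1 ∧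
      ∀ (σ : K ≃ₐ[ℚ] K) (b : ℕ), σ (ζ : K) = (ζ : K) ^ b → ∀ P : (Ideal (𝓞 K))⁰,
        ψ (ClassGroup.mk0 (Ideal.mapNonZero (galRestrictionDatum ℤ ℚ K (𝓞 K) σ) P)) =
          ψ (ClassGroup.mk0 P) ^ (b ^ 2) := by
  refine exists_class_character_mk0 ζ α hζ ?_ hα.eigen 𝔞 h𝔞 hnp
  rintro rfl
  exact hα.not_mem (Ideal.zero_mem _)

end cyclotomic

end Fermat.Agent.S14.Thaine.PsiClass
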