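/-
Copyright (c) 2026. Released under Apache 2.0 license.

S14, Thaine route: the contract `CaseBStmt` of `S14/Thaine/Plan.lean` from the contracts
`XiIsUnitStmt`, `XiNotPowStmt`, `PsiCharStmt`, `ThaineStmt`, `MiniChebStmt`.
-/
import Mathlib
import Fermat.Agent.S14.Thaine.Plan
import Fermat.Agent.S14.Thaine.PsiClass

set_option autoImplicit false

open scoped NumberField nonZeroDivisors

namespace Fermat.Agent.S14.Thaine

open JacobiSumStickelberger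

namespace CaseB

variable {p : ℕ} [hp : Fact p.Prime] {K : Type} [Field K] [NumberField K]
  [IsCyclotomicExtension {p} ℚ K]

/-- The class of `𝔞` is an eigenvector of type `ω²` when `(α) = 𝔞 ^ p` for a Kummer datum
`α`. -/
theorem mulEquiv_mk0_eq_pow (α : 𝓞 K) (hα : IsKummerDatum p K α) (A : (Ideal (𝓞 K))⁰)
    (hA : Ideal.span {α} = (A : Ideal (𝓞 K)) ^ p) (d : (ZMod p)ˣ) :
    ClassGroup.mulEquiv (clRingAction p K d) (ClassGroup.mk0 A) =
      ClassGroup.mk0 A ^ ((d : ZMod p) ^ 2).val := by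
  have hp' : p.Prime := hp.out
  obtain ⟨u, v, hv, huv⟩ := hα.eigen d
  have hu : u ≠ 0 := by
    rintro rfl
    rw [zero_pow hp'.ne_zero, mul_zero] at huv
    rcases mul_eq_zero.mp huv with h | h
    · exact hα.ne_zero ((map_eq_zero_iff _ (clRingAction p K d).injective).mp h)
    · exact hv (pow_eq_zero_iff hp'.ne_zero |>.mp h)
  rw [ClassGroup.mulEquiv_mk0]
  exact PsiClass.mk0_mapNonZero_eq_pow (clRingAction p K d) α u v hu hv _ p hp'.ne_zero A hA huv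

/-- The endomorphism `clNorm` inverts the class of `𝔞`. -/
theorem clNorm_mk0_eq_inv (α : 𝓞 K) (hα : IsKummerDatum p K α) (A : (Ideal (𝓞 K))⁰)
    (hA : Ideal.span {α} = (A : Ideal (𝓞 K)) ^ p) (hA1 : ClassGroup.mk0 A ≠ 1) :
    clNorm p K (ClassGroup.mk0 A) = (ClassGroup.mk0 A)⁻¹ := by
  have hp' : p.Prime := hp.out
  have : NeZero p := ⟨hp'.ne_zero⟩
  set x : ClassGroup (𝓞 K) := ClassGroup.mk0 A with hx
  have hxp : x ^ p = 1 := by
    rw [hx, ← map_pow]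
    have hα0 := hα.ne_zero
    have : A ^ p = ⟨Ideal.span {α}, PsiClass.span_singleton_mem_nonZeroDivisors hα0⟩ :=
      Subtype.ext hA.symm
    rw [this]
    exact PsiClass.mk0_span_singleton _ _
  have hord : orderOf x = p := orderOf_eq_prime hxp hA1
  rw [clNorm_apply]
  have hterm : ∀ d ∈ (Finset.univ : Finset (ZMod p)ˣ),
      ClassGroup.mulEquiv (clRingAction p K d) x ^ (((d : ZMod p)⁻¹) ^ 2).val = x := by
    intro d _
    rw [hx, mulEquiv_mk0_eq_pow α hα A hA d, ← hx, ← pow_mul]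
    conv_rhs => rw [← pow_one x]
    rw [pow_eq_pow_iff_modEq, hord, ← ZMod.natCast_eq_natCast_iff]
    push_cast
    rw [ZMod.natCast_zmod_val, ZMod.natCast_zmod_val, ← mul_pow,
      mul_inv_cancel₀ (Units.ne_zero d), one_pow]
  rw [Finset.prod_congr rfl hterm, Finset.prod_const, Finset.card_univ, ZMod.card_units p,
    ← mul_eq_one_iff_eq_inv, ← pow_succ, Nat.sub_add_cancel hp'.one_le, hxp]

end CaseB

/-- The contract `CaseBStmt`, from the contracts of the Thaine route. -/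
theorem caseBStmt (p : ℕ) [Fact p.Prime] :
    XiIsUnitStmt p → XiNotPowStmt p → PsiCharStmt → ThaineStmt p → MiniChebStmt →
      CaseBStmt p := by
  intro hX1 hX4 hPsi hT hM h5 K _ _ _ α hα 𝔞 h𝔞 hnp
  have hp' : p.Prime := Fact.out
  have : NeZero p := ⟨hp'.ne_zero⟩
  -- the ideal `𝔞` is nonzero
  have h𝔞0 : 𝔞 ∈ (Ideal (𝓞 K))⁰ := by
    rw [mem_nonZeroDivisors_iff_ne_zero, Ideal.zero_eq_bot]
    rintro rfl
    rw [← Ideal.zero_eq_bot, zero_pow hp'.ne_zero, Ideal.zero_eq_bot,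
      Ideal.span_singleton_eq_bot] at h𝔞
    exact hα.ne_zero h𝔞
  set A : (Ideal (𝓞 K))⁰ := ⟨𝔞, h𝔞0⟩ with hA
  have hx1 : ClassGroup.mk0 A ≠ 1 := by
    intro h1
    exact hnp ((ClassGroup.mk0_eq_one_iff h𝔞0).mp h1)
  have hxp : ClassGroup.mk0 A ^ p = 1 := by
    rw [← map_pow]
    have : A ^ p = ⟨Ideal.span {α}, PsiClass.span_singleton_mem_nonZeroDivisors hα.ne_zero⟩ :=
      Subtype.ext h𝔞.symm
    rw [this]
    exact PsiClass.mk0_span_singleton _ _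
  have hinv := CaseB.clNorm_mk0_eq_inv α hα A h𝔞 hx1
  obtain ⟨ψ₀, hψ₀p, hψ₀⟩ := hPsi p hp' (ClassGroup (𝓞 K)) (clNorm p K) (ClassGroup.mk0 A)
    hx1 hxp hinv
  have hp2 : p ≠ 2 := by omega
  obtain ⟨𝔮, h𝔮prime, h𝔮abs, h𝔮p, h𝔮ψ, h𝔮ξ⟩ := hM p hp' hp2 K
    ⟨IsCyclotomicExtension.zeta p ℚ K, IsCyclotomicExtension.zeta_spec p ℚ K⟩ (xi p K)
    (hX1 h5 K) (hX4 h5 K) (ψ₀.comp (clNorm p K)) hψ₀
    (fun c => by rw [MonoidHom.comp_apply]; exact hψ₀p _)
  obtain ⟨c, hc⟩ := hT h5 K 𝔮 h𝔮prime h𝔮abs h𝔮p h𝔮ξ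
  apply h𝔮ψ
  rw [MonoidHom.comp_apply, hc, map_pow]
  exact hψ₀p c

end Fermat.Agent.S14.Thaine
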