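import Mathlib
import Fermat.Agent.S14.Thaine.Plan
import Fermat.Agent.Lib.StickelOmega

/-!
# S14, Thaine route: the core statement from the case contracts

`Plan.IsSingularPrimary` (the output shape of the bridge) implies `Thaine.IsKummerDatum`
(the input shape of the two cases), hence `Plan.NoSingularPrimaryStmt p` follows from
`CaseAStmt p`, `CaseBStmt p` and `ThreeStmt`.
-/

set_option autoImplicit false

open scoped NumberField nonZeroDivisors

namespace Fermat.Agent.S14.Thaine.Core

open JacobiSumStickelberger Fermat.Agent.S14 Fermat.Agent.S14.Thaine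

section Generic

variable {R : Type*} [CommRing R]

/-- If `α ≡ y ^ p` modulo `P ^ n`, `α = ε β ^ p` and `β` is prime to the maximal ideal `P`,
then `ε` is a `p`-th power modulo `P ^ n`. -/
theorem exists_sub_pow_mem (P : Ideal R) (hP : P.IsMaximal) (p n : ℕ) (α y ε β : R)
    (hα : α - y ^ p ∈ P ^ n) (hβ : β ∉ P) (h : α = ε * β ^ p) :
    ∃ c : R, ε - c ^ p ∈ P ^ n := by
  have hsup : P ⊔ Ideal.span {β} = ⊤ := by
    by_contra hne
    have hle : P ≤ P ⊔ Ideal.span {β} := le_sup_left
    have heq : P = P ⊔ Ideal.span {β} := hP.eq_of_le hne hle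
    apply hβ
    rw [heq]
    exact Ideal.mem_sup_right (Ideal.mem_span_singleton_self β)
  have hcop : IsCoprime (P ^ n) (Ideal.span {β}) :=
    (Ideal.isCoprime_iff_sup_eq.mpr hsup).pow_left
  obtain ⟨i, hi, j, hj, hij⟩ := Ideal.isCoprime_iff_exists.mp hcop
  obtain ⟨a, rfl⟩ := Ideal.mem_span_singleton'.mp hj
  refine ⟨y * a, ?_⟩
  have h1 : 1 - (a * β) ^ p ∈ P ^ n := by
    obtain ⟨t, ht⟩ := one_sub_dvd_one_sub_pow (a * β) p
    have hi' : 1 - a * β = i := by rw [← hij]; ring
    rw [ht, hi']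
    exact Ideal.mul_mem_right _ _ hi
  have key : ε - (y * a) ^ p = ε * (1 - (a * β) ^ p) + (α - y ^ p) * a ^ p := by
    rw [h]; ring
  rw [key]
  exact Ideal.add_mem _ (Ideal.mul_mem_left _ _ h1) (Ideal.mul_mem_right _ _ hα)

end Generic

section Cyclo

variable (p : ℕ) [Fact p.Prime] (K : Type) [Field K] [NumberField K]
  [IsCyclotomicExtension {p} ℚ K]

theorem coe_clRingAction (d : (ZMod p)ˣ) (x : 𝓞 K) :
    algebraMap (𝓞 K) K (clRingAction p K d x) =
      (cycloGalEquiv p K).symm d (algebraMap (𝓞 K) K x) := by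
  show algebraMap (𝓞 K) K (galRestrict ℤ ℚ K (𝓞 K) ((cycloGalEquiv p K).symm d) x) = _
  rw [algebraMap_galRestrict_apply]

theorem zetaO_isPrimitiveRoot : IsPrimitiveRoot (zetaO p K) p :=
  (IsCyclotomicExtension.zeta_spec p ℚ K).toInteger_isPrimitiveRoot

/-- All `1 - ζ`, `ζ` a primitive `p`-th root of unity, generate the same ideal. -/
theorem span_one_sub_eq {ζ : 𝓞 K} (hζ : IsPrimitiveRoot ζ p) :
    Ideal.span {1 - ζ} = primeP p K := by
  have h0 := zetaO_isPrimitiveRoot p K
  obtain ⟨i, -, hi⟩ := h0.eq_pow_of_pow_eq_one hζ.pow_eq_one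
  obtain ⟨j, -, hj⟩ := hζ.eq_pow_of_pow_eq_one h0.pow_eq_one
  unfold primeP piO
  apply le_antisymm
  · rw [Ideal.span_singleton_le_span_singleton, ← hi]
    exact one_sub_dvd_one_sub_pow _ _
  · rw [Ideal.span_singleton_le_span_singleton, ← hj]
    exact one_sub_dvd_one_sub_pow _ _

theorem piO_prime : Prime (piO p K) := by
  have h := (IsCyclotomicExtension.zeta_spec p ℚ K).zeta_sub_one_prime'
  have h2 : piO p K = -((IsCyclotomicExtension.zeta_spec p ℚ K).toInteger - 1) := by
    unfold piO zetaO; ring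
  rw [h2]
  exact h.neg

theorem primeP_isMaximal : (primeP p K).IsMaximal := by
  have hpr := piO_prime p K
  have hprime : (primeP p K).IsPrime := (Ideal.span_singleton_prime hpr.ne_zero).mpr hpr
  refine hprime.isMaximal ?_
  unfold primeP
  rw [Ne, Ideal.span_singleton_eq_bot]
  exact hpr.ne_zero

/-- The bridge shape of (i)-(iv) implies the Kummer datum shape. -/
theorem isKummerDatum_of_isSingularPrimary {ζ α : 𝓞 K} (hζ : IsPrimitiveRoot ζ p)
    (h : Plan.IsSingularPrimary p K ζ α) : IsKummerDatum p K α := by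
  have hspan := span_one_sub_eq p K hζ
  have hα0 : α ≠ 0 := by
    rintro rfl
    exact h.not_mem (Ideal.zero_mem _)
  refine ⟨hα0, ?_, ?_, h.span_eq, ?_⟩
  · rintro ⟨y, rfl⟩
    exact h.not_pow ⟨(y : K), by push_cast; rfl⟩
  · intro d
    set σ : K ≃ₐ[ℚ] K := (cycloGalEquiv p K).symm d with hσ
    set b : ℕ := (d : ZMod p).val with hb
    have hσζ : σ (ζ : K) = (ζ : K) ^ b := by
      have h1 := Fermat.Agent.Lib.StickelOmega.clRingAction_pow_eq p K d hζ.pow_eq_one
      have h2 := coe_clRingAction p K d ζ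
      rw [h1] at h2
      rw [NumberField.RingOfIntegers.coe_eq_algebraMap, ← h2, map_pow]
    obtain ⟨γ, hγ⟩ := h.eigen σ b hσζ
    obtain ⟨u₀, v₀, hv₀, rfl⟩ := IsFractionRing.div_surjective (𝓞 K) γ
    have hv₀' : v₀ ≠ 0 := nonZeroDivisors.ne_zero hv₀
    have hv₀K : algebraMap (𝓞 K) K v₀ ≠ 0 := by
      rw [Ne, map_eq_zero_iff _ NumberField.RingOfIntegers.coe_injective]
      exact hv₀'
    have hval : ((d : ZMod p) ^ 2).val = b ^ 2 % p := by
      rw [← ZMod.val_natCast, Nat.cast_pow, hb, ZMod.natCast_zmod_val]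
    have hsplit : b ^ 2 = ((d : ZMod p) ^ 2).val + p * (b ^ 2 / p) := by
      rw [hval]
      exact (Nat.mod_add_div _ _).symm
    refine ⟨α ^ (b ^ 2 / p) * u₀, v₀, hv₀', ?_⟩
    apply NumberField.RingOfIntegers.coe_injective
    rw [map_mul, map_mul, map_pow, map_pow, map_pow, map_mul, map_pow, coe_clRingAction,
      ← NumberField.RingOfIntegers.coe_eq_algebraMap α, hγ, div_pow, mul_assoc,
      div_mul_cancel₀ _ (pow_ne_zero p hv₀K), mul_pow, ← pow_mul, ← mul_assoc, ← pow_add,
      mul_comm (b ^ 2 / p) p, ← hsplit]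
  · intro ε β hε hαε
    obtain ⟨y, hy⟩ := h.primary
    rw [← Ideal.span_singleton_pow, hspan] at hy
    have hβ : β ∉ primeP p K := by
      intro hβ
      apply h.not_mem
      rw [hspan, hαε]
      exact Ideal.mul_mem_left _ _ (Ideal.pow_mem_of_mem _ hβ p (Fact.out : p.Prime).pos)
    exact exists_sub_pow_mem (primeP p K) (primeP_isMaximal p K) p 3 α y ε β hy hβ hαε

/-- The core statement of the Thaine route from the contracts of the three cases. -/
theorem noSingularPrimaryStmt_of_cases (hA : CaseAStmt p) (hB : CaseBStmt p)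
    (hThree : ThreeStmt) : Plan.NoSingularPrimaryStmt p := by
  intro h3 K _ _ _ ζ α hζ hsp
  have hk := isKummerDatum_of_isSingularPrimary p K hζ hsp
  by_cases h5 : 5 ≤ p
  · exact no_kummer_datum h5 hA hB K α hk
  · have hp : p.Prime := Fact.out
    have hp3 : p = 3 := by
      have h4 : p ≠ 4 := by
        rintro rfl
        exact absurd hp (by decide)
      omega
    subst hp3
    exact hThree K α hk

end Cyclo

end Fermat.Agent.S14.Thaine.Core
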