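/-
[Density] of the S14 Thaine route (helper7): `MiniChebStmt` from `ClassZetaStmt`,
in hypothesis form over the analytic inputs of [IdealEuler].
-/
import Mathlib
import Fermat.Agent.S14.Thaine.Plan
import Fermat.Agent.S14.Thaine.Density
import Fermat.Agent.Lib.KummerSplit

set_option autoImplicit false

noncomputable section

namespace Fermat.Agent.S14.Thaine.MiniCheb

open Filter Topology IsDedekindDomain NumberField
open scoped nonZeroDivisors
open Fermat.Agent.S14.Thaine.Density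

/-! ### (i) class `L`-series from partial zeta functions -/

section ClassL

variable {K : Type} [Field K] [NumberField K]

/-- The class `L`-series is the combination of the partial zeta functions. -/
theorem classL_eq_sum (χ : ClassGroup (𝓞 K) → ℂ) (s : ℝ)
    (hsum : ∀ c : ClassGroup (𝓞 K), Summable fun I : {I : (Ideal (𝓞 K))⁰ // ClassGroup.mk0 I = c} =>
      (Ideal.absNorm (I.1 : Ideal (𝓞 K)) : ℝ) ^ (-s)) :
    classL K χ s = ∑ c : ClassGroup (𝓞 K), χ c * ((classZeta K c s : ℝ) : ℂ) := by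
  classical
  -- the summand split along the classes
  set g : ClassGroup (𝓞 K) → (Ideal (𝓞 K))⁰ → ℂ := fun c I =>
    Set.indicator {I : (Ideal (𝓞 K))⁰ | ClassGroup.mk0 I = c}
      (fun I => χ c * (((Ideal.absNorm (I : Ideal (𝓞 K)) : ℝ) ^ (-s) : ℝ) : ℂ)) I with hg
  have hfib : ∀ c : ClassGroup (𝓞 K),
      HasSum (fun I : {I : (Ideal (𝓞 K))⁰ // ClassGroup.mk0 I = c} =>
        χ c * (((Ideal.absNorm (I.1 : Ideal (𝓞 K)) : ℝ) ^ (-s) : ℝ) : ℂ))
        (χ c * ((classZeta K c s : ℝ) : ℂ)) := by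
    intro c
    have h1 := (hsum c).hasSum
    have h2 : HasSum (fun I : {I : (Ideal (𝓞 K))⁰ // ClassGroup.mk0 I = c} =>
        (((Ideal.absNorm (I.1 : Ideal (𝓞 K)) : ℝ) ^ (-s) : ℝ) : ℂ))
        ((classZeta K c s : ℝ) : ℂ) := by
      have := (Complex.hasSum_ofReal).mpr h1
      exact this
    exact h2.mul_left (χ c)
  have hgsum : ∀ c : ClassGroup (𝓞 K), HasSum (g c) (χ c * ((classZeta K c s : ℝ) : ℂ)) := by
    intro c
    have h := hfib c
    rw [hg]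
    exact hasSum_subtype_iff_indicator.mp h
  have htot : HasSum (fun I : (Ideal (𝓞 K))⁰ => ∑ c : ClassGroup (𝓞 K), g c I)
      (∑ c : ClassGroup (𝓞 K), χ c * ((classZeta K c s : ℝ) : ℂ)) :=
    hasSum_sum (fun c _ => hgsum c)
  have hfun : (fun I : (Ideal (𝓞 K))⁰ => ∑ c : ClassGroup (𝓞 K), g c I)
      = fun I : (Ideal (𝓞 K))⁰ => χ (ClassGroup.mk0 I) *
          (((Ideal.absNorm (I : Ideal (𝓞 K)) : ℝ) ^ (-s) : ℝ) : ℂ) := by
    funext I
    rw [Finset.sum_eq_single (ClassGroup.mk0 I)]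
    · simp [hg]
    · intro c _ hc
      simp only [hg]
      rw [Set.indicator_of_notMem]
      simpa using fun h => hc h.symm
    · intro h
      exact absurd (Finset.mem_univ _) h
  rw [hfun] at htot
  exact htot.tsum_eq

/-- [ClassZeta] ⇒ the class `L`-series of a function of sum zero is bounded on `(1,2]`. -/
theorem exists_bound_classL (hCZ : ClassZetaStmt) (χ : ClassGroup (𝓞 K) → ℂ)
    (hχ : ∑ c : ClassGroup (𝓞 K), χ c = 0) :
    ∃ C : ℝ, ∀ s ∈ Set.Ioc (1 : ℝ) 2, ‖classL K χ s‖ ≤ C := by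
  classical
  have hB : ∀ c : ClassGroup (𝓞 K), ∃ B : ℝ, ∀ s : ℝ, 1 < s → s ≤ 2 →
      |classZeta K c s - classZeta K 1 s| ≤ B := fun c => (hCZ K c 1).2
  choose B hB using hB
  refine ⟨∑ c : ClassGroup (𝓞 K), ‖χ c‖ * B c, fun s hs => ?_⟩
  have hsum : ∀ c : ClassGroup (𝓞 K),
      Summable fun I : {I : (Ideal (𝓞 K))⁰ // ClassGroup.mk0 I = c} =>
        (Ideal.absNorm (I.1 : Ideal (𝓞 K)) : ℝ) ^ (-s) := fun c => (hCZ K c c).1 s hs.1
  have h1 : classL K χ s = ∑ c : ClassGroup (𝓞 K),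
      χ c * (((classZeta K c s - classZeta K 1 s : ℝ)) : ℂ) := by
    rw [classL_eq_sum χ s hsum]
    have h2 : ∑ c : ClassGroup (𝓞 K), χ c * (((classZeta K c s - classZeta K 1 s : ℝ)) : ℂ)
        = ∑ c : ClassGroup (𝓞 K), χ c * ((classZeta K c s : ℝ) : ℂ)
          - (∑ c : ClassGroup (𝓞 K), χ c) * ((classZeta K 1 s : ℝ) : ℂ) := by
      rw [Finset.sum_mul, ← Finset.sum_sub_distrib]
      refine Finset.sum_congr rfl (fun c _ => ?_)
      push_cast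
      ring
    rw [h2, hχ, zero_mul, sub_zero]
  rw [h1]
  refine (norm_sum_le _ _).trans (Finset.sum_le_sum (fun c _ => ?_))
  rw [norm_mul, Complex.norm_real, Real.norm_eq_abs]
  exact mul_le_mul_of_nonneg_left (hB c s hs.1 hs.2) (norm_nonneg _)

end ClassL

/-! ### characters of finite abelian groups -/

theorem sum_coe_eq_zero {G : Type*} [CommGroup G] [Fintype G] (χ : G →* ℂˣ) (hχ : χ ≠ 1) :
    ∑ g : G, ((χ g : ℂˣ) : ℂ) = 0 := by
  obtain ⟨g0, hg0⟩ : ∃ g0, χ g0 ≠ 1 := by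
    by_contra h
    exact hχ (MonoidHom.ext (fun g => by_contra (fun hg => h ⟨g, hg⟩)))
  have h1 : ∑ g : G, ((χ g : ℂˣ) : ℂ) = ((χ g0 : ℂˣ) : ℂ) * ∑ g : G, ((χ g : ℂˣ) : ℂ) := by
    rw [Finset.mul_sum]
    rw [← Equiv.sum_comp (Equiv.mulLeft g0) (fun g => ((χ g : ℂˣ) : ℂ))]
    refine Finset.sum_congr rfl (fun g _ => ?_)
    simp [map_mul]
  have h2 : (((χ g0 : ℂˣ) : ℂ) - 1) * ∑ g : G, ((χ g : ℂˣ) : ℂ) = 0 := by
    rw [sub_mul, one_mul, ← h1, sub_self]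
  rcases mul_eq_zero.mp h2 with h | h
  · exfalso
    apply hg0
    ext
    simpa [sub_eq_zero] using h
  · exact h

theorem pow_ne_one_of_lt {G : Type*} [CommGroup G] {p : ℕ} (hp : p.Prime) (ψ : G →* ℂˣ)
    (hψ1 : ψ ≠ 1) (hψp : ∀ c, ψ c ^ p = 1) {k : ℕ} (hk0 : 0 < k) (hkp : k < p) : ψ ^ k ≠ 1 := by
  obtain ⟨g0, hg0⟩ : ∃ g0, ψ g0 ≠ 1 := by
    by_contra h
    exact hψ1 (MonoidHom.ext (fun g => by_contra (fun hg => h ⟨g, hg⟩)))
  intro h
  have h1 : ψ g0 ^ k = 1 := by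
    have := congrArg (fun f : G →* ℂˣ => f g0) h
    simpa using this
  have hcop : Nat.Coprime p k :=
    hp.coprime_iff_not_dvd.mpr (Nat.not_dvd_of_pos_of_lt hk0 hkp)
  have hd : orderOf (ψ g0) ∣ Nat.gcd p k :=
    Nat.dvd_gcd (orderOf_dvd_of_pow_eq_one (hψp g0)) (orderOf_dvd_of_pow_eq_one h1)
  rw [hcop, Nat.dvd_one, orderOf_eq_one_iff] at hd
  exact hg0 hd

/-! ### the analytic inputs ([IdealEuler]) as contracts -/

/-- (A1) Euler product inequality for `∏_{k<p} L(s, ψ^k)`. -/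
def EulerProdInput : Prop :=
  ∀ (K : Type) [Field K] [NumberField K] (p : ℕ) [Fact p.Prime] (ψ : ClassGroup (𝓞 K) →* ℂˣ),
    (∀ c, ψ c ^ p = 1) → ∀ s ∈ Set.Ioc (1 : ℝ) 2, ∀ T : Finset (HeightOneSpectrum (𝓞 K)),
      (∀ Q ∈ T, ψ (primeClass K Q) = 1) →
      Real.exp ((p : ℝ) * ∑ Q ∈ T, (Ideal.absNorm Q.asIdeal : ℝ) ^ (-s))
        ≤ ‖∏ k ∈ Finset.range p, classL K (fun c => (((ψ ^ k) c : ℂˣ) : ℂ)) s‖

/-- (A2) `ζ_K(s) ≤ C / (s - 1)` on `(1,2]`. -/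
def ZetaPoleInput : Prop :=
  ∀ (K : Type) [Field K] [NumberField K],
    ∃ C : ℝ, ∀ s ∈ Set.Ioc (1 : ℝ) 2, ‖classL K (fun _ => 1) s‖ ≤ C / (s - 1)

/-- (A3)-(A5) prime sums of a number field. -/
def PrimeSumInput : Prop :=
  ∀ (K : Type) [Field K] [NumberField K],
    PrimeSumUpper K ∧ PrimeSumLower K ∧
      Negligible K {Q : HeightOneSpectrum (𝓞 K) | ¬ (Ideal.absNorm Q.asIdeal).Prime}

/-! ### the assembly -/

/-- The primes containing a nonzero integer form a finite set. -/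
theorem finite_setOf_natCast_mem {K : Type} [Field K] [NumberField K] {p : ℕ} (hp : p ≠ 0) :
    {Q : HeightOneSpectrum (𝓞 K) | (p : 𝓞 K) ∈ Q.asIdeal}.Finite := by
  have h0 : Ideal.span {(p : 𝓞 K)} ≠ 0 := by
    rw [Ne, Ideal.zero_eq_bot, Ideal.span_singleton_eq_bot]
    exact_mod_cast hp
  refine (Ideal.finite_factors h0).subset (fun Q hQ => ?_)
  exact Ideal.dvd_span_singleton.mpr hQ

/-- **[Density]**: `MiniChebStmt` from `ClassZetaStmt` and the analytic inputs (A1)-(A5). -/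
theorem miniChebStmt_of_inputs (h1 : EulerProdInput) (h2 : ZetaPoleInput) (h3 : PrimeSumInput)
    (hCZ : ClassZetaStmt) : MiniChebStmt := by
  intro p hp hp2 K _ _ hζ ξ hξu hξ ψ hψ1 hψp
  by_contra hcon
  have : Fact p.Prime := ⟨hp⟩
  have hp3 : 3 ≤ p := by
    have := hp.two_le
    omega
  obtain ⟨ζ, hζ⟩ := hζ
  -- `ζ` as an algebraic integer
  have hζint : IsIntegral ℤ ζ := hζ.isIntegral hp.pos
  have hζ' : IsPrimitiveRoot (⟨ζ, hζint⟩ : 𝓞 K) p := by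
    refine IsPrimitiveRoot.of_map_of_injective (f := algebraMap (𝓞 K) K) ?_
      (FaithfulSMul.algebraMap_injective (𝓞 K) K)
    exact hζ
  -- `ξ` is not a `p`-th power in `K`
  have hξK : ∀ x : K, x ^ p ≠ (ξ : K) := by
    intro x hx
    have hxint : IsIntegral ℤ x := by
      refine IsIntegral.of_pow hp.pos ?_
      rw [hx]
      exact RingOfIntegers.isIntegral_coe ξ
    refine hξ ⟨⟨x, hxint⟩, ?_⟩
    apply RingOfIntegers.ext
    exact hx.symm
  -- the Kummer field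
  obtain ⟨α, hα⟩ := Fermat.Agent.Lib.KummerSplit.exists_root_kummerField p ξ
  have hdeg := Fermat.Agent.Lib.KummerSplit.finrank_kummerField p hζ' hξK
  -- the negligible set
  have hE : Negligible K ({Q : HeightOneSpectrum (𝓞 K) | ¬ (Ideal.absNorm Q.asIdeal).Prime} ∪
      {Q : HeightOneSpectrum (𝓞 K) | (p : 𝓞 K) ∈ Q.asIdeal}) :=
    (h3 K).2.2.union (Negligible.of_finite (finite_setOf_natCast_mem hp.ne_zero))
  have h0' : ∃ C : ℝ, ∀ s ∈ Set.Ioc (1 : ℝ) 2,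
      ‖classL K (fun c => (((ψ ^ 0) c : ℂˣ) : ℂ)) s‖ ≤ C / (s - 1) := by
    have hfun : (fun c : ClassGroup (𝓞 K) => (((ψ ^ 0) c : ℂˣ) : ℂ)) = fun _ => 1 := by
      funext c
      simp
    rw [hfun]
    exact h2 K
  have hL : ∀ k : ℕ, 0 < k → k < p → ∃ C : ℝ, ∀ s ∈ Set.Ioc (1 : ℝ) 2,
      ‖classL K (fun c => (((ψ ^ k) c : ℂˣ) : ℂ)) s‖ ≤ C := fun k hk0 hkp =>
    exists_bound_classL hCZ _ (sum_coe_eq_zero (ψ ^ k) (pow_ne_one_of_lt hp ψ hψ1 hψp hk0 hkp))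
  refine false_of_character (Fermat.Agent.Lib.KummerSplit.KummerField p ξ) p hp3 ψ
    (h1 K p ψ hψp) h0' hL (h3 K).2.1 (h3 (Fermat.Agent.Lib.KummerSplit.KummerField p ξ)).1 _ hE ?_
  intro Q hQE hψQ
  have hQprime : (Ideal.absNorm Q.asIdeal).Prime := by
    by_contra h
    exact hQE (Or.inl h)
  have hpQ : (p : 𝓞 K) ∉ Q.asIdeal := fun h => hQE (Or.inr h)
  have hy : ∃ y : 𝓞 K, ξ - y ^ p ∈ Q.asIdeal := by
    by_contra hno
    exact hcon ⟨⟨Q.asIdeal, mem_nonZeroDivisors_iff_ne_zero.mpr Q.ne_bot⟩, Q.isPrime, hQprime,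
      hpQ, hψQ, hno⟩
  obtain ⟨y, hy⟩ := hy
  have hξQ : ξ ∉ Q.asIdeal := fun h => Q.isPrime.ne_top (Ideal.eq_top_of_isUnit_mem _ h hξu)
  have := Q.isPrime
  obtain ⟨S, hS, hS'⟩ := Fermat.Agent.Lib.KummerSplit.exists_primes_over hdeg hζ' hξK hα
    Q.asIdeal Q.ne_bot hpQ hξQ hy
  refine ⟨S, hS, fun P hP => ⟨(hS' P hP).1, ?_, (hS' P hP).2.1, (hS' P hP).2.2⟩⟩
  intro h
  have h4 := (hS' P hP).2.2
  rw [h, Ideal.absNorm_bot] at h4
  exact Q.ne_bot (Ideal.absNorm_eq_zero_iff.mp h4.symm)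

end Fermat.Agent.S14.Thaine.MiniCheb
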