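/-
[Density] of the S14 Thaine route (helper7): the analytic inputs (A2)-(A5) of
`MiniCheb.miniChebStmt_of_inputs`, from helper17's `Lib/IdealEulerBounds` and helper27's
`Lib/IdealEulerNF`.
-/
import Mathlib
import Fermat.Agent.S14.Thaine.MiniCheb
import Fermat.Agent.Lib.IdealEulerBounds

set_option autoImplicit false

noncomputable section

namespace Fermat.Agent.S14.Thaine.MiniCheb

open IsDedekindDomain NumberField
open scoped nonZeroDivisors
open Fermat.Agent.S14.Thaine.Density Fermat.Agent.Lib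

section

variable (K : Type*) [Field K] [NumberField K]

/-- (A3) -/
theorem primeSumUpper : PrimeSumUpper K := by
  obtain ⟨C, hC⟩ := IdealEulerBounds.exists_sum_primes_le K
  exact ⟨C, fun s hs T => hC s hs.1 hs.2 T⟩

/-- (A4) -/
theorem primeSumLower : PrimeSumLower K := by
  obtain ⟨C, hC⟩ := IdealEulerBounds.exists_le_sum_primes K
  exact ⟨C, fun s hs => hC s hs.1 hs.2⟩

/-- (A5) -/
theorem negligible_not_prime :
    Negligible K {Q : HeightOneSpectrum (𝓞 K) | ¬ (Ideal.absNorm Q.asIdeal).Prime} := by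
  obtain ⟨C, hC⟩ := IdealEulerBounds.exists_sum_nonprime_le K
  refine ⟨C, fun T hT => ?_⟩
  have h := hC 1 le_rfl T hT
  simp only [Real.rpow_neg_one] at h
  exact h

/-- (A2) -/
theorem exists_classL_one_le :
    ∃ C : ℝ, ∀ s ∈ Set.Ioc (1 : ℝ) 2, ‖classL K (fun _ => 1) s‖ ≤ C / (s - 1) := by
  obtain ⟨C, -, hC⟩ := IdealEulerBounds.exists_zeta_le K
  refine ⟨C, fun s hs => ?_⟩
  have h1 : classL K (fun _ => 1) s =
      ((∑' I : (Ideal (𝓞 K))⁰, (Ideal.absNorm (I : Ideal (𝓞 K)) : ℝ) ^ (-s) : ℝ) : ℂ) := by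
    unfold classL
    simp only [one_mul]
    rw [Complex.ofReal_tsum]
  have h0 : 0 ≤ ∑' I : (Ideal (𝓞 K))⁰, (Ideal.absNorm (I : Ideal (𝓞 K)) : ℝ) ^ (-s) :=
    tsum_nonneg (fun I => Real.rpow_nonneg (Nat.cast_nonneg _) _)
  rw [h1, Complex.norm_real, Real.norm_eq_abs, abs_of_nonneg h0,
    IdealEulerNF.tsum_absNorm_rpow_nonZero K hs.1]
  exact hC s hs.1 hs.2

end

theorem primeSumInput : PrimeSumInput :=
  fun K _ _ => ⟨primeSumUpper K, primeSumLower K, negligible_not_prime K⟩

theorem zetaPoleInput : ZetaPoleInput :=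
  fun K _ _ => exists_classL_one_le K

/-- **[Density]**: `MiniChebStmt` from `ClassZetaStmt` and the Euler product inequality (A1). -/
theorem miniChebStmt_of_eulerProd (h1 : EulerProdInput) (hCZ : ClassZetaStmt) : MiniChebStmt :=
  miniChebStmt_of_inputs h1 zetaPoleInput primeSumInput hCZ

end Fermat.Agent.S14.Thaine.MiniCheb
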