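/-
[Density] of the S14 Thaine route (helper7): the contract `MiniChebStmt` from `ClassZetaStmt`.

`miniChebStmt : ClassZetaStmt → MiniChebStmt` — all other inputs are discharged:
* Euler products over prime ideals, `L(ψ, s)`: helper27's `Lib/IdealEuler`, `Lib/IdealEulerNF`;
* zeta bounds and prime sums: helper17's `Lib/IdealEulerZeta`, `Lib/IdealEulerBounds`;
* splitting in the Kummer field: helper40's `Lib/KummerSplit`;
* the density argument itself: `S14/Thaine/Density`, `S14/Thaine/MiniCheb`.
-/
import Mathlib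
import Fermat.Agent.S14.Thaine.MiniChebInputs
import Fermat.Agent.Lib.IdealEulerNF

set_option autoImplicit false

noncomputable section

namespace Fermat.Agent.S14.Thaine

open IsDedekindDomain NumberField
open scoped nonZeroDivisors
open Fermat.Agent.S14.Thaine.Density Fermat.Agent.Lib

/-- (A1) the Euler product inequality, from helper27's `IdealEulerNF.exp_le_norm_prod_LFun`. -/
theorem MiniCheb.eulerProdInput : MiniCheb.EulerProdInput := by
  intro K _ _ p _ ψ hψ s hs T hT
  have key := IdealEulerNF.exp_le_norm_prod_LFun K (Fact.out : p.Prime) ψ hψ hs.1 T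
    (fun v hv => by
      rw [IdealEulerNF.classOf_of_ne_bot K v.ne_bot]
      exact hT v hv)
  have hsum : ∑ v ∈ T, IdealEulerNF.normPow K s v.asIdeal
      = ∑ Q ∈ T, (Ideal.absNorm Q.asIdeal : ℝ) ^ (-s) :=
    Finset.sum_congr rfl (fun v _ => IdealEulerNF.normPow_of_ne_bot s v.ne_bot)
  have hL : ∀ k : ℕ, IdealEulerNF.LFun K (ψ ^ k) s
      = classL K (fun c => (((ψ ^ k) c : ℂˣ) : ℂ)) s :=
    fun k => IdealEulerNF.LFun_eq_tsum_nonZero K (ψ ^ k) s
  rw [hsum] at key
  simp only [hL] at key
  exact key

/-- **[Density] / MiniCheb**: the contract `MiniChebStmt` of `S14/Thaine/Plan.lean`, from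
`ClassZetaStmt` alone. -/
theorem miniChebStmt : ClassZetaStmt → MiniChebStmt :=
  MiniCheb.miniChebStmt_of_eulerProd MiniCheb.eulerProdInput

end Fermat.Agent.S14.Thaine
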