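/-
Copyright (c) 2026. Released under Apache 2.0 license.

S14, Thaine route: the contract `PsiCharStmt` of `S14/Thaine/Plan.lean`.
-/
import Mathlib
import Fermat.Agent.S14.Thaine.Plan
import Fermat.Agent.S14.Thaine.PsiChar

set_option autoImplicit false

namespace Fermat.Agent.S14.Thaine

namespace PsiChar

/-- An endomorphism `e` of a finite commutative group which raises an element `c` of order `p`
to a power prime to `p` takes a value which is not a `p`-th power. -/
theorem exists_not_pow_of_eigen (p : ℕ) (hp : p.Prime) {G : Type*} [CommGroup G] [Finite G]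
    (e : G →* G) (c : G) (hc1 : c ≠ 1) (hcp : c ^ p = 1) (m : ℕ) (hm : m.Coprime p)
    (hec : e c = c ^ m) : ∃ x0 : G, ∀ z : G, z ^ p ≠ e x0 := by
  have : Fact p.Prime := ⟨hp⟩
  have hord : orderOf c = p := orderOf_eq_prime hcp hc1
  have hiter_c : ∀ j : ℕ, e^[j] c = c ^ (m ^ j) := by
    intro j
    induction j with
    | zero => simp
    | succ j ih =>
      rw [Function.iterate_succ_apply, hec, iterate_map_pow, ih, ← pow_mul, pow_succ]
  by_contra hcon
  push Not at hcon
  have hiter : ∀ j : ℕ, ∀ x : G, ∃ z : G, z ^ (p ^ j) = e^[j] x := by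
    intro j
    induction j with
    | zero => intro x; exact ⟨x, by simp⟩
    | succ j ih =>
      intro x
      obtain ⟨z, hz⟩ := hcon x
      obtain ⟨w, hw⟩ := ih z
      refine ⟨w, ?_⟩
      rw [Function.iterate_succ_apply, ← hz, iterate_map_pow, ← hw, ← pow_mul, pow_succ]
  have hN : Nat.card G ≠ 0 := Nat.card_pos.ne'
  obtain ⟨t, m', hm', hNeq⟩ := Nat.exists_eq_pow_mul_and_not_dvd hN p hp.ne_one
  obtain ⟨z, hz⟩ := hiter t c
  rw [hiter_c] at hz
  set c' : G := c ^ (m ^ t) with hc'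
  have h1 : c' ^ m' = 1 := by
    rw [← hz, ← pow_mul, ← hNeq]
    exact pow_card_eq_one'
  have h2 : c' ^ p = 1 := by
    rw [hc', ← pow_mul, mul_comm, pow_mul, hcp, one_pow]
  have h3 : c' = 1 := by
    have := (pow_gcd_eq_one (a := c') (m := m') (n := p)).mpr ⟨h1, h2⟩
    have hg : Nat.gcd m' p = 1 := by
      rw [Nat.gcd_comm]
      exact (Nat.Prime.coprime_iff_not_dvd hp).mpr hm'
    rwa [hg, pow_one] at this
  have h4 : p ∣ m ^ t := by
    rw [← hord]
    exact orderOf_dvd_of_pow_eq_one h3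
  have h5 : p ∣ m := hp.dvd_of_dvd_pow h4
  exact (Nat.Prime.coprime_iff_not_dvd hp).mp hm.symm h5

end PsiChar

/-- The contract `PsiCharStmt`. -/
theorem psiCharStmt : PsiCharStmt := by
  intro p hp G _ _ e x hx1 hxp hex
  have : Fact p.Prime := ⟨hp⟩
  have hex' : e x = x ^ (p - 1) := by
    rw [hex, eq_comm, ← mul_eq_one_iff_eq_inv, ← pow_succ, Nat.sub_add_cancel hp.one_le, hxp]
  have hcop : (p - 1).Coprime p := by
    rw [Nat.coprime_comm, Nat.Prime.coprime_iff_not_dvd hp]
    intro hdvd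
    have := Nat.le_of_dvd (Nat.sub_pos_of_lt hp.one_lt) hdvd
    have := hp.one_lt
    omega
  obtain ⟨x0, hx0⟩ := PsiChar.exists_not_pow_of_eigen p hp e x hx1 hxp (p - 1) hcop hex'
  obtain ⟨ψ, hψ⟩ := PsiChar.exists_hom_zmod_ne_one p (e x0) hx0
  obtain ⟨ι, hι⟩ := PsiChar.exists_injective_hom_zmod_complex p
  refine ⟨ι.comp ψ, ?_, ?_⟩
  · intro g
    rw [MonoidHom.comp_apply, ← map_pow, PsiChar.pow_card_eq_one_zmod, map_one]
  · intro h1
    apply hψ
    have h2 := DFunLike.congr_fun h1 x0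
    simp only [MonoidHom.comp_apply, MonoidHom.one_apply] at h2
    have h3 : ι (ψ (e x0)) = ι 1 := by rw [h2, map_one]
    exact hι h3

end Fermat.Agent.S14.Thaine
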