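/-
Copyright (c) 2026. Released under Apache 2.0 license.

S14, Thaine route: from Thaine's relation among the primes above `q` to the contract
`ThaineStmt` of `S14/Thaine/Plan.lean` (the index transfer `r(σ_d 𝔮) ≡ d⁻² r(𝔮)` modulo `p`).
-/
import Mathlib
import Fermat.Agent.S14.Thaine.Plan

set_option autoImplicit false

open scoped NumberField nonZeroDivisors

namespace Fermat.Agent.S14.Thaine

open JacobiSumStickelberger

/-- **Thaine's relation**, the interface consumed by the transfer: for a prime `q ≡ 1` modulo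
`p` and a primitive root `g` modulo `q` there are exponents `r Q` with `ξ ≡ g ^ r Q` modulo
every prime `Q` above `q` and `∏_{Q ∣ q} [Q] ^ r Q = c ^ (q - 1)` in the class group. -/
def RelationStmt (p : ℕ) [Fact p.Prime] : Prop :=
  5 ≤ p → ∀ (K : Type) [Field K] [NumberField K] [IsCyclotomicExtension {p} ℚ K] (q : ℕ),
    q.Prime → p ∣ q - 1 → ∀ g : ℤ, orderOf (g : ZMod q) = q - 1 →
    ∃ (r : Ideal (𝓞 K) → ℕ) (c : ClassGroup (𝓞 K)),
      (∀ Q : Ideal (𝓞 K), Q.IsPrime → (q : 𝓞 K) ∈ Q → xi p K - (g : 𝓞 K) ^ r Q ∈ Q) ∧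
      ∀ S : Finset (Ideal (𝓞 K))⁰,
        (∀ Q, Q ∈ S ↔ (Q : Ideal (𝓞 K)).IsPrime ∧ (q : 𝓞 K) ∈ (Q : Ideal (𝓞 K))) →
        ∏ Q ∈ S, ClassGroup.mk0 Q ^ r (Q : Ideal (𝓞 K)) = c ^ (q - 1)

namespace Transfer

/-! ### Two facts on `p`-th powers in commutative groups -/

/-- If `x ^ a` is a `p`-th power and `a` is prime to `p`, then `x` is a `p`-th power. -/
theorem exists_pow_eq_of_coprime {G : Type*} [CommGroup G] (p a : ℕ) (hp : 1 < p)
    (hap : a.Coprime p) (x z : G) (h : x ^ a = z ^ p) : ∃ w : G, x = w ^ p := by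
  obtain ⟨m, -, hm⟩ := Nat.exists_mul_mod_eq_one_of_coprime hap hp
  have h1 : a * m = p * (a * m / p) + 1 := by
    have := Nat.div_add_mod (a * m) p
    omega
  refine ⟨z ^ m * (x ^ (a * m / p))⁻¹, ?_⟩
  have h2 : x ^ (a * m) = (x ^ (a * m / p)) ^ p * x := by
    conv_lhs => rw [h1]
    rw [pow_succ, mul_comm p, pow_mul]
  have h3 : x ^ (a * m) = (z ^ m) ^ p := by
    rw [pow_mul, h, ← pow_mul, mul_comm p m, pow_mul]
  rw [mul_pow, inv_pow, ← h3, h2]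
  group

/-- If `a ≡ b` modulo `p`, then `x ^ a` and `x ^ b` differ by a `p`-th power. -/
theorem exists_pow_eq_mul_pow {G : Type*} [CommGroup G] (p a b : ℕ) (h : a ≡ b [MOD p])
    (x : G) : ∃ y : G, x ^ a = x ^ b * y ^ p := by
  obtain ⟨t, ht⟩ := (Nat.modEq_iff_dvd.mp h.symm)
  refine ⟨x ^ t, ?_⟩
  have h1 : (a : ℤ) = b + p * t := by linarith
  have h2 : x ^ (a : ℤ) = x ^ (b : ℤ) * (x ^ t) ^ (p : ℤ) := by
    rw [h1, zpow_add, mul_comm (p : ℤ) t, zpow_mul]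
  simpa only [zpow_natCast] using h2

/-! ### The residue field of a prime of degree one -/

/-- A quotient ring with a prime number `q` of elements is `ZMod q`. -/
theorem exists_ringHom_zmod {R : Type*} [CommRing R] (𝔮 : Ideal R) (q : ℕ) (hq : q.Prime)
    (hcard : Nat.card (R ⧸ 𝔮) = q) :
    ∃ φ : R →+* ZMod q, Function.Surjective φ ∧ ∀ x, φ x = 0 ↔ x ∈ 𝔮 := by
  have hfin : Finite (R ⧸ 𝔮) := Nat.finite_of_card_ne_zero (by rw [hcard]; exact hq.ne_zero)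
  let _ : Fintype (R ⧸ 𝔮) := Fintype.ofFinite _
  have hcard' : Fintype.card (R ⧸ 𝔮) = q := by rw [← Nat.card_eq_fintype_card, hcard]
  let e : ZMod q ≃+* R ⧸ 𝔮 := ZMod.ringEquivOfPrime _ hq hcard'
  refine ⟨e.symm.toRingHom.comp (Ideal.Quotient.mk 𝔮), ?_, ?_⟩
  · exact e.symm.surjective.comp Ideal.Quotient.mk_surjective
  · intro x
    rw [RingHom.comp_apply, ← Ideal.Quotient.eq_zero_iff_mem]
    exact map_eq_zero_iff _ e.symm.injective

/-! ### Ring automorphisms and ideals -/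

theorem mem_map_ringEquiv_iff {R : Type*} [CommRing R] (g : R ≃+* R) (I : Ideal R) (x : R) :
    x ∈ I.map (g : R →+* R) ↔ g.symm x ∈ I := by
  rw [Ideal.map_comap_of_equiv, Ideal.mem_comap]

/-! ### The cyclotomic field -/

section cyclotomic

variable (p : ℕ) [hp : Fact p.Prime] (K : Type) [Field K] [NumberField K]
  [IsCyclotomicExtension {p} ℚ K]

theorem zetaO_isPrimitiveRoot : IsPrimitiveRoot (zetaO p K) p :=
  (IsCyclotomicExtension.zeta_spec p ℚ K).toInteger_isPrimitiveRoot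

/-- `σ_d ζ = ζ ^ d`. -/
theorem clRingAction_zetaO (d : (ZMod p)ˣ) :
    clRingAction p K d (zetaO p K) = zetaO p K ^ (d : ZMod p).val := by
  apply FaithfulSMul.algebraMap_injective (𝓞 K) K
  have h1 : (algebraMap (𝓞 K) K) (clRingAction p K d (zetaO p K)) =
      (cycloGalEquiv p K).symm d ((algebraMap (𝓞 K) K) (zetaO p K)) :=
    algebraMap_galRestrict_apply ℤ ((cycloGalEquiv p K).symm d) (zetaO p K)
  have h2 : (algebraMap (𝓞 K) K) (zetaO p K) = IsCyclotomicExtension.zeta p ℚ K := rfl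
  have h3 := (IsCyclotomicExtension.zeta_spec p ℚ K).autToPow_spec ℚ ((cycloGalEquiv p K).symm d)
  have h4 : (IsCyclotomicExtension.zeta_spec p ℚ K).autToPow ℚ ((cycloGalEquiv p K).symm d) = d :=
    (cycloGalEquiv p K).apply_symm_apply d
  rw [h4] at h3
  rw [h1, h2, ← h3, map_pow, h2]

/-- `1 - ζ ^ j` divides `p` for `0 < j < p`. -/
theorem one_sub_zetaO_pow_dvd (j : ℕ) (hj1 : 1 ≤ j) (hj : j < p) :
    (1 - zetaO p K ^ j) ∣ (p : 𝓞 K) := by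
  obtain ⟨n, rfl⟩ : ∃ n, p = n + 1 := ⟨p - 1, by omega⟩
  have h := (zetaO_isPrimitiveRoot (n + 1) K).prod_one_sub_pow_eq_order
  have h2 : ((n + 1 : ℕ) : 𝓞 K) = (n : 𝓞 K) + 1 := by push_cast; rfl
  rw [h2, ← h]
  obtain ⟨k, rfl⟩ : ∃ k, j = k + 1 := ⟨j - 1, by omega⟩
  exact Finset.dvd_prod_of_mem _ (Finset.mem_range.mpr (by omega))

theorem clRingAction_natCast (d : (ZMod p)ˣ) (n : ℕ) :
    clRingAction p K d (n : 𝓞 K) = (n : 𝓞 K) := map_natCast _ n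

theorem clRingAction_intCast (d : (ZMod p)ˣ) (n : ℤ) :
    clRingAction p K d (n : 𝓞 K) = (n : 𝓞 K) := map_intCast _ n

theorem clRingAction_inv_apply (d : (ZMod p)ˣ) (x : 𝓞 K) :
    clRingAction p K d⁻¹ x = (clRingAction p K d).symm x := by
  rw [map_inv]
  rfl

theorem clRingAction_mul_apply (d e : (ZMod p)ˣ) (x : 𝓞 K) :
    clRingAction p K (d * e) x = clRingAction p K d (clRingAction p K e x) := by
  rw [map_mul]
  rfl

theorem map_clRingAction_mul (d e : (ZMod p)ˣ) (I : Ideal (𝓞 K)) :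
    (I.map (clRingAction p K e : 𝓞 K →+* 𝓞 K)).map (clRingAction p K d : 𝓞 K →+* 𝓞 K) =
      I.map (clRingAction p K (d * e) : 𝓞 K →+* 𝓞 K) := by
  rw [Ideal.map_map]
  exact congrArg (fun f => Ideal.map f I)
    (RingHom.ext fun x => (clRingAction_mul_apply p K d e x).symm)

theorem map_clRingAction_one (I : Ideal (𝓞 K)) :
    I.map (clRingAction p K 1 : 𝓞 K →+* 𝓞 K) = I := by
  have : (clRingAction p K 1 : 𝓞 K →+* 𝓞 K) = RingHom.id _ := by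
    refine RingHom.ext fun x => ?_
    rw [map_one]
    rfl
  rw [this, Ideal.map_id]

theorem mem_map_clRingAction_iff (d : (ZMod p)ˣ) (I : Ideal (𝓞 K)) (x : 𝓞 K) :
    x ∈ I.map (clRingAction p K d : 𝓞 K →+* 𝓞 K) ↔ clRingAction p K d⁻¹ x ∈ I := by
  rw [mem_map_ringEquiv_iff, clRingAction_inv_apply]

end cyclotomic

/-! ### A prime of degree one -/

section degreeOne

variable {p : ℕ} [hp : Fact p.Prime] {K : Type} [Field K] [NumberField K]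
  [IsCyclotomicExtension {p} ℚ K]
  (𝔮 : Ideal (𝓞 K)) (q : ℕ) (hq : q.Prime) (φ : 𝓞 K →+* ZMod q)
  (hφ : ∀ x, φ x = 0 ↔ x ∈ 𝔮) (hp𝔮 : (p : 𝓞 K) ∉ 𝔮)

omit [NumberField K] in
include hφ in
theorem phi_eq_iff (x y : 𝓞 K) : φ x = φ y ↔ x - y ∈ 𝔮 := by
  rw [← hφ, map_sub, sub_eq_zero]

include hq hφ hp𝔮 in
theorem orderOf_phi_zetaO : orderOf (φ (zetaO p K)) = p := by
  have : Fact q.Prime := ⟨hq⟩
  have hp' : p.Prime := hp.out
  refine orderOf_eq_prime ?_ ?_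
  · rw [← map_pow, (zetaO_isPrimitiveRoot p K).pow_eq_one, map_one]
  · intro h1
    rw [← map_one φ, phi_eq_iff 𝔮 q φ hφ] at h1
    have h2 : (1 : 𝓞 K) - zetaO p K ^ 1 ∈ 𝔮 := by
      rw [pow_one]
      have := 𝔮.neg_mem h1
      rwa [neg_sub] at this
    exact hp𝔮 (Ideal.mem_of_dvd _ (one_sub_zetaO_pow_dvd p K 1 le_rfl hp'.one_lt) h2)

include hφ hp𝔮 in
theorem phi_zetaO_ne_zero : φ (zetaO p K) ≠ 0 := by
  have hp' : p.Prime := hp.out
  intro h0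
  have h1 : φ (zetaO p K) ^ p = 1 := by
    rw [← map_pow, (zetaO_isPrimitiveRoot p K).pow_eq_one, map_one]
  have : Nontrivial (ZMod q) := by
    refine ⟨⟨0, 1, fun h01 => ?_⟩⟩
    have h2 : φ 1 = 0 := by rw [map_one]; exact h01.symm
    rw [hφ] at h2
    exact hp𝔮 (Ideal.mul_mem_left 𝔮 _ h2 |> fun h => by simpa using h)
  rw [h0, zero_pow hp'.ne_zero] at h1
  exact zero_ne_one h1

include hq hφ hp𝔮 in
/-- A prime of degree one not above `p` has norm `≡ 1` modulo `p`. -/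
theorem dvd_sub_one : p ∣ q - 1 := by
  have : Fact q.Prime := ⟨hq⟩
  have hord := orderOf_phi_zetaO 𝔮 q hq φ hφ hp𝔮
  have h0 : φ (zetaO p K) ≠ 0 := phi_zetaO_ne_zero 𝔮 q φ hφ hp𝔮
  rw [← hord]
  exact orderOf_dvd_of_pow_eq_one (ZMod.pow_card_sub_one_eq_one h0)

include hq hφ hp𝔮 in
/-- The stabiliser of a prime of degree one is trivial. -/
theorem eq_one_of_map_eq (d : (ZMod p)ˣ)
    (h : 𝔮.map (clRingAction p K d : 𝓞 K →+* 𝓞 K) = 𝔮) : d = 1 := by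
  have : Fact q.Prime := ⟨hq⟩
  have : NeZero q := ⟨hq.ne_zero⟩
  have hp' : p.Prime := hp.out
  have : NeZero p := ⟨hp'.ne_zero⟩
  have hord := orderOf_phi_zetaO 𝔮 q hq φ hφ hp𝔮
  have h0 : φ (zetaO p K) ≠ 0 := phi_zetaO_ne_zero 𝔮 q φ hφ hp𝔮
  set n : ℕ := (φ (zetaO p K)).val with hn
  have h1 : zetaO p K - (n : 𝓞 K) ∈ 𝔮 := by
    rw [← phi_eq_iff 𝔮 q φ hφ, map_natCast, hn, ZMod.natCast_zmod_val]
  have h2 : clRingAction p K d (zetaO p K - (n : 𝓞 K)) ∈ 𝔮 := by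
    have := Ideal.mem_map_of_mem (clRingAction p K d : 𝓞 K →+* 𝓞 K) h1
    rw [h] at this
    exact this
  rw [map_sub, clRingAction_zetaO, clRingAction_natCast, ← phi_eq_iff 𝔮 q φ hφ, map_pow,
    map_natCast, hn, ZMod.natCast_zmod_val] at h2
  set zU : (ZMod q)ˣ := Units.mk0 (φ (zetaO p K)) h0 with hzU
  have hordU : orderOf zU = p := by
    rw [← orderOf_units, hzU, Units.val_mk0, hord]
  have h3 : zU ^ (d : ZMod p).val = zU ^ 1 := by
    apply Units.ext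
    rw [Units.val_pow_eq_pow_val, Units.val_pow_eq_pow_val, hzU, Units.val_mk0, h2, pow_one]
  rw [pow_eq_pow_iff_modEq, hordU, ← ZMod.natCast_eq_natCast_iff, ZMod.natCast_zmod_val,
    Nat.cast_one] at h3
  exact Units.ext h3

include hq in
/-- The Galois group acts transitively on the primes above `q`. -/
theorem exists_map_eq (h𝔮 : 𝔮.IsPrime) (hq𝔮 : (q : 𝓞 K) ∈ 𝔮) (Q : Ideal (𝓞 K))
    (hQ : Q.IsPrime) (hqQ : (q : 𝓞 K) ∈ Q) :
    ∃ d : (ZMod p)ˣ, Q = 𝔮.map (clRingAction p K d : 𝓞 K →+* 𝓞 K) := by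
  have hp' : p.Prime := hp.out
  have : NeZero p := ⟨hp'.ne_zero⟩
  have : IsGalois ℚ K := IsCyclotomicExtension.isGalois {p} ℚ K
  have : FiniteDimensional ℚ K := IsCyclotomicExtension.finiteDimensional {p} ℚ K
  have hunder : ∀ P : Ideal (𝓞 K), P.IsPrime → (q : 𝓞 K) ∈ P →
      P.under ℤ = Ideal.span {(q : ℤ)} := by
    intro P hP hqP
    have hmax : (Ideal.span {(q : ℤ)}).IsMaximal :=
      PrincipalIdealRing.isMaximal_of_irreducible (Nat.prime_iff_prime_int.mp hq).irreducible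
    have hle : Ideal.span {(q : ℤ)} ≤ P.under ℤ := by
      rw [Ideal.span_singleton_le_iff_mem, Ideal.under_def, Ideal.mem_comap]
      simpa using hqP
    have hne : P.under ℤ ≠ ⊤ := (Ideal.IsPrime.under ℤ P).ne_top
    exact (hmax.eq_of_le hne hle).symm
  have hinv : Algebra.IsInvariant ℤ (𝓞 K) (𝓞 K ≃ₐ[ℤ] 𝓞 K) :=
    Algebra.isInvariant_of_isGalois' ℤ ℚ K (𝓞 K)
  have hfin : Finite (𝓞 K ≃ₐ[ℤ] 𝓞 K) :=
    Finite.of_equiv _ (galRestrict ℤ ℚ K (𝓞 K)).toEquiv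
  obtain ⟨g, hg⟩ := Algebra.IsInvariant.exists_smul_of_under_eq ℤ (𝓞 K) (𝓞 K ≃ₐ[ℤ] 𝓞 K) 𝔮 Q
    ((hunder 𝔮 h𝔮 hq𝔮).trans (hunder Q hQ hqQ).symm)
  refine ⟨cycloGalEquiv p K ((galRestrict ℤ ℚ K (𝓞 K)).symm g), ?_⟩
  rw [hg, Ideal.pointwise_smul_def]
  refine congrArg (fun f => Ideal.map f 𝔮) (RingHom.ext fun x => ?_)
  show g x = galRestrict ℤ ℚ K (𝓞 K) ((cycloGalEquiv p K).symm
    (cycloGalEquiv p K ((galRestrict ℤ ℚ K (𝓞 K)).symm g))) x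
  rw [MulEquiv.symm_apply_apply, MulEquiv.apply_symm_apply]

include hq hφ in
/-- **The index transfer**: if `ξ ≡ g ^ ρ₁` modulo `𝔮` and `ξ ≡ g ^ ρ` modulo `σ_d 𝔮`, then
`ρ ≡ ρ₁ d⁻²` modulo `p`. -/
theorem index_modEq (hE : IsOmegaSq p K (xi p K)) (g : ℤ) (hg : orderOf (g : ZMod q) = q - 1)
    (hpq : p ∣ q - 1) (d : (ZMod p)ˣ) (ρ₁ ρ : ℕ) (h1 : xi p K - (g : 𝓞 K) ^ ρ₁ ∈ 𝔮)
    (hd : xi p K - (g : 𝓞 K) ^ ρ ∈ 𝔮.map (clRingAction p K d : 𝓞 K →+* 𝓞 K)) :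
    ρ ≡ ρ₁ * (((d : ZMod p)⁻¹) ^ 2).val [MOD p] := by
  have : Fact q.Prime := ⟨hq⟩
  have hq1 : q - 1 ≠ 0 := by have := hq.two_le; omega
  obtain ⟨u, hu⟩ := hE d⁻¹
  rw [Units.val_inv_eq_inv_val] at hu
  set m : ℕ := (((d : ZMod p)⁻¹) ^ 2).val with hm
  -- the congruence modulo `𝔮`
  rw [mem_map_clRingAction_iff, map_sub, map_pow, clRingAction_intCast, hu,
    ← phi_eq_iff 𝔮 q φ hφ, map_mul, map_pow, map_pow, map_pow, map_intCast] at hd
  rw [← phi_eq_iff 𝔮 q φ hφ, map_pow, map_intCast] at h1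
  rw [h1, ← pow_mul] at hd
  -- `g` is a unit modulo `q`
  have hG0 : (g : ZMod q) ≠ 0 := by
    intro h0
    have h2 := pow_orderOf_eq_one (g : ZMod q)
    rw [hg, h0, zero_pow hq1] at h2
    exact zero_ne_one h2
  have hu0 : φ u ≠ 0 := by
    intro h0
    rw [h0, zero_pow hp.out.ne_zero, mul_zero] at hd
    exact pow_ne_zero _ hG0 hd.symm
  set gU : (ZMod q)ˣ := Units.mk0 (g : ZMod q) hG0 with hgU
  set uU : (ZMod q)ˣ := Units.mk0 (φ u) hu0 with huU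
  have hordU : orderOf gU = q - 1 := by
    rw [← orderOf_units, hgU, Units.val_mk0, hg]
  have htop : Subgroup.zpowers gU = ⊤ := by
    apply Subgroup.eq_top_of_card_eq
    rw [Nat.card_zpowers, hordU, Nat.card_eq_fintype_card, ZMod.card_units]
  obtain ⟨t, ht⟩ : ∃ t : ℕ, gU ^ t = uU := by
    have h2 : uU ∈ Subgroup.zpowers gU := by rw [htop]; exact Subgroup.mem_top _
    rw [← mem_powers_iff_mem_zpowers] at h2
    exact h2
  have h3 : gU ^ (ρ₁ * m + t * p) = gU ^ ρ := by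
    apply Units.ext
    rw [pow_add, pow_mul gU t p, ht, Units.val_mul, Units.val_pow_eq_pow_val,
      Units.val_pow_eq_pow_val, Units.val_pow_eq_pow_val, hgU, huU, Units.val_mk0, Units.val_mk0]
    exact hd
  rw [pow_eq_pow_iff_modEq, hordU] at h3
  have h4 := (h3.of_dvd hpq).symm
  refine h4.trans ?_
  show (ρ₁ * m + t * p) % p = (ρ₁ * m) % p
  exact Nat.add_mul_mod_self_right _ _ _

end degreeOne

/-! ### The transfer -/

/-- A primitive root modulo a prime. -/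
theorem exists_primitive_root (q : ℕ) (hq : q.Prime) :
    ∃ g : ℤ, orderOf (g : ZMod q) = q - 1 := by
  have : Fact q.Prime := ⟨hq⟩
  have : NeZero q := ⟨hq.ne_zero⟩
  obtain ⟨gU, hgU⟩ := IsCyclic.exists_generator (α := (ZMod q)ˣ)
  refine ⟨((gU : ZMod q).val : ℤ), ?_⟩
  have h1 : (((gU : ZMod q).val : ℤ) : ZMod q) = (gU : ZMod q) := by
    rw [Int.cast_natCast, ZMod.natCast_zmod_val]
  rw [h1, orderOf_units, orderOf_eq_card_of_forall_mem_zpowers hgU, Nat.card_eq_fintype_card,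
    ZMod.card_units]

/-- **From Thaine's relation to the contract `ThaineStmt`.** -/
theorem thaine_at {p : ℕ} [hp : Fact p.Prime] {K : Type} [Field K] [NumberField K]
    [IsCyclotomicExtension {p} ℚ K] (hE : IsOmegaSq p K (xi p K))
    (𝔮 : (Ideal (𝓞 K))⁰) (h𝔮 : (𝔮 : Ideal (𝓞 K)).IsPrime)
    (hq : (Ideal.absNorm (𝔮 : Ideal (𝓞 K))).Prime) (hp𝔮 : (p : 𝓞 K) ∉ (𝔮 : Ideal (𝓞 K)))
    (hnp : ¬ ∃ y : 𝓞 K, xi p K - y ^ p ∈ (𝔮 : Ideal (𝓞 K)))
    (hRel : ∀ q : ℕ, q.Prime → p ∣ q - 1 → ∀ g : ℤ, orderOf (g : ZMod q) = q - 1 →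
      ∃ (r : Ideal (𝓞 K) → ℕ) (c : ClassGroup (𝓞 K)),
        (∀ Q : Ideal (𝓞 K), Q.IsPrime → (q : 𝓞 K) ∈ Q → xi p K - (g : 𝓞 K) ^ r Q ∈ Q) ∧
        ∀ S : Finset (Ideal (𝓞 K))⁰,
          (∀ Q, Q ∈ S ↔ (Q : Ideal (𝓞 K)).IsPrime ∧ (q : 𝓞 K) ∈ (Q : Ideal (𝓞 K))) →
          ∏ Q ∈ S, ClassGroup.mk0 Q ^ r (Q : Ideal (𝓞 K)) = c ^ (q - 1)) :
    ∃ c : ClassGroup (𝓞 K), clNorm p K (ClassGroup.mk0 𝔮) = c ^ p := by
  classical
  have hp' : p.Prime := hp.out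
  set q : ℕ := Ideal.absNorm (𝔮 : Ideal (𝓞 K)) with hqdef
  have hq𝔮 : (q : 𝓞 K) ∈ (𝔮 : Ideal (𝓞 K)) := Ideal.absNorm_mem _
  obtain ⟨φ, -, hφ⟩ := exists_ringHom_zmod (𝔮 : Ideal (𝓞 K)) q hq
    (by rw [hqdef, Ideal.absNorm_apply, Submodule.cardQuot_apply])
  have hpq : p ∣ q - 1 := dvd_sub_one (𝔮 : Ideal (𝓞 K)) q hq φ hφ hp𝔮
  obtain ⟨g, hg⟩ := exists_primitive_root q hq
  obtain ⟨r, c, hr, hprod⟩ := hRel q hq hpq g hg
  -- the primes above `q`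
  set f : (ZMod p)ˣ → (Ideal (𝓞 K))⁰ := fun d => Ideal.mapNonZero (clRingAction p K d) 𝔮 with hf
  have hf_coe : ∀ d, (f d : Ideal (𝓞 K)) =
      (𝔮 : Ideal (𝓞 K)).map (clRingAction p K d : 𝓞 K →+* 𝓞 K) := fun d => rfl
  have hf_prime : ∀ d, (f d : Ideal (𝓞 K)).IsPrime := by
    intro d
    rw [hf_coe]
    exact Ideal.map_isPrime_of_equiv (clRingAction p K d)
  have hf_mem : ∀ d, (q : 𝓞 K) ∈ (f d : Ideal (𝓞 K)) := by
    intro d
    rw [hf_coe, mem_map_clRingAction_iff, clRingAction_natCast]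
    exact hq𝔮
  have hf_inj : Function.Injective f := by
    intro d e hde
    have h1 : (f d : Ideal (𝓞 K)) = (f e : Ideal (𝓞 K)) := congrArg Subtype.val hde
    rw [hf_coe, hf_coe] at h1
    have h2 := congrArg (Ideal.map (clRingAction p K e⁻¹ : 𝓞 K →+* 𝓞 K)) h1
    rw [map_clRingAction_mul p K, map_clRingAction_mul p K, inv_mul_cancel,
      map_clRingAction_one p K] at h2
    have h3 := eq_one_of_map_eq (𝔮 : Ideal (𝓞 K)) q hq φ hφ hp𝔮 (e⁻¹ * d) h2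
    exact (inv_mul_eq_one.mp h3).symm
  have hS : ∀ Q : (Ideal (𝓞 K))⁰, Q ∈ Finset.univ.image f ↔
      (Q : Ideal (𝓞 K)).IsPrime ∧ (q : 𝓞 K) ∈ (Q : Ideal (𝓞 K)) := by
    intro Q
    constructor
    · intro hQ
      obtain ⟨d, -, rfl⟩ := Finset.mem_image.mp hQ
      exact ⟨hf_prime d, hf_mem d⟩
    · rintro ⟨hQ1, hQ2⟩
      obtain ⟨d, hd⟩ := exists_map_eq (p := p) (𝔮 : Ideal (𝓞 K)) q hq h𝔮 hq𝔮
        (Q : Ideal (𝓞 K)) hQ1 hQ2
      exact Finset.mem_image.mpr ⟨d, Finset.mem_univ d, Subtype.ext hd.symm⟩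
  have hrel := hprod (Finset.univ.image f) hS
  rw [Finset.prod_image (fun a _ b _ h => hf_inj h)] at hrel
  -- the exponents
  set ρ₁ : ℕ := r (𝔮 : Ideal (𝓞 K)) with hρ₁
  have h1 : xi p K - (g : 𝓞 K) ^ ρ₁ ∈ (𝔮 : Ideal (𝓞 K)) := hr _ h𝔮 hq𝔮
  have hρ₁p : ρ₁.Coprime p := by
    rw [Nat.coprime_comm, Nat.Prime.coprime_iff_not_dvd hp']
    rintro ⟨s, hs⟩
    apply hnp
    refine ⟨(g : 𝓞 K) ^ s, ?_⟩
    rw [← pow_mul, mul_comm s p, ← hs]
    exact h1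
  have hidx : ∀ d : (ZMod p)ˣ,
      r (f d : Ideal (𝓞 K)) ≡ ρ₁ * (((d : ZMod p)⁻¹) ^ 2).val [MOD p] := by
    intro d
    exact index_modEq (𝔮 : Ideal (𝓞 K)) q hq φ hφ hE g hg hpq d ρ₁ _ h1
      (hr _ (hf_prime d) (hf_mem d))
  have hy : ∀ d : (ZMod p)ˣ, ∃ y : ClassGroup (𝓞 K),
      ClassGroup.mk0 (f d) ^ r (f d : Ideal (𝓞 K)) =
        ClassGroup.mk0 (f d) ^ (ρ₁ * (((d : ZMod p)⁻¹) ^ 2).val) * y ^ p :=
    fun d => exists_pow_eq_mul_pow p _ _ (hidx d) _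
  choose y hy using hy
  have hcl : clNorm p K (ClassGroup.mk0 𝔮) =
      ∏ d : (ZMod p)ˣ, ClassGroup.mk0 (f d) ^ (((d : ZMod p)⁻¹) ^ 2).val := by
    rw [clNorm_apply]
    refine Finset.prod_congr rfl fun d _ => ?_
    rw [ClassGroup.mulEquiv_mk0]
  have hkey : clNorm p K (ClassGroup.mk0 𝔮) ^ ρ₁ =
      (c ^ ((q - 1) / p) * (∏ d : (ZMod p)ˣ, y d)⁻¹) ^ p := by
    rw [mul_pow, ← pow_mul, Nat.div_mul_cancel hpq, ← hrel, hcl, inv_pow, ← Finset.prod_pow,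
      ← Finset.prod_pow, eq_mul_inv_iff_mul_eq, ← Finset.prod_mul_distrib]
    refine Finset.prod_congr rfl fun d _ => ?_
    rw [hy d, ← pow_mul, mul_comm ρ₁]
  exact exists_pow_eq_of_coprime p ρ₁ hp'.one_lt hρ₁p _ _ hkey

end Transfer

/-- **The contract `ThaineStmt` from Thaine's relation and the eigen law of `ξ`.** -/
theorem thaineStmt_of_relation (p : ℕ) [Fact p.Prime] :
    RelationStmt p → XiEigenStmt p → ThaineStmt p := by
  intro hRel hE h5 K _ _ _ 𝔮 h𝔮 hq hp𝔮 hnp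
  exact Transfer.thaine_at (hE h5 K) 𝔮 h𝔮 hq hp𝔮 hnp (hRel h5 K)

end Fermat.Agent.S14.Thaine
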