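import Mathlib

/-!
# The cyclotomic unit `ξ` of the Thaine route (S14)

For a prime `p`, a domain `A` and a primitive `p`-th root of unity `ζ : A` we put
`u_c = 1 + ζ + ⋯ + ζ^(c-1) = (1 - ζ^c)/(1 - ζ)` (`cycUnit`) and, for an exponent family
`n : (ZMod p)ˣ → ℤ`, `ξ = ∏_c u_c ^ n_c` (`xi`).  If `∑ n_c = 0` this is the element
`∏_c (1 - ζ^c)^(n_c)`.
-/

namespace Fermat.Agent.S14.Thaine.XiUnit

open Finset

section General

variable {p : ℕ} [hp : Fact p.Prime] {A : Type*} [CommRing A] [IsDomain A] {ζ : A}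

/-- The cyclotomic unit `1 + ζ + ⋯ + ζ^(c-1) = (1 - ζ^c)/(1 - ζ)`. -/
noncomputable def cycUnit (hζ : IsPrimitiveRoot ζ p) (c : (ZMod p)ˣ) : Aˣ :=
  (hζ.geom_sum_isUnit hp.out.two_le (ZMod.val_coe_unit_coprime c)).unit

theorem cycUnit_val (hζ : IsPrimitiveRoot ζ p) (c : (ZMod p)ˣ) :
    (cycUnit hζ c : A) = ∑ i ∈ range (c : ZMod p).val, ζ ^ i := rfl

theorem cycUnit_mul (hζ : IsPrimitiveRoot ζ p) (c : (ZMod p)ˣ) :
    (cycUnit hζ c : A) * (1 - ζ) = 1 - ζ ^ (c : ZMod p).val := by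
  rw [cycUnit_val, mul_comm, mul_neg_geom_sum]

omit [IsDomain A] hp in
theorem pow_mod_p (hζ : IsPrimitiveRoot ζ p) (m : ℕ) : ζ ^ (m % p) = ζ ^ m := by
  conv_rhs => rw [← Nat.mod_add_div m p, pow_add, pow_mul, hζ.pow_eq_one, one_pow, mul_one]

omit [IsDomain A] in
theorem one_sub_ne_zero (hζ : IsPrimitiveRoot ζ p) : (1 - ζ : A) ≠ 0 :=
  sub_ne_zero.mpr (hζ.ne_one hp.out.one_lt).symm

theorem prod_zpow_sum {G ι : Type*} [CommGroup G] (s : Finset ι) (a : G) (n : ι → ℤ) :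
    ∏ c ∈ s, a ^ n c = a ^ ∑ c ∈ s, n c := by
  classical
  induction s using Finset.induction_on with
  | empty => simp
  | insert i s hi ih => rw [Finset.prod_insert hi, Finset.sum_insert hi, zpow_add, ih]

/-- The unit `ξ = ∏_c u_c ^ n_c`. -/
noncomputable def xi (hζ : IsPrimitiveRoot ζ p) (n : (ZMod p)ˣ → ℤ) : Aˣ :=
  ∏ c : (ZMod p)ˣ, cycUnit hζ c ^ n c

omit [IsDomain A] in
theorem pow_val_mul (hζ : IsPrimitiveRoot ζ p) (c b : (ZMod p)ˣ) :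
    ζ ^ ((c * b : (ZMod p)ˣ) : ZMod p).val = (ζ ^ (b : ZMod p).val) ^ (c : ZMod p).val := by
  rw [Units.val_mul, ZMod.val_mul, ← pow_mul, mul_comm (b : ZMod p).val, pow_mod_p hζ]

/-- A ring endomorphism with `f ζ = ζ ^ b` sends `u_c` to `u_(cb) / u_b`. -/
theorem map_cycUnit (hζ : IsPrimitiveRoot ζ p) (f : A →+* A) (b : (ZMod p)ˣ)
    (hf : f ζ = ζ ^ (b : ZMod p).val) (c : (ZMod p)ˣ) :
    f (cycUnit hζ c : A) * (cycUnit hζ b : A) = (cycUnit hζ (c * b) : A) := by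
  apply mul_right_cancel₀ (one_sub_ne_zero hζ)
  rw [mul_assoc, cycUnit_mul, cycUnit_mul, pow_val_mul hζ, ← hf, ← map_pow,
    show (1 : A) - f ζ = f (1 - ζ) by simp, ← map_mul, cycUnit_mul]
  simp

theorem unitsMap_cycUnit (hζ : IsPrimitiveRoot ζ p) (f : A →+* A) (b : (ZMod p)ˣ)
    (hf : f ζ = ζ ^ (b : ZMod p).val) (c : (ZMod p)ˣ) :
    Units.map (f : A →* A) (cycUnit hζ c) = cycUnit hζ (c * b) * (cycUnit hζ b)⁻¹ := by
  rw [eq_mul_inv_iff_mul_eq]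
  ext
  simpa using map_cycUnit hζ f b hf c

theorem unitsMap_xi (hζ : IsPrimitiveRoot ζ p) (f : A →+* A) (b : (ZMod p)ˣ)
    (hf : f ζ = ζ ^ (b : ZMod p).val) (n : (ZMod p)ˣ → ℤ) (hsum : ∑ c, n c = 0) :
    Units.map (f : A →* A) (xi hζ n) = ∏ c : (ZMod p)ˣ, cycUnit hζ c ^ n (c * b⁻¹) := by
  rw [xi, map_prod]
  simp_rw [map_zpow, unitsMap_cycUnit hζ f b hf, mul_zpow]
  rw [Finset.prod_mul_distrib, prod_zpow_sum, hsum, zpow_zero, mul_one]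
  exact Fintype.prod_equiv (Equiv.mulRight b) _ _ (fun c => by simp)

/-- **Eigen law**, general form: if `f ζ = ζ ^ B` then `f ξ = ξ ^ (B^2) * u ^ p`, provided
`n_c ≡ c⁻² (mod p)` and `∑ n_c = 0`. -/
theorem unitsMap_xi_eq (hζ : IsPrimitiveRoot ζ p) (f : A →+* A) (B : ℕ) (hB : B.Coprime p)
    (hf : f ζ = ζ ^ B) (n : (ZMod p)ˣ → ℤ)
    (hn : ∀ c : (ZMod p)ˣ, (n c : ZMod p) = ((c : ZMod p) ^ 2)⁻¹) (hsum : ∑ c, n c = 0) :
    ∃ u : Aˣ, Units.map (f : A →* A) (xi hζ n) = xi hζ n ^ (B ^ 2) * u ^ p := by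
  obtain ⟨b, hbv⟩ : ∃ b : (ZMod p)ˣ, (b : ZMod p) = (B : ZMod p) :=
    ⟨ZMod.unitOfCoprime B hB, ZMod.coe_unitOfCoprime B hB⟩
  have hf' : f ζ = ζ ^ (b : ZMod p).val := by
    rw [hf, hbv, ZMod.val_natCast, pow_mod_p hζ]
  have hdiv : ∀ c : (ZMod p)ˣ, (p : ℤ) ∣ n (c * b⁻¹) - (B : ℤ) ^ 2 * n c := by
    intro c
    rw [← ZMod.intCast_zmod_eq_zero_iff_dvd]
    push_cast
    rw [hn, hn, Units.val_mul, Units.val_inv_eq_inv_val, hbv]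
    have hc : (c : ZMod p) ≠ 0 := c.ne_zero
    have hB0 : (B : ZMod p) ≠ 0 := hbv ▸ b.ne_zero
    field_simp
    ring
  choose m hm using hdiv
  refine ⟨∏ c : (ZMod p)ˣ, cycUnit hζ c ^ m c, ?_⟩
  rw [unitsMap_xi hζ f b hf' n hsum, xi, ← Finset.prod_pow, ← Finset.prod_pow,
    ← Finset.prod_mul_distrib]
  refine Finset.prod_congr rfl fun c _ => ?_
  rw [← zpow_natCast, ← zpow_natCast, ← zpow_mul, ← zpow_mul, ← zpow_add]
  congr 1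
  have := hm c
  push_cast
  linarith

omit [IsDomain A] in
theorem val_units_injective : Function.Injective (fun c : (ZMod p)ˣ => (c : ZMod p).val) :=
  fun _ _ h => Units.ext (ZMod.val_injective p h)

omit [IsDomain A] in
theorem image_val_units :
    (univ : Finset (ZMod p)ˣ).image (fun c : (ZMod p)ˣ => (c : ZMod p).val) = Ioo 0 p := by
  ext a
  simp only [mem_image, mem_univ, true_and, mem_Ioo]
  constructor
  · rintro ⟨c, rfl⟩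
    exact ⟨(ZMod.val_pos).mpr c.ne_zero, ZMod.val_lt _⟩
  · rintro ⟨h0, h1⟩
    have hcop : a.Coprime p :=
      Nat.Coprime.symm ((Nat.Prime.coprime_iff_not_dvd hp.out).mpr (Nat.not_dvd_of_pos_of_lt h0 h1))
    exact ⟨ZMod.unitOfCoprime a hcop, by
      rw [ZMod.coe_unitOfCoprime, ZMod.val_natCast, Nat.mod_eq_of_lt h1]⟩

omit [IsDomain A] in
theorem prod_Ioo_eq {M : Type*} [CommMonoid M] (g : ℕ → M) :
    ∏ a ∈ Ioo 0 p, g a = ∏ c : (ZMod p)ˣ, g (c : ZMod p).val := by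
  rw [← image_val_units, Finset.prod_image (fun _ _ _ _ h => val_units_injective h)]

omit [IsDomain A] in
theorem sum_Ioo_eq {M : Type*} [AddCommMonoid M] (g : ℕ → M) :
    ∑ a ∈ Ioo 0 p, g a = ∑ c : (ZMod p)ˣ, g (c : ZMod p).val := by
  rw [← image_val_units, Finset.sum_image (fun _ _ _ _ h => val_units_injective h)]

/-- `ξ` as a quotient of two products of powers of the `1 - ζ^a`: if `n_c = nP c - nM c` and
`∑ nP = ∑ nM` then `ξ * ∏ (1 - ζ^a)^(nM a) = ∏ (1 - ζ^a)^(nP a)`. -/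
theorem xi_mul_den (hζ : IsPrimitiveRoot ζ p) (n : (ZMod p)ˣ → ℤ) (nP nM : ℕ → ℕ)
    (h : ∀ c : (ZMod p)ˣ, n c = (nP (c : ZMod p).val : ℤ) - nM (c : ZMod p).val)
    (hs : ∑ a ∈ Ioo 0 p, nP a = ∑ a ∈ Ioo 0 p, nM a) :
    (xi hζ n : A) * ∏ a ∈ Ioo 0 p, (1 - ζ ^ a) ^ nM a = ∏ a ∈ Ioo 0 p, (1 - ζ ^ a) ^ nP a := by
  rw [prod_Ioo_eq, prod_Ioo_eq]
  simp_rw [← cycUnit_mul hζ, mul_pow]
  rw [Finset.prod_mul_distrib, Finset.prod_mul_distrib, Finset.prod_pow_eq_pow_sum,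
    Finset.prod_pow_eq_pow_sum, ← sum_Ioo_eq (M := ℕ) nM, ← sum_Ioo_eq (M := ℕ) nP, hs, ← mul_assoc]
  congr 1
  have key : xi hζ n * ∏ c : (ZMod p)ˣ, cycUnit hζ c ^ nM (c : ZMod p).val
      = ∏ c : (ZMod p)ˣ, cycUnit hζ c ^ nP (c : ZMod p).val := by
    rw [xi, ← Finset.prod_mul_distrib]
    refine Finset.prod_congr rfl fun c _ => ?_
    rw [h c, zpow_sub, zpow_natCast, zpow_natCast, inv_mul_cancel_right]
  have := congrArg (Units.val) key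
  simpa [Units.coe_prod] using this

end General

section Trunc

/-! ### Computations in a ring of characteristic `p` with an element `ϖ`, `ϖ ^ 3 = 0` -/

variable {p : ℕ} [hp : Fact p.Prime] {B : Type*} [CommRing B] [CharP B p]

local notation "φ" => (ZMod.castHom (dvd_refl p) B)

omit [CharP B p] in
theorem two_ne_zero_zmod (hp5 : 5 ≤ p) : (2 : ZMod p) ≠ 0 := by
  intro h
  have h' : ((2 : ℕ) : ZMod p) = 0 := by exact_mod_cast h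
  rw [ZMod.natCast_eq_zero_iff] at h'
  have := Nat.le_of_dvd (by norm_num) h'
  omega

omit [CharP B p] in
theorem three_ne_zero_zmod (hp5 : 5 ≤ p) : (3 : ZMod p) ≠ 0 := by
  intro h
  have h' : ((3 : ℕ) : ZMod p) = 0 := by exact_mod_cast h
  rw [ZMod.natCast_eq_zero_iff] at h'
  have := Nat.le_of_dvd (by norm_num) h'
  omega

omit [CharP B p] in
theorem six_ne_zero_zmod (hp5 : 5 ≤ p) : (6 : ZMod p) ≠ 0 := by
  have : (6 : ZMod p) = 2 * 3 := by norm_num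
  rw [this]
  exact mul_ne_zero (two_ne_zero_zmod hp5) (three_ne_zero_zmod hp5)

omit [CharP B p] in
theorem twentyfour_ne_zero_zmod (hp5 : 5 ≤ p) : (24 : ZMod p) ≠ 0 := by
  have : (24 : ZMod p) = 2 ^ 3 * 3 := by norm_num
  rw [this]
  exact mul_ne_zero (pow_ne_zero _ (two_ne_zero_zmod hp5)) (three_ne_zero_zmod hp5)

theorem pow_one_sub (hp5 : 5 ≤ p) (ϖ : B) (hϖ : ϖ ^ 3 = 0) (a : ℕ) :
    (1 - ϖ) ^ a = 1 - φ (a : ZMod p) * ϖ + φ ((a : ZMod p) * (a - 1) * 2⁻¹) * ϖ ^ 2 := by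
  have h2 := two_ne_zero_zmod hp5
  induction a with
  | zero => simp
  | succ a ih =>
    have key : (((a + 1 : ℕ) : ZMod p)) * (((a + 1 : ℕ) : ZMod p) - 1) * 2⁻¹
        = (a : ZMod p) * (a - 1) * 2⁻¹ + a := by
      push_cast; field_simp; ring
    rw [pow_succ, ih, key, map_add, Nat.cast_succ, map_add, map_one]
    linear_combination (-(φ ((a : ZMod p) * (a - 1) * 2⁻¹))) * hϖ

theorem geom_one_sub (hp5 : 5 ≤ p) (ϖ : B) (hϖ : ϖ ^ 3 = 0) (a : ℕ) :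
    ∑ i ∈ range a, (1 - ϖ) ^ i = φ (a : ZMod p) - φ ((a : ZMod p) * (a - 1) * 2⁻¹) * ϖ
      + φ ((a : ZMod p) * (a - 1) * (a - 2) * 6⁻¹) * ϖ ^ 2 := by
  have h2 := two_ne_zero_zmod hp5
  have h3 := three_ne_zero_zmod hp5
  have h6 := six_ne_zero_zmod hp5
  induction a with
  | zero => simp
  | succ a ih =>
    have key1 : (((a + 1 : ℕ) : ZMod p)) * (((a + 1 : ℕ) : ZMod p) - 1) * 2⁻¹
        = (a : ZMod p) * (a - 1) * 2⁻¹ + a := by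
      push_cast; field_simp; ring
    have key2 : (((a + 1 : ℕ) : ZMod p)) * (((a + 1 : ℕ) : ZMod p) - 1)
        * (((a + 1 : ℕ) : ZMod p) - 2) * 6⁻¹
        = (a : ZMod p) * (a - 1) * (a - 2) * 6⁻¹ + (a : ZMod p) * (a - 1) * 2⁻¹ := by
      have h62 : (6 : ZMod p) = 2 * 3 := by norm_num
      push_cast; rw [h62]; field_simp; ring
    rw [Finset.sum_range_succ, ih, pow_one_sub hp5 ϖ hϖ, key1, key2, map_add, map_add,
      Nat.cast_succ, map_add, map_one]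
    ring

/-- The "exponential" `E(α, γ) = 1 + α ϖ + (γ + α²/2) ϖ²`. -/
noncomputable def E (ϖ : B) (x : ZMod p × ZMod p) : B :=
  1 + φ x.1 * ϖ + φ (x.2 + x.1 ^ 2 * 2⁻¹) * ϖ ^ 2

theorem E_zero (ϖ : B) : E ϖ (0 : ZMod p × ZMod p) = 1 := by
  simp [E]

theorem E_add (hp5 : 5 ≤ p) (ϖ : B) (hϖ : ϖ ^ 3 = 0) (x y : ZMod p × ZMod p) :
    E ϖ (x + y) = E ϖ x * E ϖ y := by
  have h2 := two_ne_zero_zmod hp5
  have key : (x + y).2 + (x + y).1 ^ 2 * 2⁻¹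
      = (x.2 + x.1 ^ 2 * 2⁻¹) + (y.2 + y.1 ^ 2 * 2⁻¹) + x.1 * y.1 := by
    simp only [Prod.fst_add, Prod.snd_add]; field_simp; ring
  simp only [E]
  rw [key, Prod.fst_add, map_add, map_add, map_add, map_mul]
  linear_combination (-(φ x.1 * φ (y.2 + y.1 ^ 2 * 2⁻¹)) - φ y.1 * φ (x.2 + x.1 ^ 2 * 2⁻¹)
    - φ (x.2 + x.1 ^ 2 * 2⁻¹) * φ (y.2 + y.1 ^ 2 * 2⁻¹) * ϖ) * hϖ

/-- `E` as a monoid hom into the units of `B`. -/
noncomputable def Eu (hp5 : 5 ≤ p) (ϖ : B) (hϖ : ϖ ^ 3 = 0) :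
    Multiplicative (ZMod p × ZMod p) →* Bˣ :=
  MonoidHom.toHomUnits
    { toFun := fun x => E ϖ x.toAdd
      map_one' := E_zero ϖ
      map_mul' := fun x y => E_add hp5 ϖ hϖ x.toAdd y.toAdd }

theorem Eu_val (hp5 : 5 ≤ p) (ϖ : B) (hϖ : ϖ ^ 3 = 0) (x : ZMod p × ZMod p) :
    ((Eu hp5 ϖ hϖ (Multiplicative.ofAdd x) : Bˣ) : B) = E ϖ x := rfl

theorem geom_eq_E (hp5 : 5 ≤ p) (ϖ : B) (hϖ : ϖ ^ 3 = 0) (a : ℕ) :
    ∑ i ∈ range a, (1 - ϖ) ^ i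
      = φ (a : ZMod p) * E ϖ (-((a : ZMod p) - 1) * 2⁻¹,
          ((a : ZMod p) - 1) * ((a : ZMod p) - 5) * 24⁻¹) := by
  have h2 := two_ne_zero_zmod hp5
  have h3 := three_ne_zero_zmod hp5
  have k1 : (a : ZMod p) * (-((a : ZMod p) - 1) * 2⁻¹) = -((a : ZMod p) * (a - 1) * 2⁻¹) := by ring
  have k2 : (a : ZMod p) * (((a : ZMod p) - 1) * ((a : ZMod p) - 5) * 24⁻¹
      + (-((a : ZMod p) - 1) * 2⁻¹) ^ 2 * 2⁻¹) = (a : ZMod p) * (a - 1) * (a - 2) * 6⁻¹ := by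
    have h24 : (24 : ZMod p) = 2 ^ 3 * 3 := by norm_num
    have h6 : (6 : ZMod p) = 2 * 3 := by norm_num
    rw [h24, h6]; field_simp; ring
  have e1 := congrArg φ k1
  have e2 := congrArg φ k2
  rw [map_mul, map_neg] at e1
  rw [map_mul] at e2
  rw [geom_one_sub hp5 ϖ hϖ, E]
  linear_combination (-ϖ) * e1 - ϖ ^ 2 * e2

/-- The "logarithm" of `u_c / c` modulo `ϖ ^ 3`. -/
noncomputable def logc (c : ZMod p) : ZMod p × ZMod p :=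
  (-(c - 1) * 2⁻¹, (c - 1) * (c - 5) * 24⁻¹)

/-- The rational constant `R = ∏_c c ^ n_c` (mod `p`). -/
noncomputable def xiConst (n : (ZMod p)ˣ → ℤ) : (ZMod p)ˣ := ∏ c : (ZMod p)ˣ, c ^ n c

omit [CharP B p] in
theorem sum_units_inv_pow (i : ℕ) (hi : ¬ (p - 1) ∣ i) :
    ∑ c : (ZMod p)ˣ, (((c : ZMod p)) ^ i)⁻¹ = 0 := by
  classical
  have h := FiniteField.sum_pow_units (ZMod p) i
  rw [ZMod.card, if_neg hi] at h
  rw [← h]
  exact Fintype.sum_equiv (Equiv.inv (ZMod p)ˣ) _ _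
    (fun c => by rw [Equiv.inv_apply, Units.val_inv_eq_inv_val, inv_pow])

omit [CharP B p] in
theorem sum_units_one : ∑ _c : (ZMod p)ˣ, (1 : ZMod p) = -1 := by
  classical
  have h := FiniteField.sum_pow_units (ZMod p) 0
  simp only [pow_zero, dvd_zero, if_true] at h
  exact h

omit [CharP B p] in
theorem sum_logc (hp5 : 5 ≤ p) (n : (ZMod p)ˣ → ℤ)
    (hn : ∀ c : (ZMod p)ˣ, (n c : ZMod p) = ((c : ZMod p) ^ 2)⁻¹) :
    ∑ c : (ZMod p)ˣ, n c • logc (c : ZMod p) = (0, -(24 : ZMod p)⁻¹) := by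
  have h2 := two_ne_zero_zmod hp5
  have h3 := three_ne_zero_zmod hp5
  have h24 : (24 : ZMod p) = 2 ^ 3 * 3 := by norm_num
  have hS1 : ∑ c : (ZMod p)ˣ, (((c : ZMod p)) ^ 1)⁻¹ = 0 :=
    sum_units_inv_pow 1 (fun h => by have := Nat.le_of_dvd (by norm_num) h; omega)
  have hS2 : ∑ c : (ZMod p)ˣ, (((c : ZMod p)) ^ 2)⁻¹ = 0 :=
    sum_units_inv_pow 2 (fun h => by have := Nat.le_of_dvd (by norm_num) h; omega)
  have hS0 := sum_units_one (p := p)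
  ext
  · rw [Prod.fst_sum]
    have : ∀ c : (ZMod p)ˣ, (n c • logc (c : ZMod p)).1
        = -2⁻¹ * (((c : ZMod p)) ^ 1)⁻¹ + 2⁻¹ * (((c : ZMod p)) ^ 2)⁻¹ := by
      intro c
      have hc : (c : ZMod p) ≠ 0 := c.ne_zero
      rw [Prod.smul_fst, zsmul_eq_mul, hn c, logc]
      field_simp
      ring
    simp_rw [this]
    rw [Finset.sum_add_distrib, ← Finset.mul_sum, ← Finset.mul_sum, hS1, hS2]
    simp
  · rw [Prod.snd_sum]
    have : ∀ c : (ZMod p)ˣ, (n c • logc (c : ZMod p)).2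
        = 24⁻¹ * 1 + (-6 * 24⁻¹) * (((c : ZMod p)) ^ 1)⁻¹
          + (5 * 24⁻¹) * (((c : ZMod p)) ^ 2)⁻¹ := by
      intro c
      have hc : (c : ZMod p) ≠ 0 := c.ne_zero
      rw [Prod.smul_snd, zsmul_eq_mul, hn c, logc, h24]
      field_simp
      ring
    simp_rw [this]
    rw [Finset.sum_add_distrib, Finset.sum_add_distrib, ← Finset.mul_sum, ← Finset.mul_sum,
      ← Finset.mul_sum, hS1, hS2, hS0]
    simp

end Trunc

section Expansion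

variable {p : ℕ} [hp : Fact p.Prime] {A : Type*} [CommRing A] [IsDomain A] {ζ : A}
  {B : Type*} [CommRing B] [CharP B p]

local notation "φ" => (ZMod.castHom (dvd_refl p) B)

theorem map_cycUnit_val (hζ : IsPrimitiveRoot ζ p) (hp5 : 5 ≤ p) (ψ : A →+* B) (ϖ : B)
    (hψ : ψ ζ = 1 - ϖ) (hϖ : ϖ ^ 3 = 0) (c : (ZMod p)ˣ) :
    ψ (cycUnit hζ c : A) = φ (c : ZMod p) * E ϖ (logc (c : ZMod p)) := by
  rw [cycUnit_val, map_sum]
  simp_rw [map_pow, hψ]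
  rw [geom_eq_E hp5 ϖ hϖ, ZMod.natCast_zmod_val]
  rfl

theorem unitsMap_cycUnit_eq (hζ : IsPrimitiveRoot ζ p) (hp5 : 5 ≤ p) (ψ : A →+* B) (ϖ : B)
    (hψ : ψ ζ = 1 - ϖ) (hϖ : ϖ ^ 3 = 0) (c : (ZMod p)ˣ) :
    Units.map (ψ : A →* B) (cycUnit hζ c)
      = Units.map ((φ : ZMod p →+* B) : ZMod p →* B) c
        * Eu hp5 ϖ hϖ (Multiplicative.ofAdd (logc (c : ZMod p))) := by
  ext
  rw [Units.val_mul, Eu_val]
  exact map_cycUnit_val hζ hp5 ψ ϖ hψ hϖ c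

theorem unitsMap_xi_expansion (hζ : IsPrimitiveRoot ζ p) (hp5 : 5 ≤ p) (ψ : A →+* B) (ϖ : B)
    (hψ : ψ ζ = 1 - ϖ) (hϖ : ϖ ^ 3 = 0) (n : (ZMod p)ˣ → ℤ)
    (hn : ∀ c : (ZMod p)ˣ, (n c : ZMod p) = ((c : ZMod p) ^ 2)⁻¹) :
    Units.map (ψ : A →* B) (xi hζ n)
      = Units.map ((φ : ZMod p →+* B) : ZMod p →* B) (xiConst n)
        * Eu hp5 ϖ hϖ (Multiplicative.ofAdd ((0, -(24 : ZMod p)⁻¹) : ZMod p × ZMod p)) := by
  rw [xi, map_prod]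
  simp_rw [map_zpow, unitsMap_cycUnit_eq hζ hp5 ψ ϖ hψ hϖ, mul_zpow]
  rw [Finset.prod_mul_distrib, ← sum_logc hp5 n hn, ofAdd_sum, map_prod, xiConst, map_prod]
  congr 1
  · simp [map_zpow]
  · refine Finset.prod_congr rfl fun c _ => ?_
    rw [ofAdd_zsmul, map_zpow]

/-- `ξ ^ k ≡ R ^ k * (1 - k/24 * ϖ^2)` modulo `ϖ ^ 3`. -/
theorem map_xi_pow (hζ : IsPrimitiveRoot ζ p) (hp5 : 5 ≤ p) (ψ : A →+* B) (ϖ : B)
    (hψ : ψ ζ = 1 - ϖ) (hϖ : ϖ ^ 3 = 0) (n : (ZMod p)ˣ → ℤ)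
    (hn : ∀ c : (ZMod p)ˣ, (n c : ZMod p) = ((c : ZMod p) ^ 2)⁻¹) (k : ℕ) :
    ψ ((xi hζ n : A) ^ k)
      = φ (((xiConst n : (ZMod p)ˣ) : ZMod p) ^ k) * (1 - φ ((k : ZMod p) * 24⁻¹) * ϖ ^ 2) := by
  have h := congrArg (fun u : Bˣ => ((u ^ k : Bˣ) : B)) (unitsMap_xi_expansion hζ hp5 ψ ϖ hψ hϖ n hn)
  simp only [mul_pow, ← map_pow, ← ofAdd_nsmul, Units.val_mul, Eu_val] at h
  have e1 : ((Units.map (ψ : A →* B) (xi hζ n ^ k) : Bˣ) : B) = ψ ((xi hζ n : A) ^ k) := by simp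
  have e2 : ((Units.map ((φ : ZMod p →+* B) : ZMod p →* B) (xiConst n ^ k) : Bˣ) : B)
      = φ (((xiConst n : (ZMod p)ˣ) : ZMod p) ^ k) := by simp
  have e3 : E ϖ (k • (((0 : ZMod p), -(24 : ZMod p)⁻¹) : ZMod p × ZMod p))
      = 1 - φ ((k : ZMod p) * 24⁻¹) * ϖ ^ 2 := by
    have h0 : (k • (((0 : ZMod p), -(24 : ZMod p)⁻¹) : ZMod p × ZMod p)).2
        + (k • (((0 : ZMod p), -(24 : ZMod p)⁻¹) : ZMod p × ZMod p)).1 ^ 2 * 2⁻¹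
        = -((k : ZMod p) * 24⁻¹) := by
      simp
    rw [E, h0]
    simp
    ring
  rw [← e1, h, e2, e3]

end Expansion

section Std

/-! ### A standard choice of exponents -/

variable (p : ℕ) [hp : Fact p.Prime]

/-- Standard exponents: `n_c = (c⁻² mod p) - [c = 1] * ∑_c' (c'⁻² mod p)`. -/
noncomputable def stdExp (c : (ZMod p)ˣ) : ℤ :=
  ((((c : ZMod p) ^ 2)⁻¹).val : ℤ)
    - if c = 1 then ∑ c' : (ZMod p)ˣ, ((((c' : ZMod p) ^ 2)⁻¹).val : ℤ) else 0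

/-- Standard numerator exponents `nP a = (a⁻² mod p)`. -/
noncomputable def stdP (a : ℕ) : ℕ := (((a : ZMod p) ^ 2)⁻¹).val

/-- Standard denominator exponents, supported at `a = 1`. -/
noncomputable def stdM (a : ℕ) : ℕ := if a = 1 then ∑ a' ∈ Ioo 0 p, stdP p a' else 0

theorem stdP_cast (a : ℕ) : ((stdP p a : ℕ) : ZMod p) = ((a : ZMod p) ^ 2)⁻¹ := by
  rw [stdP, ZMod.natCast_zmod_val]

theorem sum_stdP_cast (hp5 : 5 ≤ p) : ((∑ a ∈ Ioo 0 p, stdP p a : ℕ) : ZMod p) = 0 := by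
  rw [sum_Ioo_eq (p := p) (stdP p)]
  push_cast
  simp_rw [stdP_cast, ZMod.natCast_zmod_val]
  exact sum_units_inv_pow 2 (fun h => by have := Nat.le_of_dvd (by norm_num) h; omega)

theorem stdM_cast (hp5 : 5 ≤ p) (a : ℕ) : ((stdM p a : ℕ) : ZMod p) = 0 := by
  unfold stdM
  split_ifs
  · exact sum_stdP_cast p hp5
  · simp

theorem std_sum_eq : ∑ a ∈ Ioo 0 p, stdP p a = ∑ a ∈ Ioo 0 p, stdM p a := by
  unfold stdM
  rw [Finset.sum_ite_eq' (Ioo 0 p) 1 (fun _ => ∑ a' ∈ Ioo 0 p, stdP p a'),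
    if_pos (mem_Ioo.mpr ⟨one_pos, hp.out.one_lt⟩)]

theorem stdExp_eq_sub (c : (ZMod p)ˣ) :
    stdExp p c = (stdP p (c : ZMod p).val : ℤ) - (stdM p (c : ZMod p).val : ℤ) := by
  have hiff : c = 1 ↔ (c : ZMod p).val = 1 := by
    have : Fact (1 < p) := ⟨hp.out.one_lt⟩
    constructor
    · rintro rfl
      rw [Units.val_one, ZMod.val_one]
    · intro h
      apply Units.ext
      apply ZMod.val_injective p
      rw [h, Units.val_one, ZMod.val_one]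
  have hsum : ∑ c' : (ZMod p)ˣ, ((((c' : ZMod p) ^ 2)⁻¹).val : ℤ)
      = ((∑ a' ∈ Ioo 0 p, stdP p a' : ℕ) : ℤ) := by
    rw [sum_Ioo_eq (p := p) (stdP p)]
    push_cast
    refine Finset.sum_congr rfl fun c' _ => ?_
    rw [stdP, ZMod.natCast_zmod_val]
  unfold stdExp stdM
  rw [hsum]
  by_cases h : c = 1
  · rw [if_pos h, if_pos (hiff.mp h), stdP, ZMod.natCast_zmod_val]
  · rw [if_neg h, if_neg (fun h' => h (hiff.mpr h')), stdP, ZMod.natCast_zmod_val]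
    simp

theorem stdExp_cast (hp5 : 5 ≤ p) (c : (ZMod p)ˣ) :
    ((stdExp p c : ℤ) : ZMod p) = ((c : ZMod p) ^ 2)⁻¹ := by
  rw [stdExp_eq_sub]
  push_cast
  rw [stdP_cast, stdM_cast p hp5, ZMod.natCast_zmod_val, sub_zero]

theorem stdExp_sum : ∑ c : (ZMod p)ˣ, stdExp p c = 0 := by
  simp_rw [stdExp_eq_sub]
  rw [Finset.sum_sub_distrib, ← sum_Ioo_eq (p := p) (fun a => (stdP p a : ℤ)),
    ← sum_Ioo_eq (p := p) (fun a => (stdM p a : ℤ)), ← Nat.cast_sum, ← Nat.cast_sum, std_sum_eq,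
    sub_self]

end Std

section StdXi

variable {p : ℕ} [hp : Fact p.Prime] {A : Type*} [CommRing A] [IsDomain A] {ζ : A}

/-- The standard unit `ξ = ∏_{0<a<p} (1 - ζ^a)^(n_a)`, `n_a ≡ a⁻² (mod p)`, `∑ n_a = 0`. -/
noncomputable def xiStd (hζ : IsPrimitiveRoot ζ p) : Aˣ := xi hζ (stdExp p)

theorem xiStd_mul_den (hζ : IsPrimitiveRoot ζ p) :
    (xiStd hζ : A) * ∏ a ∈ Ioo 0 p, (1 - ζ ^ a) ^ stdM p a
      = ∏ a ∈ Ioo 0 p, (1 - ζ ^ a) ^ stdP p a :=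
  xi_mul_den hζ (stdExp p) (stdP p) (stdM p) (stdExp_eq_sub p) (std_sum_eq p)

end StdXi

section NumberField

/-! ### The `p`-th cyclotomic field -/

open NumberField

variable {p : ℕ} [hp : Fact p.Prime] {K : Type*} [Field K] [NumberField K]
  [hK : IsCyclotomicExtension {p} ℚ K] {ζ : 𝓞 K}

omit [NumberField K] hK hp in
theorem coe_isPrimitiveRoot (hζ : IsPrimitiveRoot ζ p) : IsPrimitiveRoot (ζ : K) p :=
  hζ.map_of_injective RingOfIntegers.coe_injective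

omit [NumberField K] hK in
theorem toInteger_eq (hζ : IsPrimitiveRoot ζ p) : (coe_isPrimitiveRoot hζ).toInteger = ζ := by
  ext; rfl

theorem prime_one_sub (hζ : IsPrimitiveRoot ζ p) : Prime (1 - ζ) := by
  have h := (coe_isPrimitiveRoot hζ).zeta_sub_one_prime'
  rw [toInteger_eq hζ] at h
  simpa using h.neg

theorem one_sub_dvd_intCast_iff (hζ : IsPrimitiveRoot ζ p) {m : ℤ} :
    (1 - ζ) ∣ (m : 𝓞 K) ↔ (p : ℤ) ∣ m := by
  have h := IsCyclotomicExtension.Rat.zeta_sub_one_dvd_intCast_iff' p (coe_isPrimitiveRoot hζ)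
    (n := m)
  rw [toInteger_eq hζ] at h
  rw [← h, ← neg_sub ζ 1, neg_dvd]

omit [NumberField K] hK in
theorem one_sub_pow_dvd_p (hζ : IsPrimitiveRoot ζ p) : (1 - ζ) ^ (p - 1) ∣ (p : 𝓞 K) := by
  have h := IsCyclotomicExtension.Rat.associated_zeta_sub_one_pow_prime p (coe_isPrimitiveRoot hζ)
  rw [toInteger_eq hζ] at h
  have h2 : (ζ - 1) ^ (p - 1) ∣ (p : 𝓞 K) := h.dvd
  rw [← neg_sub ζ 1, neg_pow]
  exact (IsUnit.mul_left_dvd (IsUnit.pow _ isUnit_one.neg)).mpr h2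

theorem exists_int_sub_dvd (hζ : IsPrimitiveRoot ζ p) (x : 𝓞 K) :
    ∃ m : ℤ, (1 - ζ) ∣ x - m := by
  obtain ⟨f, hf⟩ := (coe_isPrimitiveRoot hζ).integralPowerBasis.exists_eq_aeval' x
  rw [IsPrimitiveRoot.integralPowerBasis_gen, toInteger_eq hζ] at hf
  refine ⟨f.eval 1, ?_⟩
  have h1 := Polynomial.sub_dvd_eval_sub ζ 1 (f.map (algebraMap ℤ (𝓞 K)))
  rw [Polynomial.eval_map, Polynomial.eval_map, ← Polynomial.aeval_def, ← hf,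
    Polynomial.eval₂_at_one] at h1
  rw [← neg_sub ζ 1, neg_dvd]
  simpa using h1

/-- The quotient ring `𝓞 K ⧸ (1 - ζ)^3`. -/
abbrev Quot3 (ζ : 𝓞 K) : Type _ := 𝓞 K ⧸ Ideal.span {(1 - ζ) ^ 3}

theorem quot3_charP (hζ : IsPrimitiveRoot ζ p) (hp5 : 5 ≤ p) : CharP (Quot3 ζ) p := by
  have hnt : Nontrivial (Quot3 ζ) := by
    apply Ideal.Quotient.nontrivial_iff.mpr
    rw [Ne, Ideal.span_singleton_eq_top]
    exact fun h => (prime_one_sub hζ).not_isUnit (isUnit_of_dvd_unit (dvd_pow_self _ (by norm_num)) h)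
  rw [CharP.charP_iff_prime_eq_zero hp.out]
  have h1 : (1 - ζ) ^ 3 ∣ (p : 𝓞 K) :=
    (pow_dvd_pow _ (by omega)).trans (one_sub_pow_dvd_p hζ)
  have : ((p : 𝓞 K)) ∈ Ideal.span {(1 - ζ) ^ 3} := Ideal.mem_span_singleton.mpr h1
  have h2 := Ideal.Quotient.eq_zero_iff_mem.mpr this
  simpa using h2

omit [NumberField K] hK hp in
theorem quot3_pi_pow (ζ : 𝓞 K) :
    (Ideal.Quotient.mk (Ideal.span {(1 - ζ) ^ 3}) (1 - ζ)) ^ 3 = 0 := by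
  rw [← map_pow]
  exact Ideal.Quotient.eq_zero_iff_mem.mpr (Ideal.mem_span_singleton_self _)

/-- **Expansion of `ξ` modulo `(1 - ζ)^3`** (Kummer's `B_2` computation):
`ξ ≡ R * (1 - π²/24)` with `R` a rational integer prime to `p`. -/
theorem xi_expansion (hζ : IsPrimitiveRoot ζ p) (hp5 : 5 ≤ p) (n : (ZMod p)ˣ → ℤ)
    (hn : ∀ c : (ZMod p)ˣ, (n c : ZMod p) = ((c : ZMod p) ^ 2)⁻¹) :
    ∃ R : ℤ, ¬ (p : ℤ) ∣ R ∧
      24 * (xi hζ n : 𝓞 K) - R * (24 - (1 - ζ) ^ 2) ∈ Ideal.span {(1 - ζ) ^ 3} := by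
  have := quot3_charP hζ hp5
  obtain ⟨R, hR⟩ := ZMod.intCast_surjective ((xiConst n : (ZMod p)ˣ) : ZMod p)
  refine ⟨R, ?_, ?_⟩
  · rw [← ZMod.intCast_zmod_eq_zero_iff_dvd, hR]
    exact (xiConst n).ne_zero
  · rw [← Ideal.Quotient.eq_zero_iff_mem]
    have hψ : Ideal.Quotient.mk (Ideal.span {(1 - ζ) ^ 3}) ζ
        = 1 - Ideal.Quotient.mk (Ideal.span {(1 - ζ) ^ 3}) (1 - ζ) := by simp
    have h := map_xi_pow hζ hp5 _ _ hψ (quot3_pi_pow ζ) n hn 1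
    rw [pow_one, pow_one, Nat.cast_one, one_mul] at h
    have hR' : Ideal.Quotient.mk (Ideal.span {(1 - ζ) ^ 3}) (R : 𝓞 K)
        = ZMod.castHom (dvd_refl p) (Quot3 ζ) (xiConst n : ZMod p) := by
      rw [← hR]; simp
    have h24 : (24 : Quot3 ζ) * ZMod.castHom (dvd_refl p) (Quot3 ζ) (24⁻¹ : ZMod p) = 1 := by
      rw [← map_ofNat (ZMod.castHom (dvd_refl p) (Quot3 ζ)) 24, ← map_mul,
        mul_inv_cancel₀ (twentyfour_ne_zero_zmod hp5), map_one]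
    rw [map_sub, map_mul, map_mul, map_sub, map_pow, h, hR', map_ofNat]
    linear_combination (-(ZMod.castHom (dvd_refl p) (Quot3 ζ) (xiConst n : ZMod p)
      * (Ideal.Quotient.mk (Ideal.span {(1 - ζ) ^ 3}) (1 - ζ)) ^ 2)) * h24

/-- `p`-th powers are congruent to rational integers modulo `(1 - ζ)^3`. -/
theorem quot3_pow_p (hζ : IsPrimitiveRoot ζ p) (hp5 : 5 ≤ p) (x : 𝓞 K) :
    haveI := quot3_charP hζ hp5
    ∃ m : ℤ, (1 - ζ) ∣ x - m ∧ Ideal.Quotient.mk (Ideal.span {(1 - ζ) ^ 3}) (x ^ p)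
      = ZMod.castHom (dvd_refl p) (Quot3 ζ) (m : ZMod p) := by
  have := quot3_charP hζ hp5
  obtain ⟨m, w, hw⟩ := exists_int_sub_dvd hζ x
  refine ⟨m, ⟨w, hw⟩, ?_⟩
  have hx : x = m + (1 - ζ) * w := by rw [← hw]; ring
  have hpi : (Ideal.Quotient.mk (Ideal.span {(1 - ζ) ^ 3}) (1 - ζ)) ^ p = 0 := by
    rw [show p = 3 + (p - 3) by omega, pow_add, quot3_pi_pow, zero_mul]
  rw [hx, map_pow, map_add, map_mul, add_pow_char, mul_pow, hpi, zero_mul, add_zero,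
    map_intCast, ← map_intCast (ZMod.castHom (dvd_refl p) (Quot3 ζ)) m, ← map_pow, ZMod.pow_card]

theorem dvd_of_int_add_mul_sq_mem (hζ : IsPrimitiveRoot ζ p) (hp5 : 5 ≤ p) (X Y : ℤ)
    (h : (X : 𝓞 K) + Y * (1 - ζ) ^ 2 ∈ Ideal.span {(1 - ζ) ^ 3}) : (p : ℤ) ∣ Y := by
  rw [Ideal.mem_span_singleton] at h
  have hπ := prime_one_sub hζ
  have h1 : (1 - ζ) ∣ (X : 𝓞 K) := by
    have : (1 - ζ) ∣ (X : 𝓞 K) + Y * (1 - ζ) ^ 2 := (dvd_pow_self (1 - ζ) (by norm_num)).trans h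
    exact (dvd_add_left (Dvd.dvd.mul_left (dvd_pow_self (1 - ζ) (by norm_num)) _)).mp this
  have hpX : (p : ℤ) ∣ X := (one_sub_dvd_intCast_iff hζ).mp h1
  have h2 : (1 - ζ) ^ 3 ∣ (X : 𝓞 K) := by
    obtain ⟨X', rfl⟩ := hpX
    push_cast
    exact Dvd.dvd.mul_right ((pow_dvd_pow _ (by omega)).trans (one_sub_pow_dvd_p hζ)) _
  have h3 : (1 - ζ) ^ 3 ∣ (Y : 𝓞 K) * (1 - ζ) ^ 2 := (dvd_add_right h2).mp h
  have h4 : (1 - ζ) ∣ (Y : 𝓞 K) := by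
    rw [show (1 - ζ) ^ 3 = (1 - ζ) * (1 - ζ) ^ 2 by ring] at h3
    exact (mul_dvd_mul_iff_right (pow_ne_zero 2 hπ.ne_zero)).mp h3
  exact (one_sub_dvd_intCast_iff hζ).mp h4

/-- **Consumer form for Case A**: if `ξ^k * d^p ≡ c^p` modulo `(1 - ζ)^3` with `d` prime to
`1 - ζ`, then `p ∣ k`. -/
theorem dvd_of_xi_pow_mul_pow_sub_pow_mem (hζ : IsPrimitiveRoot ζ p) (hp5 : 5 ≤ p)
    (n : (ZMod p)ˣ → ℤ) (hn : ∀ c : (ZMod p)ˣ, (n c : ZMod p) = ((c : ZMod p) ^ 2)⁻¹)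
    (k : ℕ) (c d : 𝓞 K) (hd : ¬ (1 - ζ) ∣ d)
    (h : (xi hζ n : 𝓞 K) ^ k * d ^ p - c ^ p ∈ Ideal.span {(1 - ζ) ^ 3}) : p ∣ k := by
  have := quot3_charP hζ hp5
  obtain ⟨d0, hd0, hdp⟩ := quot3_pow_p hζ hp5 d
  obtain ⟨c0, -, hcp⟩ := quot3_pow_p hζ hp5 c
  have hd0' : (d0 : ZMod p) ≠ 0 := by
    intro h0
    rw [ZMod.intCast_zmod_eq_zero_iff_dvd] at h0
    have := (one_sub_dvd_intCast_iff hζ).mpr h0
    exact hd ((dvd_sub_left this).mp hd0)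
  have hψ : Ideal.Quotient.mk (Ideal.span {(1 - ζ) ^ 3}) ζ
      = 1 - Ideal.Quotient.mk (Ideal.span {(1 - ζ) ^ 3}) (1 - ζ) := by simp
  have hmap := Ideal.Quotient.eq_zero_iff_mem.mpr h
  rw [map_sub, map_mul, map_xi_pow hζ hp5 _ _ hψ (quot3_pi_pow ζ) n hn k, hdp, hcp] at hmap
  obtain ⟨X, hX⟩ := ZMod.intCast_surjective
    (((xiConst n : (ZMod p)ˣ) : ZMod p) ^ k * (d0 : ZMod p) - (c0 : ZMod p))
  obtain ⟨Y, hY⟩ := ZMod.intCast_surjective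
    (-(((xiConst n : (ZMod p)ˣ) : ZMod p) ^ k * (d0 : ZMod p) * ((k : ZMod p) * 24⁻¹)))
  have hmem : (X : 𝓞 K) + Y * (1 - ζ) ^ 2 ∈ Ideal.span {(1 - ζ) ^ 3} := by
    rw [← Ideal.Quotient.eq_zero_iff_mem, map_add, map_mul, map_pow]
    have e1 : Ideal.Quotient.mk (Ideal.span {(1 - ζ) ^ 3}) (X : 𝓞 K)
        = ZMod.castHom (dvd_refl p) (Quot3 ζ)
          (((xiConst n : (ZMod p)ˣ) : ZMod p) ^ k * (d0 : ZMod p) - (c0 : ZMod p)) := by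
      rw [← hX]; simp
    have e2 : Ideal.Quotient.mk (Ideal.span {(1 - ζ) ^ 3}) (Y : 𝓞 K)
        = ZMod.castHom (dvd_refl p) (Quot3 ζ)
          (-(((xiConst n : (ZMod p)ˣ) : ZMod p) ^ k * (d0 : ZMod p) * ((k : ZMod p) * 24⁻¹))) := by
      rw [← hY]; simp
    rw [e1, e2]
    simp only [map_sub, map_mul, map_neg] at hmap ⊢
    linear_combination hmap
  have hpY := dvd_of_int_add_mul_sq_mem hζ hp5 X Y hmem
  rw [← ZMod.intCast_zmod_eq_zero_iff_dvd, hY] at hpY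
  have hk : (k : ZMod p) = 0 := by
    have hR : ((xiConst n : (ZMod p)ˣ) : ZMod p) ≠ 0 := (xiConst n).ne_zero
    have h24 := inv_ne_zero (twentyfour_ne_zero_zmod hp5)
    simpa [hR, hd0', h24] using hpY
  exact (ZMod.natCast_eq_zero_iff k p).mp hk

/-- If `ξ ^ k` is a `p`-th power of a unit then `p ∣ k`. -/
theorem dvd_of_xi_pow_eq_pow (hζ : IsPrimitiveRoot ζ p) (hp5 : 5 ≤ p)
    (n : (ZMod p)ˣ → ℤ) (hn : ∀ c : (ZMod p)ˣ, (n c : ZMod p) = ((c : ZMod p) ^ 2)⁻¹)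
    (k : ℕ) (u : 𝓞 K) (h : (xi hζ n : 𝓞 K) ^ k = u ^ p) : p ∣ k := by
  refine dvd_of_xi_pow_mul_pow_sub_pow_mem hζ hp5 n hn k u 1 ?_ ?_
  · exact fun h1 => (prime_one_sub hζ).not_isUnit (isUnit_of_dvd_one h1)
  · rw [one_pow, mul_one, h, sub_self]
    exact Ideal.zero_mem _

/-- `ξ` is not a `p`-th power. -/
theorem xi_not_pow (hζ : IsPrimitiveRoot ζ p) (hp5 : 5 ≤ p)
    (n : (ZMod p)ˣ → ℤ) (hn : ∀ c : (ZMod p)ˣ, (n c : ZMod p) = ((c : ZMod p) ^ 2)⁻¹) :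
    ¬ ∃ u : (𝓞 K)ˣ, xi hζ n = u ^ p := by
  rintro ⟨u, hu⟩
  have h1 : p ∣ 1 := dvd_of_xi_pow_eq_pow hζ hp5 n hn 1 (u : 𝓞 K) (by rw [pow_one, hu]; simp)
  have := Nat.le_of_dvd (by norm_num) h1
  omega

omit hK in
/-- **Eigen law** (`ω²`-type) in the field `K`: if `σ ζ = ζ ^ b` then `σ ξ = ξ ^ (b²) * u ^ p`. -/
theorem xi_galois (hζ : IsPrimitiveRoot ζ p) (n : (ZMod p)ˣ → ℤ)
    (hn : ∀ c : (ZMod p)ˣ, (n c : ZMod p) = ((c : ZMod p) ^ 2)⁻¹) (hsum : ∑ c, n c = 0)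
    (σ : K ≃ₐ[ℚ] K) (b : ℕ) (hσ : σ (ζ : K) = (ζ : K) ^ b) :
    ∃ u : (𝓞 K)ˣ, σ ((xi hζ n : 𝓞 K) : K) = ((xi hζ n : 𝓞 K) : K) ^ (b ^ 2) * ((u : 𝓞 K) : K) ^ p := by
  have hb : b.Coprime p := by
    rw [Nat.coprime_comm, Nat.Prime.coprime_iff_not_dvd hp.out]
    rintro ⟨t, rfl⟩
    rw [pow_mul, (coe_isPrimitiveRoot hζ).pow_eq_one, one_pow] at hσ
    exact (coe_isPrimitiveRoot hζ).ne_one hp.out.one_lt ((map_eq_one_iff σ σ.injective).mp hσ)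
  have hf : RingOfIntegers.mapRingHom (σ : K →+* K) ζ = ζ ^ b := by
    ext
    rw [RingOfIntegers.mapRingHom_apply]
    simpa using hσ
  obtain ⟨u, hu⟩ := unitsMap_xi_eq hζ (RingOfIntegers.mapRingHom (σ : K →+* K)) b hb hf n hn hsum
  refine ⟨u, ?_⟩
  have := congrArg (fun v : (𝓞 K)ˣ => ((v : 𝓞 K) : K)) hu
  simpa [RingOfIntegers.mapRingHom_apply] using this

/-! #### The standard unit `xiStd` over `𝓞 K` -/

omit hK in
/-- (X2) eigen law for the standard unit. -/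
theorem xiStd_galois (hζ : IsPrimitiveRoot ζ p) (hp5 : 5 ≤ p) (σ : K ≃ₐ[ℚ] K) (b : ℕ)
    (hσ : σ (ζ : K) = (ζ : K) ^ b) :
    ∃ u : (𝓞 K)ˣ,
      σ ((xiStd hζ : 𝓞 K) : K) = ((xiStd hζ : 𝓞 K) : K) ^ (b ^ 2) * ((u : 𝓞 K) : K) ^ p :=
  xi_galois hζ (stdExp p) (stdExp_cast p hp5) (stdExp_sum p) σ b hσ

/-- (X3) expansion of the standard unit modulo `(1 - ζ)^3`. -/
theorem xiStd_expansion (hζ : IsPrimitiveRoot ζ p) (hp5 : 5 ≤ p) :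
    ∃ R : ℤ, ¬ (p : ℤ) ∣ R ∧
      24 * (xiStd hζ : 𝓞 K) - R * (24 - (1 - ζ) ^ 2) ∈ Ideal.span {(1 - ζ) ^ 3} :=
  xi_expansion hζ hp5 (stdExp p) (stdExp_cast p hp5)

/-- (X4) consumer form for Case A. -/
theorem dvd_of_xiStd_pow_mul_pow_sub_pow_mem (hζ : IsPrimitiveRoot ζ p) (hp5 : 5 ≤ p)
    (k : ℕ) (c d : 𝓞 K) (hd : ¬ (1 - ζ) ∣ d)
    (h : (xiStd hζ : 𝓞 K) ^ k * d ^ p - c ^ p ∈ Ideal.span {(1 - ζ) ^ 3}) : p ∣ k :=
  dvd_of_xi_pow_mul_pow_sub_pow_mem hζ hp5 (stdExp p) (stdExp_cast p hp5) k c d hd h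

/-- (X5) if `ξ ^ k` is a `p`-th power then `p ∣ k`. -/
theorem dvd_of_xiStd_pow_eq_pow (hζ : IsPrimitiveRoot ζ p) (hp5 : 5 ≤ p)
    (k : ℕ) (u : 𝓞 K) (h : (xiStd hζ : 𝓞 K) ^ k = u ^ p) : p ∣ k :=
  dvd_of_xi_pow_eq_pow hζ hp5 (stdExp p) (stdExp_cast p hp5) k u h

/-- (X5) the standard unit is not a `p`-th power. -/
theorem xiStd_not_pow (hζ : IsPrimitiveRoot ζ p) (hp5 : 5 ≤ p) :
    ¬ ∃ u : (𝓞 K)ˣ, xiStd hζ = u ^ p :=
  xi_not_pow hζ hp5 (stdExp p) (stdExp_cast p hp5)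

end NumberField

end Fermat.Agent.S14.Thaine.XiUnit
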