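import Mathlib
import Fermat.Agent.S14.Thaine.Plan
import Fermat.Agent.S14.Thaine.XiUnit

/-!
# S14, Thaine route: the four `[XiUnit]` contracts of `Thaine/Plan.lean`

`xiIsUnitStmt`, `xiEigenStmt`, `xiCongStmt`, `xiNotPowStmt`, proved from the general unit
`XiUnit.xi hζ n` with the exponent family `n_c = c.val ^ (p - 3)`.
-/

set_option autoImplicit false

open scoped NumberField nonZeroDivisors

namespace Fermat.Agent.S14.Thaine.XiStmt

open JacobiSumStickelberger Finset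

section General

variable {p : ℕ} [hp : Fact p.Prime] {A : Type*} [CommRing A] [IsDomain A] {ζ : A}

/-- `f ξ` for a ring endomorphism with `f ζ = ζ ^ b`, without any hypothesis on `∑ n_c`. -/
theorem unitsMap_xi_gen (hζ : IsPrimitiveRoot ζ p) (f : A →+* A) (b : (ZMod p)ˣ)
    (hf : f ζ = ζ ^ (b : ZMod p).val) (n : (ZMod p)ˣ → ℤ) :
    Units.map (f : A →* A) (XiUnit.xi hζ n)
      = (∏ c : (ZMod p)ˣ, XiUnit.cycUnit hζ c ^ n (c * b⁻¹))
        * (XiUnit.cycUnit hζ b)⁻¹ ^ (∑ c, n c) := by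
  rw [XiUnit.xi, map_prod]
  simp_rw [map_zpow, XiUnit.unitsMap_cycUnit hζ f b hf, mul_zpow]
  rw [Finset.prod_mul_distrib, XiUnit.prod_zpow_sum]
  congr 1
  exact Fintype.prod_equiv (Equiv.mulRight b) _ _ (fun c => by simp)

/-- **Eigen law** when only `p ∣ ∑ n_c`. -/
theorem unitsMap_xi_eq_of_dvd (hζ : IsPrimitiveRoot ζ p) (f : A →+* A) (B : ℕ)
    (hB : B.Coprime p) (hf : f ζ = ζ ^ B) (n : (ZMod p)ˣ → ℤ)
    (hn : ∀ c : (ZMod p)ˣ, (n c : ZMod p) = ((c : ZMod p) ^ 2)⁻¹)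
    (hsum : (p : ℤ) ∣ ∑ c, n c) :
    ∃ u : Aˣ, Units.map (f : A →* A) (XiUnit.xi hζ n) = XiUnit.xi hζ n ^ (B ^ 2) * u ^ p := by
  obtain ⟨b, hbv⟩ : ∃ b : (ZMod p)ˣ, (b : ZMod p) = (B : ZMod p) :=
    ⟨ZMod.unitOfCoprime B hB, ZMod.coe_unitOfCoprime B hB⟩
  have hf' : f ζ = ζ ^ (b : ZMod p).val := by
    rw [hf, hbv, ZMod.val_natCast, XiUnit.pow_mod_p hζ]
  have hdiv : ∀ c : (ZMod p)ˣ, (p : ℤ) ∣ n (c * b⁻¹) - (B : ℤ) ^ 2 * n c := by
    intro c
    rw [← ZMod.intCast_zmod_eq_zero_iff_dvd]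
    push_cast
    rw [hn, hn, Units.val_mul, Units.val_inv_eq_inv_val, hbv]
    have hc : (c : ZMod p) ≠ 0 := c.ne_zero
    have hB0 : (B : ZMod p) ≠ 0 := hbv ▸ b.ne_zero
    field_simp
    ring
  choose m hm using hdiv
  obtain ⟨s, hs⟩ := hsum
  refine ⟨(∏ c : (ZMod p)ˣ, XiUnit.cycUnit hζ c ^ m c) * (XiUnit.cycUnit hζ b)⁻¹ ^ s, ?_⟩
  rw [unitsMap_xi_gen hζ f b hf' n, hs, mul_pow, ← mul_assoc]
  congr 1
  · rw [XiUnit.xi, ← Finset.prod_pow, ← Finset.prod_pow, ← Finset.prod_mul_distrib]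
    refine Finset.prod_congr rfl fun c _ => ?_
    rw [← zpow_natCast, ← zpow_natCast, ← zpow_mul, ← zpow_mul, ← zpow_add]
    congr 1
    have := hm c
    push_cast
    linarith
  · rw [← zpow_natCast, ← zpow_mul, mul_comm]

end General

section Plan

variable (p : ℕ) [hp : Fact p.Prime] (K : Type) [Field K] [NumberField K]
  [IsCyclotomicExtension {p} ℚ K]

theorem zetaO_prim : IsPrimitiveRoot (zetaO p K) p :=
  (IsCyclotomicExtension.zeta_spec p ℚ K).toInteger_isPrimitiveRoot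

/-- The exponent family of the Plan's `xi`: `n_c = c.val ^ (p - 3)`. -/
def planExp (c : (ZMod p)ˣ) : ℤ := (((c : ZMod p).val ^ (p - 3) : ℕ) : ℤ)

theorem planExp_cast (hp5 : 5 ≤ p) (c : (ZMod p)ˣ) :
    ((planExp p c : ℤ) : ZMod p) = ((c : ZMod p) ^ 2)⁻¹ := by
  have hc : (c : ZMod p) ≠ 0 := c.ne_zero
  have h1 : (c : ZMod p) ^ (p - 3) * (c : ZMod p) ^ 2 = 1 := by
    rw [← pow_add, show p - 3 + 2 = p - 1 by omega, ZMod.pow_card_sub_one_eq_one hc]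
  unfold planExp
  push_cast
  rw [ZMod.natCast_zmod_val]
  exact eq_inv_of_mul_eq_one_left h1

theorem planExp_sum_dvd (hp5 : 5 ≤ p) : (p : ℤ) ∣ ∑ c : (ZMod p)ˣ, planExp p c := by
  rw [← ZMod.intCast_zmod_eq_zero_iff_dvd]
  push_cast
  simp_rw [planExp_cast p hp5]
  exact XiUnit.sum_units_inv_pow 2 (fun h => by have := Nat.le_of_dvd (by norm_num) h; omega)

/-- The Plan's `xi` is the general unit for the exponents `planExp`. -/
theorem xi_eq :
    Thaine.xi p K = ((XiUnit.xi (zetaO_prim p K) (planExp p) : (𝓞 K)ˣ) : 𝓞 K) := by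
  have hIco : Finset.Ico 1 p = Finset.Ioo 0 p := by
    ext a
    rw [Finset.mem_Ico, Finset.mem_Ioo]
    omega
  unfold Thaine.xi
  rw [hIco, XiUnit.prod_Ioo_eq (p := p), XiUnit.xi, Units.coe_prod]
  refine Finset.prod_congr rfl fun c _ => ?_
  rw [planExp, zpow_natCast, Units.val_pow_eq_pow_val, XiUnit.cycUnit_val]
  rfl

theorem primeP_pow_three : primeP p K ^ 3 = Ideal.span {(1 - zetaO p K) ^ 3} := by
  unfold primeP piO
  rw [Ideal.span_singleton_pow]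

theorem clRingAction_zetaO (d : (ZMod p)ˣ) :
    clRingAction p K d (zetaO p K) = zetaO p K ^ (d : ZMod p).val := by
  have hζ := IsCyclotomicExtension.zeta_spec p ℚ K
  apply NumberField.RingOfIntegers.ext
  have h1 : ((clRingAction p K d (zetaO p K) : 𝓞 K) : K)
      = (cycloGalEquiv p K).symm d (IsCyclotomicExtension.zeta p ℚ K) := by
    show algebraMap (𝓞 K) K (galRestrict ℤ ℚ K (𝓞 K) ((cycloGalEquiv p K).symm d) (zetaO p K)) = _
    rw [algebraMap_galRestrict_apply]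
    rfl
  have h2 := hζ.autToPow_spec ℚ ((cycloGalEquiv p K).symm d)
  have h3 : IsPrimitiveRoot.autToPow ℚ hζ ((cycloGalEquiv p K).symm d) = d :=
    (cycloGalEquiv p K).apply_symm_apply d
  rw [h3] at h2
  rw [h1, ← h2]
  simp only [zetaO, map_pow]
  rfl

end Plan

/-- [XiUnit] (X1). -/
theorem xiIsUnitStmt (p : ℕ) [Fact p.Prime] : XiIsUnitStmt p := by
  intro _ K _ _ _
  rw [xi_eq]
  exact Units.isUnit _

/-- [XiUnit] (X2). -/
theorem xiEigenStmt (p : ℕ) [hp : Fact p.Prime] : XiEigenStmt p := by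
  intro hp5 K _ _ _ d
  have hcop : ((d : ZMod p).val).Coprime p := ZMod.val_coe_unit_coprime d
  obtain ⟨u, hu⟩ := unitsMap_xi_eq_of_dvd (zetaO_prim p K)
    ((clRingAction p K d : 𝓞 K ≃+* 𝓞 K) : 𝓞 K →+* 𝓞 K) (d : ZMod p).val hcop
    (clRingAction_zetaO p K d) (planExp p) (planExp_cast p hp5) (planExp_sum_dvd p hp5)
  have hu' := congrArg (fun v : (𝓞 K)ˣ => (v : 𝓞 K)) hu
  simp only [Units.coe_map, Units.val_mul, Units.val_pow_eq_pow_val] at hu'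
  have hval : ((d : ZMod p) ^ 2).val = (d : ZMod p).val ^ 2 % p := by
    rw [pow_two, ZMod.val_mul, pow_two]
  have hsplit : (d : ZMod p).val ^ 2
      = ((d : ZMod p) ^ 2).val + p * ((d : ZMod p).val ^ 2 / p) := by
    rw [hval]; exact (Nat.mod_add_div _ _).symm
  refine ⟨Thaine.xi p K ^ ((d : ZMod p).val ^ 2 / p) * (u : 𝓞 K), ?_⟩
  rw [xi_eq]
  have h4 : (clRingAction p K d) ((XiUnit.xi (zetaO_prim p K) (planExp p) : (𝓞 K)ˣ) : 𝓞 K)
      = ((XiUnit.xi (zetaO_prim p K) (planExp p) : (𝓞 K)ˣ) : 𝓞 K) ^ ((d : ZMod p).val ^ 2)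
        * (u : 𝓞 K) ^ p := hu'
  rw [h4]
  conv_lhs => rw [hsplit]
  rw [pow_add, pow_mul, mul_pow, ← pow_mul, ← pow_mul, mul_comm p, mul_assoc]

/-- [XiUnit] (X3). -/
theorem xiCongStmt (p : ℕ) [hp : Fact p.Prime] : XiCongStmt p := by
  intro hp5 K _ _ _ k a b hb h
  have hζ := zetaO_prim p K
  have hπ := XiUnit.prime_one_sub hζ
  have hb' : ¬ (1 - zetaO p K) ∣ b := by
    intro hdvd
    exact hb (Ideal.mem_span_singleton.mpr hdvd)
  rw [primeP_pow_three, xi_eq] at h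
  have ha' : ¬ (1 - zetaO p K) ∣ a := by
    intro hdvd
    apply hb'
    have h1 : (1 - zetaO p K) ∣
        ((XiUnit.xi hζ (planExp p) : (𝓞 K)ˣ) : 𝓞 K) ^ k * a ^ p - b ^ p :=
      (dvd_pow_self _ (by norm_num)).trans (Ideal.mem_span_singleton.mp h)
    have h2 : (1 - zetaO p K) ∣ ((XiUnit.xi hζ (planExp p) : (𝓞 K)ˣ) : 𝓞 K) ^ k * a ^ p :=
      Dvd.dvd.mul_left (dvd_pow hdvd hp.out.ne_zero) _
    have h3 : (1 - zetaO p K) ∣ b ^ p := (dvd_sub_right h2).mp h1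
    exact hπ.dvd_of_dvd_pow h3
  exact XiUnit.dvd_of_xi_pow_mul_pow_sub_pow_mem hζ hp5 (planExp p) (planExp_cast p hp5) k b a
    ha' h

/-- [XiUnit] (X4). -/
theorem xiNotPowStmt (p : ℕ) [hp : Fact p.Prime] : XiNotPowStmt p := by
  intro hp5 K _ _ _
  rintro ⟨y, hy⟩
  rw [xi_eq] at hy
  have h1 : p ∣ 1 := XiUnit.dvd_of_xi_pow_eq_pow (zetaO_prim p K) hp5 (planExp p)
    (planExp_cast p hp5) 1 y (by rw [pow_one, hy])
  have := Nat.le_of_dvd (by norm_num) h1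
  omega

end Fermat.Agent.S14.Thaine.XiStmt
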