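import Fermat.Agent.S14.Thaine.Relation
import Fermat.Agent.S14.Thaine.Transfer
import Fermat.Agent.S14.Thaine.XiStmt

/-!
# S14, Thaine route: the contract `ThaineStmt`

Glue between the ideal form of Thaine's relation (`Relation.relationStmt`) and the class group
form consumed by `Transfer.thaineStmt_of_relation`, specialised to the unit `xi p K`.
-/

set_option autoImplicit false

open scoped NumberField nonZeroDivisors

namespace Fermat.Agent.S14.Thaine

namespace ThaineGlue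

variable (p : ℕ) [hp : Fact p.Prime] (K : Type) [Field K] [NumberField K]
  [IsCyclotomicExtension {p} ℚ K]

/-- The exponent family `a ↦ a ^ (p - 3)`. -/
def nP (a : ℕ) : ℕ := a ^ (p - 3)

/-- The total exponent `M = ∑_{0<a<p} a ^ (p - 3)`. -/
def expM : ℕ := ∑ a ∈ Finset.Ico 1 p, a ^ (p - 3)

/-- The exponent family concentrated at `a = 1`. -/
def nM (a : ℕ) : ℕ := if a = 1 then expM p else 0

omit hp in
theorem Ioo_eq_Ico : Finset.Ioo 0 p = Finset.Ico 1 p := by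
  ext a
  simp only [Finset.mem_Ioo, Finset.mem_Ico]
  omega

theorem xiProd_nP :
    Relation.xiProd p (zetaO p K) (nP p) = (1 - zetaO p K) ^ expM p * xi p K := by
  unfold Relation.xiProd xi expM nP
  rw [Ioo_eq_Ico, ← Finset.prod_pow_eq_pow_sum, ← Finset.prod_mul_distrib]
  refine Finset.prod_congr rfl fun a _ => ?_
  rw [← mul_pow]
  congr 1
  unfold cycUnit
  rw [mul_neg_geom_sum]

theorem xiProd_nM :
    Relation.xiProd p (zetaO p K) (nM p) = (1 - zetaO p K) ^ expM p := by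
  unfold Relation.xiProd nM
  have h1 : (1 : ℕ) ∈ Finset.Ioo 0 p := by
    rw [Finset.mem_Ioo]
    exact ⟨Nat.zero_lt_one, hp.out.one_lt⟩
  rw [Finset.prod_eq_single_of_mem 1 h1]
  · rw [if_pos rfl, pow_one]
  · intro a _ ha
    rw [if_neg ha, pow_zero]

theorem one_sub_zetaO_notMem {q : ℕ} (hq : q.Prime) (hpq : p ≠ q) (Q : Ideal (𝓞 K))
    (hQ : Q.IsPrime) (hqQ : (q : 𝓞 K) ∈ Q) : (1 - zetaO p K) ∉ Q := by
  intro h
  have hdvd := Transfer.one_sub_zetaO_pow_dvd p K 1 le_rfl hp.out.one_lt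
  rw [pow_one] at hdvd
  have hpQ : (p : 𝓞 K) ∈ Q := Ideal.mem_of_dvd Q hdvd h
  have hcop : Nat.Coprime p q := (Nat.coprime_primes hp.out hq).2 hpq
  have h1 : ((p.gcd q : ℕ) : ℤ) = p * p.gcdA q + q * p.gcdB q := Nat.gcd_eq_gcd_ab p q
  rw [hcop.gcd_eq_one] at h1
  have h2 := congrArg (Int.cast : ℤ → 𝓞 K) h1
  push_cast at h2
  apply hQ.ne_top
  rw [Ideal.eq_top_iff_one, h2]
  exact Ideal.add_mem _ (Ideal.mul_mem_right _ _ hpQ) (Ideal.mul_mem_right _ _ hqQ)

end ThaineGlue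

open ThaineGlue in
/-- The class group form of Thaine's relation for `xi p K`. -/
theorem relationStmt (p : ℕ) [hp : Fact p.Prime] : RelationStmt p := by
  classical
  intro _ K _ _ _ q hq hdvd g hg
  have hpq : p ≠ q := by
    rintro rfl
    have := Nat.le_of_dvd (Nat.sub_pos_of_lt hp.out.one_lt) hdvd
    have := hp.out.one_lt
    omega
  obtain ⟨r, 𝔠, b, h𝔠, hb, hcong, hfac⟩ := Relation.relationStmt p K (zetaO p K)
    (Transfer.zetaO_isPrimitiveRoot p K) q hq hdvd g hg (nP p) (nM p)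
  have h𝔠' : 𝔠 ∈ (Ideal (𝓞 K))⁰ := mem_nonZeroDivisors_iff_ne_zero.mpr h𝔠
  refine ⟨r, (ClassGroup.mk0 ⟨𝔠, h𝔠'⟩)⁻¹, ?_, ?_⟩
  · intro Q hQ hqQ
    have h1 := hcong Q hQ hqQ
    rw [xiProd_nP, xiProd_nM] at h1
    have h2 : (1 - zetaO p K) ^ expM p * xi p K - (g : 𝓞 K) ^ r Q * (1 - zetaO p K) ^ expM p =
        (xi p K - (g : 𝓞 K) ^ r Q) * (1 - zetaO p K) ^ expM p := by ring
    rw [h2] at h1
    rcases hQ.mem_or_mem h1 with h3 | h3
    · exact h3
    · exact absurd (hQ.mem_of_pow_mem _ h3) (one_sub_zetaO_notMem p K hq hpq Q hQ hqQ)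
  · intro S hS
    have hS' : ∀ Q : Ideal (𝓞 K),
        Q ∈ S.image (fun Q : (Ideal (𝓞 K))⁰ => (Q : Ideal (𝓞 K))) ↔
          Q.IsPrime ∧ (q : 𝓞 K) ∈ Q := by
      intro Q
      rw [Finset.mem_image]
      constructor
      · rintro ⟨Q', hQ', rfl⟩
        exact (hS Q').1 hQ'
      · rintro ⟨hQ, hqQ⟩
        have hQ0 : Q ≠ ⊥ := by
          rintro rfl
          rw [Ideal.mem_bot] at hqQ
          exact hq.ne_zero (by exact_mod_cast hqQ)
        exact ⟨⟨Q, mem_nonZeroDivisors_iff_ne_zero.mpr hQ0⟩, (hS _).2 ⟨hQ, hqQ⟩, rfl⟩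
    have h1 := hfac _ hS'
    rw [Finset.prod_image (fun x _ y _ h => Subtype.ext h)] at h1
    have hb' : Ideal.span {b} ∈ (Ideal (𝓞 K))⁰ :=
      mem_nonZeroDivisors_iff_ne_zero.mpr (by
        rw [Ne, Ideal.zero_eq_bot, Ideal.span_singleton_eq_bot]
        exact hb)
    have h2 : (⟨Ideal.span {b}, hb'⟩ : (Ideal (𝓞 K))⁰) =
        ⟨𝔠, h𝔠'⟩ ^ (q - 1) * ∏ Q ∈ S, Q ^ r (Q : Ideal (𝓞 K)) := by
      apply Subtype.ext
      rw [Submonoid.coe_mul, SubmonoidClass.coe_pow, Submonoid.coe_finsetProd]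
      simp only [SubmonoidClass.coe_pow]
      exact h1
    have h3 := congrArg ClassGroup.mk0 h2
    rw [map_mul, map_pow, map_prod] at h3
    simp only [map_pow] at h3
    have h4 : ClassGroup.mk0 (⟨Ideal.span {b}, hb'⟩ : (Ideal (𝓞 K))⁰) = 1 :=
      (ClassGroup.mk0_eq_one_iff hb').2 ⟨⟨b, rfl⟩⟩
    rw [h4] at h3
    rw [inv_pow, eq_inv_iff_mul_eq_one, mul_comm]
    exact h3.symm

/-- **[Thaine]**: the contract `ThaineStmt`, from the eigen law of `ξ`. -/
theorem thaineStmt (p : ℕ) [Fact p.Prime] : XiEigenStmt p → ThaineStmt p :=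
  thaineStmt_of_relation p (relationStmt p)

/-- **[Thaine]**, closed form (eigen law discharged by `XiStmt.xiEigenStmt`). -/
theorem thaineStmt_closed (p : ℕ) [Fact p.Prime] : ThaineStmt p :=
  thaineStmt p (XiStmt.xiEigenStmt p)

end Fermat.Agent.S14.Thaine
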