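import Mathlib
import Fermat.Agent.Lib.UnitTrace
import Fermat.Agent.Lib.EigenTrace

/-!
# The `ω²`-eigenspace of `E / E^p` for the `p`-th cyclotomic field is one-dimensional

`K` a `p`-th cyclotomic field (`p ≥ 5` prime), `E = (𝓞 K)ˣ`.  If `η₁, η₂ ∈ E` are of `ω²`-type
(`σ η ≡ η ^ (b ^ 2)` modulo `p`-th powers whenever `σ ζ = ζ ^ b`) and `η₁` is not a `p`-th power,
then `η₂ = η₁ ^ k * u ^ p`.
-/

namespace Fermat.Agent.S14.Thaine.UnitRank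

open NumberField NumberField.Units NumberField.InfinitePlace Module
open Fermat.Agent.Lib.UnitTrace Fermat.Agent.Lib.EigenTrace
open scoped TensorProduct

section Places

variable (K : Type*) [Field K] [NumberField K] [IsGalois ℚ K]

/-- In an abelian number field, an automorphism fixing one infinite place fixes all of them. -/
theorem smul_eq_iff_of_comm (hcomm : ∀ σ τ : K ≃ₐ[ℚ] K, σ * τ = τ * σ) (σ : K ≃ₐ[ℚ] K)
    (w₁ w : InfinitePlace K) : σ • w = w ↔ σ • w₁ = w₁ := by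
  obtain ⟨τ, rfl⟩ : ∃ τ : K ≃ₐ[ℚ] K, τ • w₁ = w :=
    exists_smul_eq_of_comap_eq (Subsingleton.elim _ _)
  rw [smul_smul, hcomm, ← smul_smul]
  exact smul_left_cancel_iff τ

theorem card_fixed_of_fixed (hcomm : ∀ σ τ : K ≃ₐ[ℚ] K, σ * τ = τ * σ) (σ : K ≃ₐ[ℚ] K)
    (w₁ : InfinitePlace K) (h : σ • w₁ = w₁) :
    Nat.card {w : InfinitePlace K // σ • w = w} = Nat.card (InfinitePlace K) :=
  Nat.card_congr (Equiv.subtypeUnivEquiv
    fun w => (smul_eq_iff_of_comm K hcomm σ w₁ w).mpr h)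

theorem card_fixed_of_not_fixed (hcomm : ∀ σ τ : K ≃ₐ[ℚ] K, σ * τ = τ * σ) (σ : K ≃ₐ[ℚ] K)
    (w₁ : InfinitePlace K) (h : ¬ σ • w₁ = w₁) :
    Nat.card {w : InfinitePlace K // σ • w = w} = 0 := by
  have : IsEmpty {w : InfinitePlace K // σ • w = w} :=
    ⟨fun w => h ((smul_eq_iff_of_comm K hcomm σ w₁ w.1).mp w.2)⟩
  exact Nat.card_of_isEmpty

theorem card_stabilizer_of_isComplex {w : InfinitePlace K} (hw : w.IsComplex) :
    Nat.card (MulAction.stabilizer (K ≃ₐ[ℚ] K) w) = 2 := by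
  classical
  rw [card_stabilizer, if_neg]
  rw [isUnramified_iff, not_or, not_isReal_iff_isComplex, not_isComplex_iff_isReal]
  refine ⟨hw, ?_⟩
  rw [Subsingleton.elim (w.comap (algebraMap ℚ K)) Rat.infinitePlace]
  exact Rat.isReal_infinitePlace

end Places

section Cyclo

variable (p : ℕ) [hpf : Fact p.Prime] (K : Type*) [Field K] [NumberField K]
  [IsCyclotomicExtension {p} ℚ K]

theorem card_aut : Nat.card (K ≃ₐ[ℚ] K) = p - 1 := by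
  have := IsCyclotomicExtension.isGalois {p} ℚ K
  rw [IsGalois.card_aut_eq_finrank,
    IsCyclotomicExtension.finrank K (Polynomial.cyclotomic.irreducible_rat hpf.out.pos),
    Nat.totient_prime hpf.out]

theorem autToPow_bijective {ζ : K} (hζ : IsPrimitiveRoot ζ p) :
    Function.Bijective (hζ.autToPow ℚ) := by
  rw [Fintype.bijective_iff_injective_and_card]
  refine ⟨hζ.autToPow_injective ℚ, ?_⟩
  rw [ZMod.card_units_eq_totient, Nat.totient_prime hpf.out, ← Nat.card_eq_fintype_card,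
    card_aut p K]

theorem aut_comm {ζ : K} (hζ : IsPrimitiveRoot ζ p) (σ τ : K ≃ₐ[ℚ] K) : σ * τ = τ * σ := by
  apply hζ.autToPow_injective ℚ
  rw [map_mul, map_mul, mul_comm]

theorem card_places (h2 : 2 < p) : Nat.card (InfinitePlace K) = (p - 1) / 2 := by
  rw [Nat.card_eq_fintype_card, card_eq_nrRealPlaces_add_nrComplexPlaces,
    IsCyclotomicExtension.Rat.nrRealPlaces_eq_zero K h2,
    IsCyclotomicExtension.Rat.nrComplexPlaces_eq_totient_div_two p K, zero_add,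
    Nat.totient_prime hpf.out]

theorem isComplex_of_two_lt (h2 : 2 < p) (w : InfinitePlace K) : w.IsComplex := by
  have := IsCyclotomicExtension.Rat.isTotallyComplex K h2
  exact IsTotallyComplex.isComplex w

/-- The square of the cyclotomic character modulo `p`. -/
noncomputable def chiSq {ζ : K} (hζ : IsPrimitiveRoot ζ p) : (K ≃ₐ[ℚ] K) →* (ZMod p)ˣ :=
  (powMonoidHom 2).comp (hζ.autToPow ℚ)

omit [IsCyclotomicExtension {p} ℚ K] in
theorem chiSq_apply {ζ : K} (hζ : IsPrimitiveRoot ζ p) (σ : K ≃ₐ[ℚ] K) :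
    chiSq p K hζ σ = (hζ.autToPow ℚ σ) ^ 2 := rfl

/-- **The `ω²`-eigenspace of the unit lattice modulo `p` is one-dimensional** (`p ≥ 5`). -/
theorem finrank_eigenSub_chiSq (hp5 : 5 ≤ p) {ζ : K} (hζ : IsPrimitiveRoot ζ p) :
    finrank (ZMod p) (eigenSub (modRep K p) (chiSq p K hζ)) = 1 := by
  classical
  have hp := hpf.out
  have h2 : 2 < p := by omega
  have := IsCyclotomicExtension.isGalois {p} ℚ K
  have hcardG : Fintype.card (K ≃ₐ[ℚ] K) = p - 1 := by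
    rw [← Nat.card_eq_fintype_card, card_aut p K]
  have hG : ((Fintype.card (K ≃ₐ[ℚ] K) : ℕ) : ZMod p) = -1 := by
    rw [hcardG, Nat.cast_sub hp.one_le, ZMod.natCast_self]
    simp
  have hG0 : ((Fintype.card (K ≃ₐ[ℚ] K) : ℕ) : ZMod p) ≠ 0 := by
    rw [hG]
    exact neg_ne_zero.mpr one_ne_zero
  have key := card_mul_finrank_eigenSub (modRep K p) (chiSq p K hζ) hG0
  obtain ⟨w₁⟩ : Nonempty (InfinitePlace K) := inferInstance
  have hcomm := aut_comm p K hζ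
  have hstab : Nat.card (MulAction.stabilizer (K ≃ₐ[ℚ] K) w₁) = 2 :=
    card_stabilizer_of_isComplex K (isComplex_of_two_lt p K h2 w₁)
  have htr : ∀ σ : K ≃ₐ[ℚ] K,
      LinearMap.trace (ZMod p) (ZMod p ⊗[ℤ] unitLattice K) (modRep K p σ) =
        (if σ • w₁ = w₁ then (((p - 1) / 2 : ℕ) : ZMod p) else 0) - 1 := by
    intro σ
    rw [trace_modRep]
    by_cases h : σ • w₁ = w₁
    · rw [if_pos h, card_fixed_of_fixed K hcomm σ w₁ h, card_places p K h2]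
    · rw [if_neg h, card_fixed_of_not_fixed K hcomm σ w₁ h]
      simp
  have hone : ∀ σ : K ≃ₐ[ℚ] K, σ • w₁ = w₁ → chiSq p K hζ σ = 1 := by
    intro σ h
    have hmem : σ ∈ MulAction.stabilizer (K ≃ₐ[ℚ] K) w₁ := h
    have h1 : (⟨σ, hmem⟩ : MulAction.stabilizer (K ≃ₐ[ℚ] K) w₁) ^ 2 = 1 := by
      rw [← hstab]
      exact pow_card_eq_one'
    have h2' : σ ^ 2 = 1 := by
      simpa using congrArg Subtype.val h1
    rw [chiSq_apply, ← map_pow, h2', map_one]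
  have hsum1 : ∑ σ : K ≃ₐ[ℚ] K, (((chiSq p K hζ σ)⁻¹ : (ZMod p)ˣ) : ZMod p) *
      (if σ • w₁ = w₁ then (((p - 1) / 2 : ℕ) : ZMod p) else 0) = -1 := by
    have hpt : ∀ σ : K ≃ₐ[ℚ] K, (((chiSq p K hζ σ)⁻¹ : (ZMod p)ˣ) : ZMod p) *
        (if σ • w₁ = w₁ then (((p - 1) / 2 : ℕ) : ZMod p) else 0) =
        if σ • w₁ = w₁ then (((p - 1) / 2 : ℕ) : ZMod p) else 0 := by
      intro σ
      by_cases h : σ • w₁ = w₁
      · rw [if_pos h, hone σ h]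
        simp
      · rw [if_neg h, mul_zero]
    rw [Finset.sum_congr rfl fun σ _ => hpt σ, ← Finset.sum_filter, Finset.sum_const]
    have hc : (Finset.univ.filter fun σ : K ≃ₐ[ℚ] K => σ • w₁ = w₁).card = 2 := by
      rw [← hstab, Nat.card_eq_fintype_card, Fintype.card_subtype]
      rfl
    rw [hc, nsmul_eq_mul, ← Nat.cast_mul]
    have hodd : 2 * ((p - 1) / 2) = p - 1 := by
      rcases hp.eq_two_or_odd with h | h
      · omega
      · omega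
    rw [hodd, Nat.cast_sub hp.one_le, ZMod.natCast_self]
    simp
  have hsum2 : ∑ σ : K ≃ₐ[ℚ] K, (((chiSq p K hζ σ)⁻¹ : (ZMod p)ˣ) : ZMod p) = 0 := by
    let f : (K ≃ₐ[ℚ] K) →* ZMod p := (Units.coeHom (ZMod p)).comp ((chiSq p K hζ)⁻¹)
    have hf : f ≠ 1 := by
      intro hf1
      have hcop : Nat.Coprime 2 p := (Nat.coprime_primes Nat.prime_two hp).mpr (by omega)
      obtain ⟨σ₀, hσ₀⟩ := (autToPow_bijective p K hζ).2 (ZMod.unitOfCoprime 2 hcop)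
      have h3 : f σ₀ = 1 := by rw [hf1]; rfl
      have h4 : ((chiSq p K hζ σ₀)⁻¹ : (ZMod p)ˣ) = 1 := Units.ext h3
      rw [inv_eq_one, chiSq_apply, hσ₀] at h4
      have h5 : ((2 : ℕ) : ZMod p) ^ 2 = 1 := by
        have := congrArg (fun u : (ZMod p)ˣ => (u : ZMod p)) h4
        simpa using this
      have h6 : ((3 : ℕ) : ZMod p) = 0 := by
        have : ((3 : ℕ) : ZMod p) = ((2 : ℕ) : ZMod p) ^ 2 - 1 := by
          push_cast; ring
        rw [this, h5, sub_self]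
      rw [ZMod.natCast_eq_zero_iff] at h6
      have := Nat.le_of_dvd (by norm_num) h6
      omega
    exact sum_hom_units_eq_zero f hf
  have hfin : ((finrank (ZMod p) (eigenSub (modRep K p) (chiSq p K hζ)) : ℕ) : ZMod p) = 1 := by
    rw [hG] at key
    rw [Finset.sum_congr rfl fun σ _ => by rw [htr σ]] at key
    simp only [mul_sub, mul_one, Finset.sum_sub_distrib] at key
    rw [hsum1, hsum2, sub_zero] at key
    have := congrArg Neg.neg key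
    simpa using this
  have hle : finrank (ZMod p) (eigenSub (modRep K p) (chiSq p K hζ)) < p := by
    have h1 := Submodule.finrank_le (eigenSub (modRep K p) (chiSq p K hζ))
    rw [finrank_modLat] at h1
    have h2' : NumberField.Units.rank K < p := by
      have hc := card_places p K h2
      rw [Nat.card_eq_fintype_card] at hc
      unfold NumberField.Units.rank
      omega
    omega
  have h1p : (1 : ℕ) < p := by omega
  have h7 : ((finrank (ZMod p) (eigenSub (modRep K p) (chiSq p K hζ)) : ℕ) : ZMod p) =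
      ((1 : ℕ) : ZMod p) := by rw [hfin, Nat.cast_one]
  rw [ZMod.natCast_eq_natCast_iff', Nat.mod_eq_of_lt hle, Nat.mod_eq_of_lt h1p] at h7
  exact h7

end Cyclo

section Units

variable (K : Type*) [Field K]

/-- An element of `K` some positive power of which is a unit of `𝓞 K` is itself a unit. -/
theorem exists_unit_of_pow_eq {n : ℕ} (hn : 0 < n) (u : K) (w : (𝓞 K)ˣ)
    (h : u ^ n = algebraMap (𝓞 K) K (w : 𝓞 K)) :
    ∃ v : (𝓞 K)ˣ, algebraMap (𝓞 K) K (v : 𝓞 K) = u := by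
  have hw0 : algebraMap (𝓞 K) K (w : 𝓞 K) ≠ 0 :=
    RingOfIntegers.coe_ne_zero_iff.mpr w.ne_zero
  have hu0 : u ≠ 0 := by
    rintro rfl
    rw [zero_pow hn.ne'] at h
    exact hw0 h.symm
  have hu : u ∈ integralClosure ℤ K :=
    IsIntegral.of_pow hn (h ▸ RingOfIntegers.isIntegral_coe (w : 𝓞 K))
  have hwinv : algebraMap (𝓞 K) K ((w⁻¹ : (𝓞 K)ˣ) : 𝓞 K) = (u ^ n)⁻¹ := by
    rw [h]
    apply eq_inv_of_mul_eq_one_left
    rw [← map_mul, Units.inv_mul, map_one]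
  have hu' : u⁻¹ ∈ integralClosure ℤ K := by
    refine IsIntegral.of_pow hn ?_
    rw [inv_pow, ← hwinv]
    exact RingOfIntegers.isIntegral_coe _
  obtain ⟨a, ha⟩ : ∃ a : 𝓞 K, algebraMap (𝓞 K) K a = u := ⟨⟨u, hu⟩, rfl⟩
  obtain ⟨b, hb⟩ : ∃ b : 𝓞 K, algebraMap (𝓞 K) K b = u⁻¹ := ⟨⟨u⁻¹, hu'⟩, rfl⟩
  refine ⟨⟨a, b, ?_, ?_⟩, ha⟩
  · apply RingOfIntegers.coe_injective
    rw [map_mul, ha, hb, map_one]
    exact mul_inv_cancel₀ hu0
  · apply RingOfIntegers.coe_injective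
    rw [map_mul, ha, hb, map_one]
    exact inv_mul_cancel₀ hu0

end Units

theorem div_pow_aux {F : Type*} [Field F] (A E U1 U2 : F) (k B n : ℕ) :
    (A ^ B * U2 ^ n) / (E ^ B * U1 ^ n) ^ k = (A / E ^ k) ^ B * (U2 / U1 ^ k) ^ n := by
  rw [div_pow, div_pow, mul_pow, ← pow_mul, ← pow_mul, ← pow_mul, ← pow_mul, div_mul_div_comm]
  congr 1
  ring

section Main

variable (p : ℕ) [hpf : Fact p.Prime] (K : Type*) [Field K] [NumberField K]
  [IsCyclotomicExtension {p} ℚ K]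

omit [IsCyclotomicExtension {p} ℚ K] in
/-- The class of an `ω²`-type unit lies in the `χ²`-eigenspace of the unit lattice mod `p`. -/
theorem unitClass_mem_eigenSub {ζ : K} (hζ : IsPrimitiveRoot ζ p) (η : (𝓞 K)ˣ)
    (h : ∀ (σ : K ≃ₐ[ℚ] K) (b : ℕ), σ ζ = ζ ^ b →
      ∃ u : K, σ (algebraMap (𝓞 K) K (η : 𝓞 K)) =
        (algebraMap (𝓞 K) K (η : 𝓞 K)) ^ (b ^ 2) * u ^ p) :
    unitClass K p η ∈ eigenSub (modRep K p) (chiSq p K hζ) := by
  intro σ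
  have hσ : σ ζ = ζ ^ (hζ.autToPow ℚ σ : ZMod p).val := (hζ.autToPow_spec ℚ σ).symm
  obtain ⟨u, hu⟩ := h σ _ hσ
  set b := (hζ.autToPow ℚ σ : ZMod p).val with hb
  have hu' : u ^ p =
      algebraMap (𝓞 K) K ((unitMap K σ η * (η ^ (b ^ 2))⁻¹ : (𝓞 K)ˣ) : 𝓞 K) := by
    rw [Units.val_mul, map_mul, unitMap_algebraMap, hu]
    have h1 : algebraMap (𝓞 K) K ((η ^ (b ^ 2) : (𝓞 K)ˣ) : 𝓞 K) *
        algebraMap (𝓞 K) K (((η ^ (b ^ 2))⁻¹ : (𝓞 K)ˣ) : 𝓞 K) = 1 := by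
      rw [← map_mul, Units.mul_inv, map_one]
    rw [Units.val_pow_eq_pow_val, map_pow] at h1
    rw [mul_comm _ (u ^ p), mul_assoc, h1, mul_one]
  obtain ⟨v, hv⟩ := exists_unit_of_pow_eq K hpf.out.pos u _ hu'
  have hmap : unitMap K σ η = η ^ (b ^ 2) * v ^ p := by
    apply Units.ext
    apply RingOfIntegers.coe_injective
    rw [unitMap_algebraMap, hu, Units.val_mul, map_mul, Units.val_pow_eq_pow_val, map_pow,
      Units.val_pow_eq_pow_val, map_pow, hv]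
  rw [← unitClass_unitMap, hmap, unitClass_mul, unitClass_pow, unitClass_pow_prime, add_zero]
  congr 1
  rw [chiSq_apply, Units.val_pow_eq_pow_val, Nat.cast_pow, hb, ZMod.natCast_zmod_val]

/-- Roots of unity of the `p`-th cyclotomic field are powers of `ζ` times `p`-th powers. -/
theorem torsion_eq_zeta_pow_mul_pow {ζ : K} (hζ : IsPrimitiveRoot ζ p) (hodd : Odd p)
    {t : (𝓞 K)ˣ} (ht : t ∈ torsion K) :
    ∃ (m : ℕ) (s : (𝓞 K)ˣ),
      algebraMap (𝓞 K) K (t : 𝓞 K) = ζ ^ m * (algebraMap (𝓞 K) K (s : 𝓞 K)) ^ p := by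
  have hfin : IsOfFinOrder (algebraMap (𝓞 K) K (t : 𝓞 K)) := by
    rw [torsion, CommGroup.mem_torsion] at ht
    obtain ⟨n, hn, htn⟩ := isOfFinOrder_iff_pow_eq_one.mp ht
    refine isOfFinOrder_iff_pow_eq_one.mpr ⟨n, hn, ?_⟩
    rw [← map_pow, ← Units.val_pow_eq_pow_val, htn, Units.val_one, map_one]
  obtain ⟨r, hr⟩ := hζ.exists_neg_pow_of_isOfFinOrder hodd hfin
  refine ⟨r, (-1) ^ r, ?_⟩
  rw [hr, neg_pow, mul_comm]
  congr 1
  rw [Units.val_pow_eq_pow_val, map_pow, Units.val_neg, Units.val_one, map_neg, map_one,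
    ← pow_mul, mul_comm r p, pow_mul, hodd.neg_one_pow]

/-- `ζ ^ j` is a `p`-th power in `K` only if `p ∣ j`. -/
theorem dvd_of_zeta_pow_eq_pow {ζ : K} (hζ : IsPrimitiveRoot ζ p) (hodd : Odd p) (j : ℕ)
    (y : K) (h : ζ ^ j = y ^ p) : p ∣ j := by
  have hp := hpf.out
  have hfin : IsOfFinOrder y := by
    refine isOfFinOrder_iff_pow_eq_one.mpr ⟨p * p, Nat.mul_pos hp.pos hp.pos, ?_⟩
    rw [pow_mul, ← h, ← pow_mul, mul_comm, pow_mul, hζ.pow_eq_one, one_pow]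
  obtain ⟨r, hr⟩ := hζ.exists_neg_pow_of_isOfFinOrder hodd hfin
  have h1 : y ^ p = (-1) ^ (r * p) := by
    rw [hr, ← pow_mul, neg_pow, mul_comm r p, pow_mul ζ p r, hζ.pow_eq_one, one_pow, mul_one]
  have h2 : ζ ^ (j * 2) = 1 := by
    rw [pow_mul, h, h1, ← pow_mul, mul_comm, pow_mul, neg_one_sq, one_pow]
  have h3 : p ∣ j * 2 := (hζ.pow_eq_one_iff_dvd _).mp h2
  have hcop : Nat.Coprime p 2 := by
    refine (Nat.coprime_primes hp Nat.prime_two).mpr ?_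
    rintro rfl
    exact absurd hodd (by decide)
  exact hcop.dvd_of_dvd_mul_right h3

/-- An `ω²`-type unit whose class in the unit lattice mod `p` vanishes is a `p`-th power. -/
theorem eq_pow_of_unitClass_eq_zero (hp5 : 5 ≤ p) {ζ : K} (hζ : IsPrimitiveRoot ζ p)
    (θ : (𝓞 K)ˣ) (h0 : unitClass K p θ = 0)
    (h : ∀ (σ : K ≃ₐ[ℚ] K) (b : ℕ), σ ζ = ζ ^ b →
      ∃ u : K, σ (algebraMap (𝓞 K) K (θ : 𝓞 K)) =
        (algebraMap (𝓞 K) K (θ : 𝓞 K)) ^ (b ^ 2) * u ^ p) :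
    ∃ v : (𝓞 K)ˣ, θ = v ^ p := by
  have hp := hpf.out
  have hodd : Odd p := hp.odd_of_ne_two (by omega)
  obtain ⟨t, ht, v, rfl⟩ := (unitClass_eq_zero_iff K p θ).mp h0
  obtain ⟨m, s, hts⟩ := torsion_eq_zeta_pow_mul_pow p K hζ hodd ht
  have hθ : algebraMap (𝓞 K) K ((t * v ^ p : (𝓞 K)ˣ) : 𝓞 K) =
      ζ ^ m * (algebraMap (𝓞 K) K ((s * v : (𝓞 K)ˣ) : 𝓞 K)) ^ p := by
    rw [Units.val_mul, map_mul, hts, Units.val_pow_eq_pow_val, map_pow, Units.val_mul, map_mul,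
      mul_pow, mul_assoc]
  have hc0 : algebraMap (𝓞 K) K ((s * v : (𝓞 K)ˣ) : 𝓞 K) ≠ 0 :=
    RingOfIntegers.coe_ne_zero_iff.mpr (Units.ne_zero _)
  have hfinal : algebraMap (𝓞 K) K (((s * v) ^ p : (𝓞 K)ˣ) : 𝓞 K) =
      (algebraMap (𝓞 K) K ((s * v : (𝓞 K)ˣ) : 𝓞 K)) ^ p := by
    rw [Units.val_pow_eq_pow_val, map_pow]
  generalize algebraMap (𝓞 K) K ((s * v : (𝓞 K)ˣ) : 𝓞 K) = c at hθ hc0 hfinal
  have hζ0 : ζ ≠ 0 := hζ.ne_zero hp.ne_zero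
  have hcop : Nat.Coprime 2 p := (Nat.coprime_primes Nat.prime_two hp).mpr (by omega)
  obtain ⟨σ₀, hσ₀⟩ := (autToPow_bijective p K hζ).2 (ZMod.unitOfCoprime 2 hcop)
  have hσζ : σ₀ ζ = ζ ^ 2 := by
    have h1 := hζ.autToPow_spec ℚ σ₀
    rw [hσ₀] at h1
    have hval : ((ZMod.unitOfCoprime 2 hcop : (ZMod p)ˣ) : ZMod p).val = 2 := by
      rw [ZMod.coe_unitOfCoprime, ZMod.val_natCast, Nat.mod_eq_of_lt (by omega)]
    rw [hval] at h1
    exact h1.symm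
  obtain ⟨u, hu⟩ := h σ₀ 2 hσζ
  rw [hθ] at hu
  have hu0 : u ≠ 0 := by
    rintro rfl
    rw [zero_pow hp.ne_zero, mul_zero] at hu
    have h1 : ζ ^ m * c ^ p = 0 := by simpa using hu
    exact (mul_ne_zero (pow_ne_zero _ hζ0) (pow_ne_zero _ hc0)) h1
  have hkey : ζ ^ (2 * m) = (σ₀ c / (c ^ 4 * u)) ^ p := by
    rw [map_mul, map_pow, map_pow, hσζ] at hu
    rw [div_pow, eq_div_iff (pow_ne_zero _ (mul_ne_zero (pow_ne_zero _ hc0) hu0))]
    have e : ζ ^ (2 * m) * (σ₀ c) ^ p = ζ ^ (2 * m) * (ζ ^ (2 * m) * (c ^ 4 * u) ^ p) := by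
      calc ζ ^ (2 * m) * (σ₀ c) ^ p = (ζ ^ 2) ^ m * (σ₀ c) ^ p := by ring
        _ = (ζ ^ m * c ^ p) ^ (2 ^ 2) * u ^ p := hu
        _ = ζ ^ (2 * m) * (ζ ^ (2 * m) * (c ^ 4 * u) ^ p) := by ring
    exact (mul_left_cancel₀ (pow_ne_zero _ hζ0) e).symm
  have hdvd : p ∣ 2 * m := dvd_of_zeta_pow_eq_pow p K hζ hodd _ _ hkey
  have hdvd' : p ∣ m := (Nat.Coprime.dvd_mul_left hcop.symm).mp hdvd
  have hζm : ζ ^ m = 1 := (hζ.pow_eq_one_iff_dvd m).mpr hdvd'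
  refine ⟨s * v, ?_⟩
  apply Units.ext
  apply RingOfIntegers.coe_injective
  rw [hθ, hfinal, hζm, one_mul]

/-- **[UnitRank]**: in the `p`-th cyclotomic field (`p ≥ 5`), two units of `ω²`-type, the first of
which is not a `p`-th power, are dependent modulo `p`-th powers. -/
theorem omega_sq_unit_rank_one (hp5 : 5 ≤ p) {ζ : K} (hζ : IsPrimitiveRoot ζ p)
    (η₁ η₂ : (𝓞 K)ˣ)
    (h₁ : ∀ (σ : K ≃ₐ[ℚ] K) (b : ℕ), σ ζ = ζ ^ b →
      ∃ u : K, σ (η₁ : K) = (η₁ : K) ^ (b ^ 2) * u ^ p)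
    (h₂ : ∀ (σ : K ≃ₐ[ℚ] K) (b : ℕ), σ ζ = ζ ^ b →
      ∃ u : K, σ (η₂ : K) = (η₂ : K) ^ (b ^ 2) * u ^ p)
    (hne : ¬ ∃ u : (𝓞 K)ˣ, η₁ = u ^ p) :
    ∃ (k : ℕ) (u : (𝓞 K)ˣ), η₂ = η₁ ^ k * u ^ p := by
  have hx₁ := unitClass_mem_eigenSub p K hζ η₁ h₁
  have hx₂ := unitClass_mem_eigenSub p K hζ η₂ h₂
  have hx₁0 : unitClass K p η₁ ≠ 0 :=
    fun h0 => hne (eq_pow_of_unitClass_eq_zero p K hp5 hζ η₁ h0 h₁)
  have hdim := finrank_eigenSub_chiSq p K hp5 hζ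
  have hne' : (⟨_, hx₁⟩ : eigenSub (modRep K p) (chiSq p K hζ)) ≠ 0 := by
    intro h0
    exact hx₁0 (congrArg Subtype.val h0)
  obtain ⟨c, hc⟩ := (finrank_eq_one_iff_of_nonzero' _ hne').mp hdim ⟨_, hx₂⟩
  have hc' : c • unitClass K p η₁ = unitClass K p η₂ := congrArg Subtype.val hc
  obtain ⟨θ, hθ⟩ : ∃ θ : (𝓞 K)ˣ, η₂ = θ * η₁ ^ c.val := ⟨η₂ * (η₁ ^ c.val)⁻¹, by simp⟩
  have hθ0 : unitClass K p θ = 0 := by
    have h3 := congrArg (unitClass K p) hθ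
    rw [unitClass_mul, unitClass_pow, ZMod.natCast_zmod_val, hc'] at h3
    exact add_eq_right.mp h3.symm
  have hθe : ∀ (σ : K ≃ₐ[ℚ] K) (b : ℕ), σ ζ = ζ ^ b →
      ∃ u : K, σ (algebraMap (𝓞 K) K (θ : 𝓞 K)) =
        (algebraMap (𝓞 K) K (θ : 𝓞 K)) ^ (b ^ 2) * u ^ p := by
    intro σ b hb
    obtain ⟨u₁, hu₁⟩ := h₁ σ b hb
    obtain ⟨u₂, hu₂⟩ := h₂ σ b hb
    have hη₁0 : algebraMap (𝓞 K) K (η₁ : 𝓞 K) ≠ 0 :=
      RingOfIntegers.coe_ne_zero_iff.mpr η₁.ne_zero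
    have hθK : algebraMap (𝓞 K) K (θ : 𝓞 K) =
        algebraMap (𝓞 K) K (η₂ : 𝓞 K) / (algebraMap (𝓞 K) K (η₁ : 𝓞 K)) ^ c.val := by
      rw [eq_div_iff (pow_ne_zero _ hη₁0), ← map_pow, ← map_mul, ← Units.val_pow_eq_pow_val,
        ← Units.val_mul, ← hθ]
    refine ⟨u₂ / u₁ ^ c.val, ?_⟩
    rw [hθK, map_div₀, map_pow]
    erw [hu₂, hu₁]
    exact div_pow_aux _ _ _ _ _ _ _
  obtain ⟨v, hv⟩ := eq_pow_of_unitClass_eq_zero p K hp5 hζ θ hθ0 hθe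
  exact ⟨c.val, v, by rw [hθ, hv, mul_comm]⟩

/-- **[UnitRank]**, consumer form (`ζ : 𝓞 K`, unit-valued eigen laws): if `ξ` is an `ω²`-type unit
which is not a `p`-th power, every `ω²`-type unit is `ξ ^ k * u ^ p`. -/
theorem omegaSq_rank (hp5 : 5 ≤ p) (ζ : 𝓞 K) (hζ : IsPrimitiveRoot ζ p) (ξ : (𝓞 K)ˣ)
    (hξ : ∀ (σ : K ≃ₐ[ℚ] K) (b : ℕ), σ (ζ : K) = (ζ : K) ^ b →
      ∃ u : (𝓞 K)ˣ, σ (ξ : K) = (ξ : K) ^ (b ^ 2) * (u : K) ^ p)
    (hξ' : ¬ ∃ u : (𝓞 K)ˣ, ξ = u ^ p) :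
    ∀ ε : (𝓞 K)ˣ, (∀ (σ : K ≃ₐ[ℚ] K) (b : ℕ), σ (ζ : K) = (ζ : K) ^ b →
      ∃ u : (𝓞 K)ˣ, σ (ε : K) = (ε : K) ^ (b ^ 2) * (u : K) ^ p) →
      ∃ (k : ℕ) (u : (𝓞 K)ˣ), ε = ξ ^ k * u ^ p := by
  intro ε hε
  have hζK : IsPrimitiveRoot (ζ : K) p := hζ.map_of_injective RingOfIntegers.coe_injective
  refine omega_sq_unit_rank_one p K hp5 hζK ξ ε ?_ ?_ hξ'
  · intro σ b hb
    obtain ⟨u, hu⟩ := hξ σ b hb
    exact ⟨(u : K), hu⟩
  · intro σ b hb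
    obtain ⟨u, hu⟩ := hε σ b hb
    exact ⟨(u : K), hu⟩

end Main

end Fermat.Agent.S14.Thaine.UnitRank
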