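import Mathlib
import Fermat.Agent.S14.Thaine.Plan
import Fermat.Agent.S14.Thaine.UnitRank

/-!
# S14, Thaine route: the contract `UnitRankStmt`

`theorem unitRankStmt (p) [Fact p.Prime] : UnitRankStmt p`, from the elementary form
`UnitRank.omega_sq_unit_rank_one` (trace of the Galois group on the unit lattice).
-/

set_option autoImplicit false

open scoped NumberField nonZeroDivisors

namespace Fermat.Agent.S14.Thaine

open JacobiSumStickelberger

namespace UnitRank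

section

variable (p : ℕ) [Fact p.Prime] (K : Type) [Field K] [NumberField K]
  [IsCyclotomicExtension {p} ℚ K]

theorem coe_clRingAction_eq (d : (ZMod p)ˣ) (x : 𝓞 K) :
    algebraMap (𝓞 K) K (clRingAction p K d x) =
      (cycloGalEquiv p K).symm d (algebraMap (𝓞 K) K x) := by
  show algebraMap (𝓞 K) K (galRestrict ℤ ℚ K (𝓞 K) ((cycloGalEquiv p K).symm d) x) = _
  rw [algebraMap_galRestrict_apply]

/-- The Plan's `IsOmegaSq` gives the elementary eigen law with respect to the primitive root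
`IsCyclotomicExtension.zeta p ℚ K`. -/
theorem eigen_of_isOmegaSq (η : (𝓞 K)ˣ) (h : IsOmegaSq p K (η : 𝓞 K)) :
    ∀ (σ : K ≃ₐ[ℚ] K) (b : ℕ),
      σ (IsCyclotomicExtension.zeta p ℚ K) = (IsCyclotomicExtension.zeta p ℚ K) ^ b →
      ∃ u : K, σ (algebraMap (𝓞 K) K (η : 𝓞 K)) =
        (algebraMap (𝓞 K) K (η : 𝓞 K)) ^ (b ^ 2) * u ^ p := by
  intro σ b hb
  have hζ := IsCyclotomicExtension.zeta_spec p ℚ K
  obtain ⟨u, hu⟩ := h (cycloGalEquiv p K σ)
  have h1 := congrArg (algebraMap (𝓞 K) K) hu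
  rw [coe_clRingAction_eq, MulEquiv.symm_apply_apply, map_mul, map_pow, map_pow] at h1
  have hdb : ((cycloGalEquiv p K σ : (ZMod p)ˣ) : ZMod p) = (b : ZMod p) := by
    have h2 : (IsCyclotomicExtension.zeta p ℚ K) ^
        ((cycloGalEquiv p K σ : (ZMod p)ˣ) : ZMod p).val =
        σ (IsCyclotomicExtension.zeta p ℚ K) := hζ.autToPow_spec ℚ σ
    rw [hb] at h2
    have hmod : (IsCyclotomicExtension.zeta p ℚ K) ^ b =
        (IsCyclotomicExtension.zeta p ℚ K) ^ (b % p) := by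
      conv_lhs => rw [← Nat.div_add_mod b p]
      rw [pow_add, pow_mul, hζ.pow_eq_one, one_pow, one_mul]
    rw [hmod] at h2
    have h3 := hζ.pow_inj (ZMod.val_lt _) (Nat.mod_lt _ (NeZero.pos p)) h2
    have h5 := congrArg (fun n : ℕ => (n : ZMod p)) h3
    simp only [ZMod.natCast_zmod_val, ZMod.natCast_mod] at h5
    exact h5
  have he : ((((cycloGalEquiv p K σ : (ZMod p)ˣ) : ZMod p)) ^ 2).val = b ^ 2 % p := by
    rw [hdb, ← Nat.cast_pow, ZMod.val_natCast]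
  rw [he] at h1
  have hx0 : algebraMap (𝓞 K) K (η : 𝓞 K) ≠ 0 :=
    NumberField.RingOfIntegers.coe_ne_zero_iff.mpr η.ne_zero
  generalize algebraMap (𝓞 K) K (η : 𝓞 K) = x at h1 hx0 ⊢
  refine ⟨algebraMap (𝓞 K) K u / x ^ (b ^ 2 / p), ?_⟩
  have hsplit : x ^ (b ^ 2) = x ^ (b ^ 2 % p) * (x ^ (b ^ 2 / p)) ^ p := by
    rw [← pow_mul, ← pow_add, Nat.mod_add_div']
  rw [h1, hsplit, div_pow]
  field_simp

end

end UnitRank

/-- **[UnitRank]**, the Plan contract. -/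
theorem unitRankStmt (p : ℕ) [Fact p.Prime] : UnitRankStmt p := by
  intro h5 K _ _ _ η₁ η₂ hu₁ hu₂ ho₁ ho₂ hne
  obtain ⟨e₁, rfl⟩ := hu₁
  obtain ⟨e₂, rfl⟩ := hu₂
  have hζ := IsCyclotomicExtension.zeta_spec p ℚ K
  have hne' : ¬ ∃ u : (𝓞 K)ˣ, e₁ = u ^ p := by
    rintro ⟨u, hu⟩
    exact hne ⟨(u : 𝓞 K), by rw [hu, Units.val_pow_eq_pow_val]⟩
  obtain ⟨k, u, hku⟩ := UnitRank.omega_sq_unit_rank_one p K h5 hζ e₁ e₂
    (UnitRank.eigen_of_isOmegaSq p K e₁ ho₁) (UnitRank.eigen_of_isOmegaSq p K e₂ ho₂) hne'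
  exact ⟨k, (u : 𝓞 K), by
    rw [hku, Units.val_mul, Units.val_pow_eq_pow_val, Units.val_pow_eq_pow_val]⟩

end Fermat.Agent.S14.Thaine
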