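import Mathlib
import Fermat.Agent.S14.Plan
import Fermat.Agent.S14.Thaine.KummerGen.Core

/-!
# The Kummer generator of a field datum (`[KG-a]` and `KummerStmt` of the S14 plan)

* `exists_kummer_generator` : the leaf `[KG-a]` of the bridge roster, verbatim: an integral
  Kummer generator `θ ^ p = a` of `L / K` with `a` not a `p`-th power and of `ω²`-type.
* `kummerStmt : Plan.KummerStmt p` : the full contract, a singular primary number of type `ω²`
  from a field datum which is split at `p` (from `exists_singular_primary` in `KummerGen/Core`).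
-/

set_option autoImplicit false

open scoped NumberField
open scoped Pointwise

namespace Fermat.Agent.S14.Thaine.KummerGen

open Fermat.Agent.S14

/-- The lifts of a field datum, in the form `s ∘ τ ^ b = τ ∘ s`. -/
theorem exists_lift_of_fieldDatum (p : ℕ) [Fact p.Prime] (D : Plan.FieldDatum p)
    (σ : D.K ≃ₐ[ℚ] D.K) (b : ℕ) (ζ : D.K) (hζ : IsPrimitiveRoot ζ p) (hb : σ ζ = ζ ^ b) :
    ∃ s : D.L ≃+* D.L, (∀ x : D.K, s (algebraMap D.K D.L x) = algebraMap D.K D.L (σ x)) ∧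
      ∀ (τ : D.L ≃ₐ[D.K] D.L) (x : D.L), s ((τ ^ b) x) = τ (s x) := by
  have hp : p.Prime := Fact.out
  have : NeZero p := ⟨hp.ne_zero⟩
  have hfd : FiniteDimensional D.K D.L := Module.Finite.of_restrictScalars_finite ℚ D.K D.L
  obtain ⟨s, hs1, hs2⟩ := D.lift (JacobiSumStickelberger.cycloGalEquiv p D.K σ)
  refine ⟨s, ?_, ?_⟩
  · intro x
    rw [hs1 x, MulEquiv.symm_apply_apply]
  · intro τ x
    have hσζ : σ ζ = ζ ^ ((JacobiSumStickelberger.cycloGalEquiv p D.K σ : (ZMod p)ˣ) : ZMod p).val :=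
      IsCyclotomicExtension.Rat.galEquivZMod_apply_of_pow_eq p D.K σ hζ.pow_eq_one
    have hmod : b ≡ ((JacobiSumStickelberger.cycloGalEquiv p D.K σ : (ZMod p)ˣ) : ZMod p).val
        [MOD p] := by
      have h1 : ζ ^ b = ζ ^ ((JacobiSumStickelberger.cycloGalEquiv p D.K σ : (ZMod p)ˣ) :
          ZMod p).val := by rw [← hb, hσζ]
      rw [(hζ.isOfFinOrder hp.ne_zero).pow_inj_mod, ← hζ.eq_orderOf] at h1
      exact h1
    have hbe : b * ((((JacobiSumStickelberger.cycloGalEquiv p D.K σ)⁻¹ : (ZMod p)ˣ) :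
        ZMod p)).val ≡ 1 [MOD p] := by
      have h1 : ((b * ((((JacobiSumStickelberger.cycloGalEquiv p D.K σ)⁻¹ : (ZMod p)ˣ) :
          ZMod p)).val : ℕ) : ZMod p) = ((1 : ℕ) : ZMod p) := by
        rw [Nat.cast_mul, (ZMod.natCast_eq_natCast_iff _ _ _).mpr hmod, ZMod.natCast_zmod_val,
          ZMod.natCast_zmod_val, Nat.cast_one]
        exact Units.mul_inv _
      exact (ZMod.natCast_eq_natCast_iff _ _ _).mp h1
    have hord : orderOf τ ∣ p := by
      have h1 := orderOf_dvd_natCard τ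
      rwa [IsGalois.card_aut_eq_finrank, D.finrank_eq] at h1
    have hτ : τ ^ (b * ((((JacobiSumStickelberger.cycloGalEquiv p D.K σ)⁻¹ : (ZMod p)ˣ) :
        ZMod p)).val) = τ := by
      conv_rhs => rw [← pow_one τ]
      rw [pow_eq_pow_iff_modEq]
      exact hbe.of_dvd hord
    have h2 := hs2 (τ ^ b) (s x)
    rw [RingEquiv.symm_apply_apply, ← pow_mul, hτ] at h2
    exact h2

/-- **`[KG-a]`** (bridge roster, verbatim).  The extension `L / K` of a field datum is generated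
by an integral `p`-th root `θ` of a nonzero algebraic integer `a` of `K`, which is not a `p`-th
power in `K` and is of `ω²`-type. -/
theorem exists_kummer_generator (p : ℕ) [Fact p.Prime] (D : Fermat.Agent.S14.Plan.FieldDatum p) :
    ∃ (θ : 𝓞 D.L) (a : 𝓞 D.K), a ≠ 0 ∧ θ ^ p = algebraMap (𝓞 D.K) (𝓞 D.L) a ∧
      (¬ ∃ β : D.K, (a : D.K) = β ^ p) ∧
      ∀ (σ : D.K ≃ₐ[ℚ] D.K) (b : ℕ) (ζ : D.K), IsPrimitiveRoot ζ p → σ ζ = ζ ^ b →
        ∃ γ : D.K, σ (a : D.K) = (a : D.K) ^ (b ^ 2) * γ ^ p := by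
  have hp : p.Prime := Fact.out
  have : NeZero p := ⟨hp.ne_zero⟩
  have hfd : FiniteDimensional D.K D.L := Module.Finite.of_restrictScalars_finite ℚ D.K D.L
  have hζ0 := IsCyclotomicExtension.zeta_spec p ℚ D.K
  obtain ⟨θ, a, ha0, hθpow, hθ0, htop⟩ :=
    exists_integral_kummer_root p D.K D.L _ hζ0 D.finrank_eq
  have hθL : algebraMap (𝓞 D.L) D.L θ ^ p =
      algebraMap D.K D.L (algebraMap (𝓞 D.K) D.K a) := by
    rw [← map_pow, hθpow]
    rfl
  refine ⟨θ, a, ha0, hθpow, ?_, ?_⟩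
  · rintro ⟨β, hβ⟩
    exact not_pow_of_adjoin_eq_top p D.finrank_eq _ hζ0 _ _ hθ0 hθL htop ⟨β, hβ.symm⟩
  · intro σ b ζ hζ hb
    obtain ⟨s, hs1, hs2⟩ := exists_lift_of_fieldDatum p D σ b ζ hζ hb
    obtain ⟨c, -, hc⟩ := eigen_law p ζ hζ _ _ hθ0 hθL (σ : D.K →+* D.K) (s : D.L →+* D.L)
      hs1 b hb hs2
    exact ⟨c, hc⟩

/-- **`KummerStmt`**: a field datum which is split at `p` carries a singular primary number of
type `ω²`. -/
theorem kummerStmt (p : ℕ) [Fact p.Prime] : Plan.KummerStmt p := by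
  intro _ D hD
  have hp : p.Prime := Fact.out
  have : NeZero p := ⟨hp.ne_zero⟩
  have hζ0 := IsCyclotomicExtension.zeta_spec p ℚ D.K
  have hζ : IsPrimitiveRoot hζ0.toInteger p := hζ0.toInteger_isPrimitiveRoot
  obtain ⟨α, θ, hα0, hθ, htop, hπ, hnp, heig, hspan, hprim⟩ :=
    exists_singular_primary p D.K D.L hζ0.toInteger hζ D.finrank_eq D.unram
      (fun σ b hb => exists_lift_of_fieldDatum p D σ b _ hζ0 hb) hD
  refine ⟨hζ0.toInteger, α, hζ, ⟨?_, ?_, hspan, ?_, hprim⟩⟩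
  · rintro ⟨β, hβ⟩
    exact hnp ⟨β, hβ.symm⟩
  · intro σ b hb
    obtain ⟨c, -, hc⟩ := heig σ b hb
    exact ⟨c, hc⟩
  · rw [Ideal.mem_span_singleton]
    exact hπ

end Fermat.Agent.S14.Thaine.KummerGen
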