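import Fermat.Agent.S14.Thaine.Core
import Fermat.Agent.S14.Thaine.CaseA
import Fermat.Agent.S14.Thaine.CaseB
import Fermat.Agent.S14.Thaine.PsiCharStmt
import Fermat.Agent.S14.Thaine.XiStmt
import Fermat.Agent.S14.Thaine.UnitRankStmt
import Fermat.Agent.S14.Thaine.ThaineStmt
import Fermat.Agent.S14.Thaine.MiniChebStmt
import Fermat.Agent.Lib.ClassZetaAbel

/-!
# S14, Thaine route: the arithmetic core, closed

There is no singular primary number of `ω²`-type in the `p`-th cyclotomic field
(`Plan.NoSingularPrimaryStmt p`), assembled from the providers of the contracts of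
`S14/Thaine/Plan.lean`.
-/

set_option autoImplicit false

namespace Fermat.Agent.S14.Thaine

/-- Case A, closed. -/
theorem caseAStmt_closed (p : ℕ) [Fact p.Prime] : CaseAStmt p :=
  CaseA.caseAStmt p (XiStmt.xiIsUnitStmt p) (XiStmt.xiEigenStmt p) (XiStmt.xiCongStmt p)
    (XiStmt.xiNotPowStmt p) (unitRankStmt p)

/-- The density statement, closed. -/
theorem miniChebStmt_closed : MiniChebStmt :=
  miniChebStmt Fermat.Agent.Lib.ClassZetaAbel.classZetaStmt

/-- Case B, closed. -/
theorem caseBStmt_closed (p : ℕ) [Fact p.Prime] : CaseBStmt p :=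
  caseBStmt p (XiStmt.xiIsUnitStmt p) (XiStmt.xiNotPowStmt p) psiCharStmt
    (thaineStmt p (XiStmt.xiEigenStmt p)) miniChebStmt_closed

/-- The arithmetic core of the Thaine route: there is no singular primary number of
`ω²`-type in the `p`-th cyclotomic field. -/
theorem noSingularPrimaryStmt (p : ℕ) [Fact p.Prime] :
    Fermat.Agent.S14.Plan.NoSingularPrimaryStmt p :=
  Core.noSingularPrimaryStmt_of_cases p (caseAStmt_closed p) (caseBStmt_closed p)
    CaseA.threeStmt

end Fermat.Agent.S14.Thaine
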