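import Fermat.Agent.S14.Thaine.Relation.NormOne
import Fermat.Agent.Lib.InvariantIdeal
import Fermat.Agent.Lib.CycloRamifyPack

/-!
# Thaine relation: proof of `RelationStmt`

Assembly of the norm-one unit `δ` (`Relation/NormOne`), Hilbert 90, the invariant-ideal lemma
(`Lib/InvariantIdeal`) and the ramification of `K(ζ_q) / K` (`Lib/CycloRamifyPack`).
-/

open NumberField Polynomial

namespace Fermat.Agent.S14.Thaine.Relation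

section Assembly

variable (p q : ℕ) [hp : Fact p.Prime] [hq : Fact q.Prime] (K F : Type) [Field K] [NumberField K]
  [IsCyclotomicExtension {p} ℚ K] [Field F] [NumberField F] [Algebra K F]
  [IsCyclotomicExtension {q} K F]

variable {q F} in
theorem thaine_of_exponents (hpq : p ≠ q) (hdvd : p ∣ q - 1) {zeta : 𝓞 K}
    (hz : IsPrimitiveRoot zeta p) {zq : 𝓞 F} (hzq : IsPrimitiveRoot zq q)
    (g : ℤ) (g₀ : ℕ) (hgg : (q : ℤ) ∣ g - g₀)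
    (τ : F ≃ₐ[K] F) (hτ : ∀ σ : F ≃ₐ[K] F, σ ∈ Subgroup.zpowers τ)
    (S : Finset (Ideal (𝓞 K))) (𝔔 : Ideal (𝓞 K) → Ideal (𝓞 F))
    (hS : ∀ Q, Q ∈ S ↔ Q.IsPrime ∧ (q : 𝓞 K) ∈ Q)
    (h𝔔 : ∀ Q ∈ S, (𝔔 Q).under (𝓞 K) = Q ∧ (1 - zq) ∈ 𝔔 Q)
    (hexp : ∀ β D : 𝓞 F, β ≠ 0 → IsUnit D → galRestrict (𝓞 K) K F (𝓞 F) τ β = D * β →
      ∃ (r : Ideal (𝓞 K) → ℕ) (𝔠 : Ideal (𝓞 K)), 𝔠 ≠ ⊥ ∧
        (∀ Q ∈ S, D - algebraMap (𝓞 K) (𝓞 F) ((g₀ : 𝓞 K) ^ r Q) ∈ 𝔔 Q) ∧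
        Ideal.span {Algebra.intNorm (𝓞 K) (𝓞 F) β} = 𝔠 ^ (q - 1) * ∏ Q ∈ S, Q ^ r Q)
    (nP nM : ℕ → ℕ) :
    ∃ (r : Ideal (𝓞 K) → ℕ) (𝔠 : Ideal (𝓞 K)) (b : 𝓞 K), 𝔠 ≠ ⊥ ∧ b ≠ 0 ∧
      (∀ Q : Ideal (𝓞 K), Q.IsPrime → (q : 𝓞 K) ∈ Q →
        xiProd p zeta nP - (g : 𝓞 K) ^ r Q * xiProd p zeta nM ∈ Q) ∧
      Ideal.span {b} = 𝔠 ^ (q - 1) * ∏ Q ∈ S, Q ^ r Q := by
  have hGal : IsGalois K F := IsCyclotomicExtension.isGalois {q} K F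
  set A := liftProd p zeta zq nP with hA
  set B := liftProd p zeta zq nM with hB
  have hAu : IsUnit A := isUnit_liftProd p K hpq hdvd hz hzq nP
  have hBu : IsUnit B := isUnit_liftProd p K hpq hdvd hz hzq nM
  have hAn : Algebra.norm K (algebraMap (𝓞 F) F A) = 1 := norm_liftProd p K hpq hdvd hz hzq nP
  have hBn : Algebra.norm K (algebraMap (𝓞 F) F B) = 1 := norm_liftProd p K hpq hdvd hz hzq nM
  set D : (𝓞 F)ˣ := hAu.unit * hBu.unit⁻¹ with hD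
  have hDB : (D : 𝓞 F) * B = A := by
    have : D * hBu.unit = hAu.unit := by rw [hD, inv_mul_cancel_right]
    have h2 := congrArg (Units.val) this
    rwa [Units.val_mul, IsUnit.unit_spec, IsUnit.unit_spec] at h2
  have hDn : Algebra.norm K (algebraMap (𝓞 F) F (D : 𝓞 F)) = 1 := by
    have h1 := congrArg (fun x => Algebra.norm K (algebraMap (𝓞 F) F x)) hDB
    simp only [map_mul] at h1
    rwa [hBn, hAn, mul_one] at h1
  obtain ⟨β, hβ0, hβ⟩ := exists_hilbert90 τ hτ D hDn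
  obtain ⟨r, 𝔠, h𝔠, hr, hfac⟩ := hexp β D hβ0 D.isUnit hβ
  refine ⟨r, 𝔠, Algebra.intNorm (𝓞 K) (𝓞 F) β, h𝔠, ?_, ?_, hfac⟩
  · exact Algebra.intNorm_ne_zero.2 hβ0
  · intro Q hQ hqQ
    have hQS : Q ∈ S := (hS Q).2 ⟨hQ, hqQ⟩
    obtain ⟨hcomap, hlam⟩ := h𝔔 Q hQS
    have hspan : Ideal.span {1 - zq} ≤ 𝔔 Q := (Ideal.span_singleton_le_iff_mem _).2 hlam
    have h1 := hr Q hQS
    have h2 : A - algebraMap (𝓞 K) (𝓞 F) ((g₀ : 𝓞 K) ^ r Q) * B ∈ 𝔔 Q := by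
      have : A - algebraMap (𝓞 K) (𝓞 F) ((g₀ : 𝓞 K) ^ r Q) * B =
          ((D : 𝓞 F) - algebraMap (𝓞 K) (𝓞 F) ((g₀ : 𝓞 K) ^ r Q)) * B := by
        rw [sub_mul, hDB]
      rw [this]
      exact Ideal.mul_mem_right _ _ h1
    have h3 := hspan (liftProd_sub_mem p zeta zq nP)
    have h4 := hspan (liftProd_sub_mem p zeta zq nM)
    have h5 : algebraMap (𝓞 K) (𝓞 F)
        (xiProd p zeta nP - (g₀ : 𝓞 K) ^ r Q * xiProd p zeta nM) ∈ 𝔔 Q := by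
      have : algebraMap (𝓞 K) (𝓞 F) (xiProd p zeta nP - (g₀ : 𝓞 K) ^ r Q * xiProd p zeta nM)
          = (A - algebraMap (𝓞 K) (𝓞 F) ((g₀ : 𝓞 K) ^ r Q) * B)
            - (A - algebraMap (𝓞 K) (𝓞 F) (xiProd p zeta nP))
            + algebraMap (𝓞 K) (𝓞 F) ((g₀ : 𝓞 K) ^ r Q) *
              (B - algebraMap (𝓞 K) (𝓞 F) (xiProd p zeta nM)) := by
        rw [map_sub, map_mul]
        ring
      rw [this]
      exact Ideal.add_mem _ (Ideal.sub_mem _ h2 h3) (Ideal.mul_mem_left _ _ h4)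
    have h6 : xiProd p zeta nP - (g₀ : 𝓞 K) ^ r Q * xiProd p zeta nM ∈ Q := by
      have h5' : xiProd p zeta nP - (g₀ : 𝓞 K) ^ r Q * xiProd p zeta nM ∈ (𝔔 Q).under (𝓞 K) :=
        Ideal.mem_comap.2 h5
      rwa [hcomap] at h5'
    have h7 : (g : 𝓞 K) ^ r Q - (g₀ : 𝓞 K) ^ r Q ∈ Q := by
      obtain ⟨k, hk⟩ := hgg
      have h8 : (g : 𝓞 K) - (g₀ : 𝓞 K) = (q : 𝓞 K) * (k : 𝓞 K) := by
        have := congrArg (Int.cast : ℤ → 𝓞 K) hk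
        push_cast at this
        exact this
      have h9 : (g : 𝓞 K) - (g₀ : 𝓞 K) ∈ Q := by
        rw [h8]
        exact Ideal.mul_mem_right _ _ hqQ
      obtain ⟨c, hc⟩ := sub_dvd_pow_sub_pow (g : 𝓞 K) (g₀ : 𝓞 K) (r Q)
      rw [hc]
      exact Ideal.mul_mem_right _ _ h9
    have : xiProd p zeta nP - (g : 𝓞 K) ^ r Q * xiProd p zeta nM =
        (xiProd p zeta nP - (g₀ : 𝓞 K) ^ r Q * xiProd p zeta nM)
          - ((g : 𝓞 K) ^ r Q - (g₀ : 𝓞 K) ^ r Q) * xiProd p zeta nM := by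
      ring
    rw [this]
    exact Ideal.sub_mem _ h6 (Ideal.mul_mem_right _ _ h7)

end Assembly

open Fermat.Agent.Lib.CycloRamify in
/-- Thaine's relation. -/
theorem relationStmt (p : ℕ) [hp : Fact p.Prime] : RelationStmt p := by
  intro K _ _ _ zeta hz q hq hdvd g hg nP nM
  have : Fact q.Prime := ⟨hq⟩
  have : NeZero q := ⟨hq.ne_zero⟩
  have hpq : p ≠ q := by
    rintro rfl
    have := Nat.le_of_dvd (Nat.sub_pos_of_lt hp.out.one_lt) hdvd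
    have := hp.out.one_lt
    omega
  let F := CyclotomicField q K
  let zq : 𝓞 F := (IsCyclotomicExtension.zeta_spec q K F).toInteger
  have hzq : IsPrimitiveRoot zq q :=
    (IsCyclotomicExtension.zeta_spec q K F).toInteger_isPrimitiveRoot
  set g₀ := (g : ZMod q).val with hg₀def
  have hcast : ((g₀ : ℕ) : ZMod q) = (g : ZMod q) := by
    rw [hg₀def, ZMod.natCast_zmod_val]
  have hg₀ : orderOf ((g₀ : ℕ) : ZMod q) = q - 1 := by rw [hcast]; exact hg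
  have hgg : (q : ℤ) ∣ g - g₀ := by
    rw [← ZMod.intCast_eq_intCast_iff_dvd_sub]
    push_cast
    exact hcast
  obtain ⟨hdeg, hgal, τ, hgen, hτζ, hS, hram, hunr, hlam, hgτ⟩ :=
    thaine_pack hp.out hq hpq K F zq hzq g₀ hg₀
  have hexp : ∀ β D : 𝓞 F, β ≠ 0 → IsUnit D → galRestrict (𝓞 K) K F (𝓞 F) τ β = D * β →
      ∃ (r : Ideal (𝓞 K) → ℕ) (𝔠 : Ideal (𝓞 K)), 𝔠 ≠ ⊥ ∧
        (∀ Q ∈ primesAbove K q,
          D - algebraMap (𝓞 K) (𝓞 F) ((g₀ : 𝓞 K) ^ r Q) ∈ primeOver F Q) ∧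
        Ideal.span {Algebra.intNorm (𝓞 K) (𝓞 F) β} =
          𝔠 ^ (q - 1) * ∏ Q ∈ primesAbove K q, Q ^ r Q := by
    intro β D hβ hD hτβ
    have h := Fermat.Agent.Lib.InvariantIdeal.exists_exponents_fun τ hgen (primesAbove K q)
      (fun Q hQ => ⟨(hS Q hQ).1, (hS Q hQ).2.1⟩) (primeOver F) (fun Q hQ => (hS Q hQ).2.2.1)
      hram hunr (1 - zq) hlam (g₀ : 𝓞 K) hgτ β D hβ hD hτβ
    rw [hdeg] at h
    exact h
  obtain ⟨r, 𝔠, b, h𝔠, hb, hcong, hfac⟩ := thaine_of_exponents p K hpq hdvd hz hzq g g₀ hgg τ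
    hgen (primesAbove K q) (primeOver F) (fun Q => mem_primesAbove hq.ne_zero)
    (fun Q hQ => ⟨(hS Q hQ).2.2.2, (hlam Q hQ).1⟩) hexp nP nM
  refine ⟨r, 𝔠, b, h𝔠, hb, hcong, ?_⟩
  intro S hSiff
  have hSeq : S = primesAbove K q := by
    ext Q
    rw [hSiff, mem_primesAbove hq.ne_zero]
  rw [hSeq]
  exact hfac

end Fermat.Agent.S14.Thaine.Relation
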